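import Fermat.Agent.S14.SI.TameInterface

/-!
# S14 / H2 Route I: consequences of "the primes of `S` generate the class group" (helper90)

* `valuation_eq_exp_neg_count`: `v.valuation K c = exp (- count K v (c))`.
* `exists_valuation_eq_of_closure_eq_top`: if the classes of the primes in `S` generate the
  class group, then for every finitely supported family of exponents `n_v` there is `c ∈ Kˣ`
  with `ord_v c = n_v` for all `v ∉ S`.
-/

set_option autoImplicit false

open IsDedekindDomain FractionalIdeal

open scoped nonZeroDivisors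

namespace Fermat.Agent.S14SI

section ClassGen

variable {R K : Type*} [CommRing R] [IsDedekindDomain R] [Field K] [Algebra R K]
  [IsFractionRing R K]

open HeightOneSpectrum WithZero

/-- The adic valuation of a nonzero element in terms of the `count` of its principal
fractional ideal. -/
theorem valuation_eq_exp_neg_count (v : HeightOneSpectrum R) {c : K} (hc : c ≠ 0) :
    v.valuation K c = exp (-(count K v (spanSingleton R⁰ c))) := by
  obtain ⟨a, b, hb, rfl⟩ := IsFractionRing.div_surjective (A := R) c
  have hb0 : b ≠ 0 := nonZeroDivisors.ne_zero hb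
  have ha0 : a ≠ 0 := by
    rintro rfl
    simp at hc
  have hI : spanSingleton R⁰ (algebraMap R K a / algebraMap R K b) ≠ 0 :=
    spanSingleton_ne_zero_iff.mpr hc
  have hrep : spanSingleton R⁰ (algebraMap R K a / algebraMap R K b) =
      spanSingleton R⁰ ((algebraMap R K) b)⁻¹ * ((Ideal.span {a} : Ideal R) :
        FractionalIdeal R⁰ K) := by
    rw [coeIdeal_span_singleton, spanSingleton_mul_spanSingleton, div_eq_inv_mul]
  rw [count_well_defined K v hI hrep, map_div₀, valuation_of_algebraMap,
    valuation_of_algebraMap, v.intValuation_if_neg ha0, v.intValuation_if_neg hb0, neg_sub,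
    ← exp_sub]
  congr 1
  ring

variable (K) in
/-- The subgroup of fractional ideals which are principal "away from `S`". -/
def principalAway (S : Set (HeightOneSpectrum R)) : Subgroup (FractionalIdeal R⁰ K)ˣ where
  carrier := {J | ∃ c : Kˣ, ∀ v : HeightOneSpectrum R, v ∉ S →
    count K v (J : FractionalIdeal R⁰ K) = count K v (spanSingleton R⁰ (c : K))}
  one_mem' := ⟨1, fun v _ => by simp⟩
  mul_mem' := by
    rintro J J' ⟨c, hc⟩ ⟨c', hc'⟩
    refine ⟨c * c', fun v hv => ?_⟩
    rw [Units.val_mul, Units.val_mul, ← spanSingleton_mul_spanSingleton,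
      count_mul K v J.ne_zero J'.ne_zero,
      count_mul K v (spanSingleton_ne_zero_iff.mpr c.ne_zero)
        (spanSingleton_ne_zero_iff.mpr c'.ne_zero), hc v hv, hc' v hv]
  inv_mem' := by
    rintro J ⟨c, hc⟩
    refine ⟨c⁻¹, fun v hv => ?_⟩
    rw [Units.val_inv_eq_inv_val, Units.val_inv_eq_inv_val, ← spanSingleton_inv, count_inv,
      count_inv, hc v hv]

theorem mem_principalAway {S : Set (HeightOneSpectrum R)} {J : (FractionalIdeal R⁰ K)ˣ} :
    J ∈ principalAway K S ↔ ∃ c : Kˣ, ∀ v : HeightOneSpectrum R, v ∉ S →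
      count K v (J : FractionalIdeal R⁰ K) = count K v (spanSingleton R⁰ (c : K)) := Iff.rfl

theorem toPrincipalIdeal_mem_principalAway (S : Set (HeightOneSpectrum R)) (x : Kˣ) :
    toPrincipalIdeal R K x ∈ principalAway K S :=
  ⟨x, fun v _ => by rw [coe_toPrincipalIdeal]⟩

theorem mk0_prime_mem_principalAway {S : Set (HeightOneSpectrum R)} {v' : HeightOneSpectrum R}
    (hv' : v' ∈ S) :
    FractionalIdeal.mk0 K ⟨v'.asIdeal, mem_nonZeroDivisors_of_ne_zero v'.ne_bot⟩ ∈
      principalAway K S := by
  refine ⟨1, fun v hv => ?_⟩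
  have hne : v' ≠ v := fun h => hv (h ▸ hv')
  rw [Units.val_one, spanSingleton_one, count_one, coe_mk0]
  exact count_maximal_coprime K v hne

/-- If the classes of the primes in `S` generate the class group, every invertible fractional
ideal is principal away from `S`. -/
theorem principalAway_eq_top {S : Set (HeightOneSpectrum R)}
    (hgen : Subgroup.closure ((fun v : HeightOneSpectrum R =>
      ClassGroup.mk0 ⟨v.asIdeal, mem_nonZeroDivisors_of_ne_zero v.ne_bot⟩) '' S) = ⊤) :
    principalAway K S = ⊤ := by
  set π := QuotientGroup.mk' (toPrincipalIdeal R K).range with hπ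
  set Q : Subgroup (ClassGroup R) :=
    ((principalAway K S).map π).comap (ClassGroup.equiv K).toMonoidHom with hQ
  have hQtop : Q = ⊤ := by
    rw [eq_top_iff, ← hgen, Subgroup.closure_le]
    rintro _ ⟨v', hv', rfl⟩
    rw [SetLike.mem_coe, hQ, Subgroup.mem_comap]
    refine ⟨_, mk0_prime_mem_principalAway hv', ?_⟩
    rw [MulEquiv.coe_toMonoidHom, ClassGroup.equiv_mk0]
  rw [eq_top_iff]
  intro J _
  have h1 : (ClassGroup.equiv K).symm (π J) ∈ Q := by rw [hQtop]; trivial
  rw [hQ, Subgroup.mem_comap, MulEquiv.coe_toMonoidHom, MulEquiv.apply_symm_apply] at h1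
  obtain ⟨J', hJ', hJJ'⟩ := h1
  have h2 : J'⁻¹ * J ∈ (toPrincipalIdeal R K).range := by
    rw [← QuotientGroup.eq]
    exact hJJ'
  obtain ⟨x, hx⟩ := h2
  have h3 : J = J' * toPrincipalIdeal R K x := by rw [hx]; group
  rw [h3]
  exact (principalAway K S).mul_mem hJ' (toPrincipalIdeal_mem_principalAway S x)

/-- If the classes of the primes in `S` generate the class group, then for every finitely
supported family of exponents there is an element of `Kˣ` with these orders at all `v ∉ S`. -/
theorem exists_valuation_eq_of_closure_eq_top {S : Set (HeightOneSpectrum R)}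
    (hgen : Subgroup.closure ((fun v : HeightOneSpectrum R =>
      ClassGroup.mk0 ⟨v.asIdeal, mem_nonZeroDivisors_of_ne_zero v.ne_bot⟩) '' S) = ⊤)
    (exps : HeightOneSpectrum R →₀ ℤ) :
    ∃ c : Kˣ, ∀ v : HeightOneSpectrum R, v ∉ S → v.valuation K (c : K) = exp (-(exps v)) := by
  set I : FractionalIdeal R⁰ K :=
    exps.prod (fun v n => (v.asIdeal : FractionalIdeal R⁰ K) ^ n) with hI
  have hI0 : I ≠ 0 := by
    rw [hI, Finsupp.prod, Finset.prod_ne_zero_iff]
    intro v _
    exact zpow_ne_zero _ (coeIdeal_ne_zero.mpr v.ne_bot)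
  have hmem : Units.mk0 I hI0 ∈ principalAway K S := by
    rw [principalAway_eq_top hgen]
    trivial
  obtain ⟨c, hc⟩ := hmem
  refine ⟨c, fun v hv => ?_⟩
  rw [valuation_eq_exp_neg_count v c.ne_zero, ← hc v hv, Units.val_mk0, hI,
    count_finsuppProd]

end ClassGen

end Fermat.Agent.S14SI
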