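import Fermat.Agent.S14.SI.Interface

/-!
# S14 / H2 Route I, WP9: every finite set of primes is contained in a finite set of primes
generating the class group  (helper12)
-/

set_option autoImplicit false

open NumberField IsDedekindDomain
open scoped nonZeroDivisors

namespace Fermat.Agent.S14SI

/-- The class of a nonzero ideal of `𝓞 F` lies in the subgroup generated by the classes of
finitely many primes. -/
theorem wp9_exists_finset_mk0_mem (F : Type*) [Field F] [NumberField F] (I : Ideal (𝓞 F)) :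
    ∀ hI : I ∈ (Ideal (𝓞 F))⁰, ∃ S : Finset (HeightOneSpectrum (𝓞 F)),
      ClassGroup.mk0 ⟨I, hI⟩ ∈
        Subgroup.closure (primeClass F '' (S : Set (HeightOneSpectrum (𝓞 F)))) := by
  classical
  induction I using UniqueFactorizationMonoid.induction_on_prime with
  | h₁ =>
    intro hI
    exact absurd rfl (mem_nonZeroDivisors_iff_ne_zero.mp hI)
  | h₂ J hJ =>
    intro hI
    refine ⟨∅, ?_⟩
    have hJ' : J = ⊤ := by
      rwa [Ideal.isUnit_iff] at hJ
    have : ClassGroup.mk0 ⟨J, hI⟩ = 1 := by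
      rw [ClassGroup.mk0_eq_one_iff]
      subst hJ'
      exact top_isPrincipal
    rw [this]
    exact Subgroup.one_mem _
  | h₃ J P hJ hP ih =>
    intro hI
    have hP0 : P ≠ ⊥ := hP.ne_zero
    have hPprime : P.IsPrime := Ideal.isPrime_of_prime hP
    have hPm : P ∈ (Ideal (𝓞 F))⁰ := mem_nonZeroDivisors_of_ne_zero hP0
    have hJm : J ∈ (Ideal (𝓞 F))⁰ := mem_nonZeroDivisors_of_ne_zero hJ
    obtain ⟨S, hS⟩ := ih hJm
    let v : HeightOneSpectrum (𝓞 F) := ⟨P, hPprime, hP0⟩
    refine ⟨insert v S, ?_⟩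
    have hmul : ClassGroup.mk0 ⟨P * J, hI⟩ = ClassGroup.mk0 ⟨P, hPm⟩ * ClassGroup.mk0 ⟨J, hJm⟩ := by
      rw [← map_mul]
      rfl
    rw [hmul]
    refine Subgroup.mul_mem _ ?_ ?_
    · refine Subgroup.subset_closure ⟨v, ?_, rfl⟩
      simp
    · refine Subgroup.closure_mono ?_ hS
      exact Set.image_mono (by simp)

/-- **WP9**: every finite set of primes is contained in a finite set of primes generating the
class group. -/
theorem existsGoodS : ExistsGoodS := by
  classical
  intro F _ _ B
  have hex : ∀ c : ClassGroup (𝓞 F), ∃ S : Finset (HeightOneSpectrum (𝓞 F)),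
      c ∈ Subgroup.closure (primeClass F '' (S : Set (HeightOneSpectrum (𝓞 F)))) := by
    intro c
    obtain ⟨I, rfl⟩ := ClassGroup.mk0_surjective c
    obtain ⟨S, hS⟩ := wp9_exists_finset_mk0_mem F I.1 I.2
    exact ⟨S, hS⟩
  choose Sc hSc using hex
  refine ⟨B ∪ Finset.univ.biUnion Sc, Finset.subset_union_left, ?_⟩
  rw [GeneratesClassGroup, eq_top_iff]
  intro c _
  refine Subgroup.closure_mono ?_ (hSc c)
  refine Set.image_mono ?_
  intro v hv
  simp only [Finset.coe_union, Finset.coe_biUnion, Finset.coe_univ, Set.mem_univ, Set.iUnion_true,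
    Set.mem_union, Finset.mem_coe, Set.mem_iUnion]
  exact Or.inr ⟨c, hv⟩

end Fermat.Agent.S14SI
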