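import Fermat.Agent.S14.SI.TameInterface

/-!
# S14 / H2 Route I, WP1b: the `S`-unit theorem, `ℤ`-rank form (helper48)

`theorem sUnitRankZ : SUnitRankZ`: for a number field `K` and a finite set `S` of primes, the group
`E_S` of `S`-units is finitely generated of rank `#{infinite places} + |S| - 1`.

Proof: the order map `sUnitOrd S : E_S → ℤ^S` has kernel the units of `𝓞 K` (Dirichlet's unit
theorem, Mathlib) and its range has rank `|S|`: for `v ∈ S` a generator of `v ^ h` (`h` the class
number) is an `S`-unit whose order vector is supported exactly at `v`.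
-/

set_option autoImplicit false

open NumberField IsDedekindDomain Module
open scoped nonZeroDivisors

namespace Fermat.Agent.S14SI

variable {K : Type} [Field K] [NumberField K]

/-- The order map `E_S → ℤ^S` (additive form). -/
noncomputable def sUnitOrd (S : Set (HeightOneSpectrum (𝓞 K))) :
    Additive ↥(sUnits K S) →ₗ[ℤ] (↥S → ℤ) :=
  AddMonoidHom.toIntLinearMap
    { toFun := fun x v =>
        Multiplicative.toAdd ((v : HeightOneSpectrum (𝓞 K)).valuationOfNeZero (x.toMul : Kˣ))
      map_zero' := by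
        funext v
        simp
      map_add' := fun x y => by
        funext v
        simp }

lemma sUnitOrd_apply (S : Set (HeightOneSpectrum (𝓞 K))) (x : Additive ↥(sUnits K S)) (v : ↥S) :
    sUnitOrd S x v =
      Multiplicative.toAdd ((v : HeightOneSpectrum (𝓞 K)).valuationOfNeZero (x.toMul : Kˣ)) :=
  rfl

lemma sUnitOrd_apply_eq_zero_iff (S : Set (HeightOneSpectrum (𝓞 K)))
    (x : Additive ↥(sUnits K S)) (v : ↥S) :
    sUnitOrd S x v = 0 ↔
      (v : HeightOneSpectrum (𝓞 K)).valuation K ((x.toMul : Kˣ) : K) = 1 := by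
  rw [sUnitOrd_apply, ← HeightOneSpectrum.valuationOfNeZero_eq]
  constructor
  · intro h
    have : (v : HeightOneSpectrum (𝓞 K)).valuationOfNeZero (x.toMul : Kˣ) = 1 := by
      apply Multiplicative.toAdd.injective
      simpa using h
    rw [this]; rfl
  · intro h
    have : (v : HeightOneSpectrum (𝓞 K)).valuationOfNeZero (x.toMul : Kˣ) = 1 := by
      exact_mod_cast h
    rw [this]; rfl

lemma sUnit_valuation_unit (v : HeightOneSpectrum (𝓞 K)) (u : (𝓞 K)ˣ) :
    v.valuation K (algebraMap (𝓞 K) K (u : 𝓞 K)) = 1 := by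
  have h1 := HeightOneSpectrum.valuation_of_unit_eq (K := K) v u
  have h2 := HeightOneSpectrum.valuationOfNeZero_eq (K := K) v
    (Units.map (algebraMap (𝓞 K) K : 𝓞 K →* K) u)
  rw [h1] at h2
  exact h2.symm

/-- The inclusion of the units of `𝓞 K` in the `S`-units (additive form). -/
noncomputable def sUnitIncl (S : Set (HeightOneSpectrum (𝓞 K))) :
    Additive (𝓞 K)ˣ →ₗ[ℤ] Additive ↥(sUnits K S) :=
  AddMonoidHom.toIntLinearMap <| MonoidHom.toAdditive
    { toFun := fun u => ⟨Units.map (algebraMap (𝓞 K) K : 𝓞 K →* K) u, fun v _ =>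
        sUnit_valuation_unit v u⟩
      map_one' := by
        ext; simp
      map_mul' := fun a b => by
        ext; simp }

lemma sUnitIncl_apply_coe (S : Set (HeightOneSpectrum (𝓞 K))) (u : Additive (𝓞 K)ˣ) :
    (((sUnitIncl S u).toMul : Kˣ) : K) = algebraMap (𝓞 K) K (u.toMul : 𝓞 K) := rfl

lemma sUnitIncl_injective (S : Set (HeightOneSpectrum (𝓞 K))) :
    Function.Injective (sUnitIncl S) := by
  intro a b h
  have h1 := congrArg (fun x : Additive ↥(sUnits K S) => ((x.toMul : Kˣ) : K)) h
  simp only [sUnitIncl_apply_coe] at h1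
  have h2 : (a.toMul : 𝓞 K) = (b.toMul : 𝓞 K) := RingOfIntegers.coe_injective h1
  exact congrArg Additive.ofMul (Units.ext h2)

lemma sUnitIncl_range (S : Set (HeightOneSpectrum (𝓞 K))) :
    LinearMap.range (sUnitIncl S) = LinearMap.ker (sUnitOrd S) := by
  ext x
  rw [LinearMap.mem_range, LinearMap.mem_ker]
  constructor
  · rintro ⟨u, rfl⟩
    funext v
    rw [Pi.zero_apply, sUnitOrd_apply_eq_zero_iff, sUnitIncl_apply_coe]
    exact sUnit_valuation_unit _ _
  · intro hx
    -- all valuations of `x` are `1`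
    have hall : ∀ v : HeightOneSpectrum (𝓞 K), v.valuation K ((x.toMul : Kˣ) : K) = 1 := by
      intro v
      by_cases hv : v ∈ S
      · exact (sUnitOrd_apply_eq_zero_iff S x ⟨v, hv⟩).mp (congrFun hx ⟨v, hv⟩)
      · exact x.toMul.2 v hv
    have hall' : ∀ v : HeightOneSpectrum (𝓞 K), v.valuation K (((x.toMul : Kˣ)⁻¹ : Kˣ) : K) = 1 := by
      intro v
      rw [Units.val_inv_eq_inv_val, map_inv₀, hall v, inv_one]
    obtain ⟨y, hy⟩ := HeightOneSpectrum.mem_integers_of_valuation_le_one K
      ((x.toMul : Kˣ) : K) fun v => (hall v).le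
    obtain ⟨y', hy'⟩ := HeightOneSpectrum.mem_integers_of_valuation_le_one K
      (((x.toMul : Kˣ)⁻¹ : Kˣ) : K) fun v => (hall' v).le
    have hyy' : y * y' = 1 := by
      apply RingOfIntegers.coe_injective
      rw [map_mul, hy, hy', map_one, Units.mul_inv]
    refine ⟨Additive.ofMul ⟨y, y', hyy', by rw [mul_comm]; exact hyy'⟩, ?_⟩
    apply Additive.toMul.injective
    apply Subtype.ext
    apply Units.ext
    exact hy


/-! ### The range of the order map has full rank -/

/-- For every prime `v` there is a nonzero `π ∈ 𝓞 K` with `(π) = v ^ h`, `h ≥ 1`. -/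
lemma sUnit_exists_generator (v : HeightOneSpectrum (𝓞 K)) :
    ∃ (π : 𝓞 K) (h : ℕ), 0 < h ∧ π ≠ 0 ∧ Ideal.span {π} = v.asIdeal ^ h := by
  classical
  have hv0 : v.asIdeal ∈ (Ideal (𝓞 K))⁰ := mem_nonZeroDivisors_of_ne_zero v.ne_bot
  set h := Fintype.card (ClassGroup (𝓞 K)) with hh
  have hpos : 0 < h := Fintype.card_pos
  have h1 : ClassGroup.mk0 (⟨v.asIdeal, hv0⟩ ^ h) = 1 := by
    rw [map_pow, hh, pow_card_eq_one]
  have h2 : ((⟨v.asIdeal, hv0⟩ ^ h : (Ideal (𝓞 K))⁰) : Ideal (𝓞 K)) = v.asIdeal ^ h := by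
    simp
  have h3 : (v.asIdeal ^ h).IsPrincipal := by
    rw [← h2]
    exact (ClassGroup.mk0_eq_one_iff (SetLike.coe_mem _)).mp h1
  obtain ⟨π, hπ⟩ := h3
  refine ⟨π, h, hpos, ?_, ?_⟩
  · rintro rfl
    have : v.asIdeal ^ h = ⊥ := by rw [hπ]; simp
    exact pow_ne_zero h v.ne_bot this
  · rw [hπ]

/-- If `(π) = v ^ h` then `π` is a unit at every prime `w ≠ v`. -/
lemma sUnit_valuation_generator_of_ne {v w : HeightOneSpectrum (𝓞 K)} {π : 𝓞 K} {h : ℕ}
    (hπ : Ideal.span {π} = v.asIdeal ^ h) (hw : w ≠ v) :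
    w.valuation K (algebraMap (𝓞 K) K π) = 1 := by
  rw [HeightOneSpectrum.valuation_of_algebraMap, HeightOneSpectrum.intValuation_eq_one_iff]
  intro hmem
  apply hw
  have h1 : v.asIdeal ^ h ≤ w.asIdeal := by
    rw [← hπ, Ideal.span_singleton_le_iff_mem]
    exact hmem
  have h2 : v.asIdeal ≤ w.asIdeal := w.isPrime.le_of_pow_le h1
  exact HeightOneSpectrum.ext (v.isMaximal.eq_of_le w.isPrime.ne_top h2).symm

/-- If `(π) = v ^ h`, `h ≥ 1`, then `π` is not a unit at `v`. -/
lemma sUnit_valuation_generator_self {v : HeightOneSpectrum (𝓞 K)} {π : 𝓞 K} {h : ℕ}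
    (hh : 0 < h) (hπ : Ideal.span {π} = v.asIdeal ^ h) :
    v.valuation K (algebraMap (𝓞 K) K π) ≠ 1 := by
  have hmem : π ∈ v.asIdeal := by
    have : π ∈ v.asIdeal ^ h := by rw [← hπ]; exact Ideal.mem_span_singleton_self π
    exact Ideal.pow_le_self hh.ne' this
  exact ((v.valuation_lt_one_iff_mem π).mpr hmem).ne

/-- For every `v ∈ S` there is an `S`-unit whose order vector is supported exactly at `v`. -/
lemma sUnitOrd_exists_single (S : Set (HeightOneSpectrum (𝓞 K))) (v : ↥S) :
    ∃ x : Additive ↥(sUnits K S), sUnitOrd S x v ≠ 0 ∧ ∀ w : ↥S, w ≠ v → sUnitOrd S x w = 0 := by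
  obtain ⟨π, h, hh, hπ0, hπ⟩ := sUnit_exists_generator (v : HeightOneSpectrum (𝓞 K))
  have hπK : algebraMap (𝓞 K) K π ≠ 0 := by
    rw [Ne, map_eq_zero_iff _ (RingOfIntegers.coe_injective)]
    exact hπ0
  have hmem : Units.mk0 (algebraMap (𝓞 K) K π) hπK ∈ sUnits K S := by
    intro w hw
    exact sUnit_valuation_generator_of_ne hπ (fun hwv => hw (hwv ▸ v.2))
  refine ⟨Additive.ofMul ⟨_, hmem⟩, ?_, ?_⟩
  · rw [Ne, sUnitOrd_apply_eq_zero_iff]
    exact sUnit_valuation_generator_self hh hπ
  · intro w hw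
    rw [sUnitOrd_apply_eq_zero_iff]
    exact sUnit_valuation_generator_of_ne hπ (fun hwv => hw (Subtype.ext hwv))

/-- The rank of the range of the order map is `|S|`. -/
lemma sUnitOrd_finrank_range (S : Set (HeightOneSpectrum (𝓞 K))) [Fintype ↥S] :
    finrank ℤ (LinearMap.range (sUnitOrd S)) = Fintype.card ↥S := by
  classical
  choose x hx1 hx2 using sUnitOrd_exists_single S
  set b : ↥S → (↥S → ℤ) := fun v => sUnitOrd S (x v) with hb
  have hli : LinearIndependent ℤ b := by
    rw [Fintype.linearIndependent_iff]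
    intro g hg w
    have h1 := congrFun hg w
    rw [Finset.sum_apply, Finset.sum_eq_single w] at h1
    · simp only [Pi.smul_apply, smul_eq_mul, Pi.zero_apply] at h1
      exact (mul_eq_zero.mp h1).resolve_right (hx1 w)
    · intro v _ hvw
      simp only [Pi.smul_apply, smul_eq_mul, hb]
      rw [hx2 v w (Ne.symm hvw), mul_zero]
    · intro h
      exact absurd (Finset.mem_univ w) h
  have hle : Submodule.span ℤ (Set.range b) ≤ LinearMap.range (sUnitOrd S) := by
    rw [Submodule.span_le]
    rintro _ ⟨v, rfl⟩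
    exact LinearMap.mem_range_self _ _
  apply le_antisymm
  · have := Submodule.finrank_le (LinearMap.range (sUnitOrd S))
    rwa [Module.finrank_fintype_fun_eq_card] at this
  · rw [← finrank_span_eq_card hli]
    exact Submodule.finrank_mono hle


/-! ### The `S`-unit theorem, `ℤ`-rank form -/

/-- **(WP1b)** `E_S` is finitely generated of rank `#{infinite places} + |S| - 1`. -/
theorem sUnitRankZ : SUnitRankZ := by
  intro K _ _ S hS
  classical
  have : Fintype ↥S := hS.fintype
  have hkerfin : Module.Finite ℤ (LinearMap.ker (sUnitOrd S)) := by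
    rw [← sUnitIncl_range]
    infer_instance
  have hkerrank : finrank ℤ (LinearMap.ker (sUnitOrd S)) = NumberField.Units.rank K := by
    rw [← sUnitIncl_range, LinearMap.finrank_range_of_inj (sUnitIncl_injective S),
      NumberField.Units.finrank_eq]
  have hquotfin : Module.Finite ℤ (Additive ↥(sUnits K S) ⧸ LinearMap.ker (sUnitOrd S)) :=
    Module.Finite.equiv (sUnitOrd S).quotKerEquivRange.symm
  have hfin : Module.Finite ℤ (Additive ↥(sUnits K S)) :=
    Module.Finite.of_submodule_quotient (LinearMap.ker (sUnitOrd S))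
  refine ⟨hfin, ?_⟩
  have h1 := (LinearMap.ker (sUnitOrd S)).finrank_quotient_add_finrank
  rw [LinearEquiv.finrank_eq (sUnitOrd S).quotKerEquivRange, sUnitOrd_finrank_range,
    hkerrank] at h1
  have h2 : 0 < Fintype.card (InfinitePlace K) := Fintype.card_pos
  have h3 : S.ncard = Fintype.card ↥S := by
    rw [← Nat.card_coe_set_eq, Nat.card_eq_fintype_card]
  rw [← h1, h3, Nat.card_eq_fintype_card, NumberField.Units.rank]
  omega

end Fermat.Agent.S14SI
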