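import Fermat.Agent.S14.SI.Defs

/-!
# S14 / H2 Route I: the second inequality (Kummer case) at finite level — work packages

Blueprint: `NOTES/blueprint-S14-SI.md` (helper95).  As in `Fermat/Agent/S14/Interface.lean`, this
file only contains the *statements* exchanged between the work packages, as `Prop`s:

* the owner of a work package proves `theorem xxx : Fermat.Agent.S14SI.Xxx` (possibly from other
  packages taken as hypotheses `(h : Yyy)`) in his own file `Fermat/Agent/S14/SI/<File>.lean`;
* nobody uses placeholders.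

Standing notation: `p` an odd prime, `F` a number field, `ζ : F` a primitive `p`-th root of unity
(so `F` is totally complex and `r₂ = [F : ℚ] / 2`), `S`, `T` finite sets of primes of `F`,
`n = r₂ + |S|`.

Dependency graph (`A ⟸ B` : "A is proved from B"):

    SecondIneqKummer ⟸ MainThm, KummerSplits, SplitNormClass                     (Assembly.lean)
    MainThm          ⟸ ExistsGoodS, ChooseT, KeyLemma, ThetaCount                (MainThm.lean)
    ChooseT          ⟸ SUnitRank, KummerNonSplit, LocalCyclic                    (ChooseT.lean)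
    KummerNonSplit   ⟸ InertPrimeExists (F2'), KummerSplits                      (KummerNonSplit.lean)
    KeyLemma         ⟸ TameFirstIneq, KummerSplits                               (KeyLemma.lean)
    ThetaCount       ⟸ SUnitRank, LocalCount                                     (ThetaCount.lean)
    TameFirstIneq    ⟸ Herbrand (helper86), SUnitRankZ, Hilbert 90, KummerUnram   (Tame/*.lean)
-/

set_option autoImplicit false

open NumberField IsDedekindDomain

namespace Fermat.Agent.S14SI

/-! ### Inputs from other clusters -/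

/-- **(NS) Input from F2' (Frobenius density, cyclic case; Lib/FrobDensity/Cyclic.lean)**:
a Galois extension `L/K` of number fields of prime degree `p` has a prime `𝔮` of `K` of prime norm
`q` outside any given finite set of rational primes which is inert in `L`. -/
def InertPrimeExists : Prop :=
  ∀ (p : ℕ) (K L : Type) [Field K] [NumberField K] [Field L] [NumberField L] [Algebra K L]
    [IsGalois K L], p.Prime → Module.finrank K L = p → ∀ B : Finset ℕ,
    ∃ (q : ℕ) (𝔮 : Ideal (𝓞 K)), q.Prime ∧ q ∉ B ∧ Ideal.absNorm 𝔮 = q ∧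
      𝔮.inertiaDegIn (𝓞 L) = p

/-! ### WP1: `S`-units -/

/-- **WP1 (`S`-unit theorem modulo `p`)**: `|E_S / E_S ^ p| = p ^ (r₂ + |S|)`.
(Dirichlet's unit theorem + `v ^ h` principal + `μ_p ⊆ F`.) -/
def SUnitRank : Prop :=
  ∀ (p : ℕ) (F : Type) [Field F] [NumberField F] (ζ : F)
    (S : Finset (HeightOneSpectrum (𝓞 F))),
    p.Prime → p ≠ 2 → IsPrimitiveRoot ζ p →
    (sUnitsPow F p S).relIndex (sUnits F S) = p ^ (Module.finrank ℚ F / 2 + S.card)

/-! ### WP2: local counts -/

/-- **WP2 (local counts)**: `[Fˣ : U_S] ≤ ∏_{v ∈ S} p² · |𝓞 / v ^ v(p)| ≤ p ^ (2 |S| + [F : ℚ])`,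
and the index is finite. -/
def LocalCount : Prop :=
  ∀ (p : ℕ) (F : Type) [Field F] [NumberField F] (ζ : F)
    (S : Finset (HeightOneSpectrum (𝓞 F))) (hp : p.Prime) (hζ : IsPrimitiveRoot ζ p),
    (localPowSubgroup F p ζ hζ hp.one_lt S).index ≠ 0 ∧
    (localPowSubgroup F p ζ hζ hp.one_lt S).index ≤ p ^ (2 * S.card + Module.finrank ℚ F)

/-- **WP2' (the residue group `k_v^× / (k_v^×)^p` is cyclic of order `p`)**, element-level:
if `v ∤ p`, `x`, `u` are units at `v` and `u` is not a `p`-th power modulo `v`, then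
`x * u ^ i` is a `p`-th power modulo `v` for some `i < p`. -/
def LocalCyclic : Prop :=
  ∀ (p : ℕ) (F : Type) [Field F] [NumberField F] (ζ x u : F) (v : HeightOneSpectrum (𝓞 F)),
    p.Prime → IsPrimitiveRoot ζ p → (p : 𝓞 F) ∉ v.asIdeal →
    v.valuation F x = 1 → v.valuation F u = 1 → ¬ IsPowMod F v p u →
    ∃ i : ℕ, i < p ∧ IsPowMod F v p (x * u ^ i)

/-! ### WP3: splitting of primes in Kummer extensions -/

/-- **WP3 (split lemma)**: if `M = F(α)`, `α ^ p = a ∈ F`, `[M : F] = p`, and `a` is a local
`p`-th power at `v` (finite-level sense), then `v` splits completely in `M`.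
Uniform proof for `v ∣ p` and `v ∤ p` via `β = (α y - 1) / (ζ - 1)`, see the blueprint. -/
def KummerSplits : Prop :=
  ∀ (p : ℕ) (F M : Type) [Field F] [NumberField F] [Field M] [NumberField M] [Algebra F M]
    [IsGalois F M] (ζ a : F) (α : M) (v : HeightOneSpectrum (𝓞 F)),
    p.Prime → IsPrimitiveRoot ζ p → Module.finrank F M = p →
    α ^ p = algebraMap F M a → (∀ b : F, algebraMap F M b ≠ α) →
    IsLocalPow F v p ζ a → SplitsCompletely F M v

/-- **WP3' (unramified outside `p a`)**: if `v ∤ p` and `a` is a unit at `v` then every prime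
of `M = F(α)`, `α ^ p = a`, above `v` is unramified. -/
def KummerUnram : Prop :=
  ∀ (p : ℕ) (F M : Type) [Field F] [NumberField F] [Field M] [NumberField M] [Algebra F M]
    [IsGalois F M] (ζ a : F) (α : M) (v : HeightOneSpectrum (𝓞 F)) (P : Ideal (𝓞 M)),
    p.Prime → IsPrimitiveRoot ζ p → Module.finrank F M = p →
    α ^ p = algebraMap F M a → (∀ b : F, algebraMap F M b ≠ α) →
    (p : 𝓞 F) ∉ v.asIdeal → v.valuation F a = 1 →
    P.IsPrime → P.LiesOver v.asIdeal → P.ramificationIdx (𝓞 F) = 1

/-- **WP3'' (split primes are norms)**: the class of a prime which splits completely in the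
Galois extension `M/F` is a norm class. -/
def SplitNormClass : Prop :=
  ∀ (F M : Type) [Field F] [NumberField F] [Field M] [NumberField M] [Algebra F M]
    [IsGalois F M] (v : HeightOneSpectrum (𝓞 F)),
    SplitsCompletely F M v → primeClass F v ∈ Fermat.Agent.S14.normClasses F M

/-! ### WP4: primes with prescribed Kummer behaviour -/

/-- **WP4 (KNS)**: if `a` is not a `p`-th power and `u ∉ ⟨a⟩ (Fˣ)^p`, there is a prime `v`
outside a given finite set, `v ∤ p`, at which `a` and `u` are units, `a` is a `p`-th power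
modulo `v` and `u` is not.  (Apply `InertPrimeExists` to `M(u^{1/p}) / M`, `M = F(a^{1/p})`.) -/
def KummerNonSplit : Prop :=
  ∀ (p : ℕ) (F : Type) [Field F] [NumberField F] (ζ a u : F)
    (B : Finset (HeightOneSpectrum (𝓞 F))),
    p.Prime → p ≠ 2 → IsPrimitiveRoot ζ p → a ≠ 0 → u ≠ 0 → (¬ ∃ b : F, b ^ p = a) →
    (∀ (i : ℕ) (b : F), u ≠ a ^ i * b ^ p) →
    ∃ v : HeightOneSpectrum (𝓞 F), v ∉ B ∧ (p : 𝓞 F) ∉ v.asIdeal ∧
      v.valuation F a = 1 ∧ v.valuation F u = 1 ∧ IsPowMod F v p a ∧ ¬ IsPowMod F v p u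

/-! ### WP5: the auxiliary set `T` -/

/-- **WP5 (choice of `T`)**: for an `S`-unit `a` which is not a `p`-th power there is a set `T`
of `n - 1 = r₂ + |S| - 1` primes outside `S`, at which `a` is a `p`-th power residue, such that
`E_S → ∏_{v ∈ T} k_v^× / p` is surjective. -/
def ChooseT : Prop :=
  ∀ (p : ℕ) (F : Type) [Field F] [NumberField F] (ζ : F) (a : Fˣ)
    (S : Finset (HeightOneSpectrum (𝓞 F))),
    p.Prime → p ≠ 2 → IsPrimitiveRoot ζ p → ContainsPrimesAbove F p S →
    a ∈ sUnits F S → (¬ ∃ b : F, b ^ p = (a : F)) →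
    ∃ T : Finset (HeightOneSpectrum (𝓞 F)), Disjoint S T ∧
      T.card + 1 = Module.finrank ℚ F / 2 + S.card ∧
      (∀ v ∈ T, IsPowMod F v p (a : F)) ∧ ResidueSurjective F p S T

/-! ### WP6: the tame first inequality -/

/-- **WP6 (first inequality, tame finite-level form)**: there is no cyclic extension
`M = F(α)`, `α ^ p = x`, of degree `p` with `x` an `(S ∪ T)`-unit, in which all primes of `S`
split completely, when `S ⊇ {v ∣ p}` generates the class group and `E_S → ∏_T k_v^× / p` is
surjective.  (Herbrand quotient of the `(S ∪ T)`-units of `M` + Hilbert 90.) -/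
def TameFirstIneq : Prop :=
  ∀ (p : ℕ) (F M : Type) [Field F] [NumberField F] [Field M] [NumberField M] [Algebra F M]
    [IsGalois F M] (ζ : F) (x : Fˣ) (α : M) (S T : Finset (HeightOneSpectrum (𝓞 F))),
    p.Prime → p ≠ 2 → IsPrimitiveRoot ζ p → Module.finrank F M = p →
    α ^ p = algebraMap F M (x : F) → (∀ b : F, algebraMap F M b ≠ α) →
    x ∈ sUnits F (↑S ∪ ↑T) → ContainsPrimesAbove F p S → GeneratesClassGroup F S →
    Disjoint S T → (∀ v ∈ S, SplitsCompletely F M v) → ResidueSurjective F p S T → False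

/-- **WP7 (key lemma)**: an `(S ∪ T)`-unit which is a local `p`-th power at all primes of `S`
is a `p`-th power. -/
def KeyLemma : Prop :=
  ∀ (p : ℕ) (F : Type) [Field F] [NumberField F] (ζ : F) (x : Fˣ)
    (S T : Finset (HeightOneSpectrum (𝓞 F))),
    p.Prime → p ≠ 2 → IsPrimitiveRoot ζ p →
    ContainsPrimesAbove F p S → GeneratesClassGroup F S →
    Disjoint S T → ResidueSurjective F p S T →
    x ∈ sUnits F (↑S ∪ ↑T) → (∀ v ∈ S, IsLocalPow F v p ζ (x : F)) → ∃ y : F, y ^ p = (x : F)

/-! ### WP8: the index computation -/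

/-- **WP8 (index computation)**: if `S` generates the class group, `|T| = r₂ + |S| - 1` and the
key lemma holds for `(S, T)`, then the classes of the primes of `T` and the `p`-th powers
generate a subgroup of index at most `p` of the class group. -/
def ThetaCount : Prop :=
  ∀ (p : ℕ) (F : Type) [Field F] [NumberField F] (ζ : F)
    (S T : Finset (HeightOneSpectrum (𝓞 F))),
    p.Prime → p ≠ 2 → IsPrimitiveRoot ζ p → GeneratesClassGroup F S → Disjoint S T →
    T.card + 1 = Module.finrank ℚ F / 2 + S.card →
    (∀ x : Fˣ, x ∈ sUnits F (↑S ∪ ↑T) → (∀ v ∈ S, IsLocalPow F v p ζ (x : F)) →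
      ∃ y : F, y ^ p = (x : F)) →
    (classSubgroup F p T).index ≤ p

/-- **WP9 (choice of `S`)**: every finite set of primes is contained in a finite set of primes
generating the class group. -/
def ExistsGoodS : Prop :=
  ∀ (F : Type) [Field F] [NumberField F] (B : Finset (HeightOneSpectrum (𝓞 F))),
    ∃ S : Finset (HeightOneSpectrum (𝓞 F)), B ⊆ S ∧ GeneratesClassGroup F S

/-! ### The main theorem of Route I -/

/-- **Main theorem**: for `a ∈ Fˣ` not a `p`-th power there is a finite set `T` of primes
`v ∤ p` at which `a` is a unit and a `p`-th power residue (so `v` splits completely in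
`F(a^{1/p})`), whose classes together with the `p`-th powers generate a subgroup of index `≤ p`
of the class group. -/
def MainThm : Prop :=
  ∀ (p : ℕ) (F : Type) [Field F] [NumberField F] (ζ a : F),
    p.Prime → p ≠ 2 → IsPrimitiveRoot ζ p → a ≠ 0 → (¬ ∃ b : F, b ^ p = a) →
    ∃ T : Finset (HeightOneSpectrum (𝓞 F)),
      (∀ v ∈ T, (p : 𝓞 F) ∉ v.asIdeal ∧ IsPowMod F v p a) ∧ (classSubgroup F p T).index ≤ p

end Fermat.Agent.S14SI
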