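import Mathlib
import Fermat.Agent.S14.Interface

/-!
# S14 / H2 Route I: the second inequality (Kummer case) at finite level — definitions

Owner of the route: helper95.  Blueprint: `NOTES/blueprint-S14-SI.md`.

Everything is stated for a number field `F`, a prime number `p`, a primitive `p`-th root of unity
`ζ : F` and primes `v : HeightOneSpectrum (𝓞 F)`.  No completions, no ideles: "local" conditions
are congruence conditions on the multiplicative valuation `v.valuation F : Valuation F ℤᵐ⁰`.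
-/

set_option autoImplicit false

open NumberField IsDedekindDomain

namespace Fermat.Agent.S14SI

variable (F : Type*) [Field F] [NumberField F]

/-- `x` is a `p`-th power "in the completion at `v`", at finite level: there is `y ≠ 0` in `F`
with `v (x * y ^ p - 1) < v (ζ - 1) ^ p`.  (If `v ∤ p` this says `x * y ^ p ≡ 1 mod v`; if `v ∣ p`
it says `x * y ^ p ≡ 1 mod v ^ (p * e / (p - 1) + 1)`, `e = e(v / p)`, which is the Hensel bound.) -/
def IsLocalPow (v : HeightOneSpectrum (𝓞 F)) (p : ℕ) (ζ x : F) : Prop :=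
  ∃ y : F, y ≠ 0 ∧ v.valuation F (x * y ^ p - 1) < v.valuation F (ζ - 1) ^ p

/-- `u` is a `p`-th power modulo the prime `v`: `u ≡ z ^ p mod v` with `z ∈ 𝓞 F`, `z ∉ v`
(in particular `u` is a unit at `v`). -/
def IsPowMod (v : HeightOneSpectrum (𝓞 F)) (p : ℕ) (u : F) : Prop :=
  ∃ z : 𝓞 F, z ∉ v.asIdeal ∧ v.valuation F (u - (z : F) ^ p) < 1

variable {F} in
lemma isLocalPow_one (v : HeightOneSpectrum (𝓞 F)) {p : ℕ} {ζ : F} (hζ : ζ ≠ 1) :
    IsLocalPow F v p ζ 1 :=
  ⟨1, one_ne_zero, by simpa using pow_pos ((Valuation.pos_iff _).mpr (sub_ne_zero.mpr hζ)) p⟩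

variable {F} in
lemma valuation_sub_one_le_one (v : HeightOneSpectrum (𝓞 F)) {p : ℕ} {ζ : F}
    (hζ : IsPrimitiveRoot ζ p) (hp : 0 < p) : v.valuation F (ζ - 1) ≤ 1 := by
  have hint : IsIntegral ℤ ζ := hζ.isIntegral hp
  obtain ⟨z, hz⟩ := (IsIntegralClosure.isIntegral_iff (A := 𝓞 F)).mp hint
  have h1 : v.valuation F ζ ≤ 1 := by
    rw [← hz]; exact v.valuation_le_one z
  have h2 : v.valuation F (ζ - 1) ≤ max (v.valuation F ζ) (v.valuation F 1) :=
    Valuation.map_sub _ _ _
  refine h2.trans (max_le h1 ?_)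
  rw [Valuation.map_one]

variable {F} in
lemma IsLocalPow.mul {v : HeightOneSpectrum (𝓞 F)} {p : ℕ} {ζ a b : F}
    (hζ : v.valuation F (ζ - 1) ≤ 1)
    (ha : IsLocalPow F v p ζ a) (hb : IsLocalPow F v p ζ b) : IsLocalPow F v p ζ (a * b) := by
  obtain ⟨y, hy, h1⟩ := ha
  obtain ⟨z, hz, h2⟩ := hb
  refine ⟨y * z, mul_ne_zero hy hz, ?_⟩
  have e : (a * b) * (y * z) ^ p - 1
      = (a * y ^ p - 1) * (b * z ^ p - 1) + (a * y ^ p - 1) + (b * z ^ p - 1) := by ring
  have hle : v.valuation F (ζ - 1) ^ p ≤ 1 := pow_le_one' hζ p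
  have key : v.valuation F ((a * y ^ p - 1) * (b * z ^ p - 1)) < v.valuation F (ζ - 1) ^ p := by
    rw [Valuation.map_mul]
    calc v.valuation F (a * y ^ p - 1) * v.valuation F (b * z ^ p - 1)
        ≤ v.valuation F (a * y ^ p - 1) * 1 :=
          mul_le_mul' le_rfl (h2.le.trans hle)
      _ = v.valuation F (a * y ^ p - 1) := mul_one _
      _ < _ := h1
  rw [e]
  refine lt_of_le_of_lt (Valuation.map_add_le_max' _ _ _) (max_lt ?_ h2)
  exact lt_of_le_of_lt (Valuation.map_add_le_max' _ _ _) (max_lt key h1)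

variable {F} in
lemma IsLocalPow.inv {v : HeightOneSpectrum (𝓞 F)} {p : ℕ} {ζ a : F}
    (hζ : v.valuation F (ζ - 1) ≤ 1)
    (ha : IsLocalPow F v p ζ a) : IsLocalPow F v p ζ a⁻¹ := by
  obtain ⟨y, hy, h1⟩ := ha
  refine ⟨y⁻¹, inv_ne_zero hy, ?_⟩
  set w := a * y ^ p with hw
  have hle : v.valuation F (ζ - 1) ^ p ≤ 1 := pow_le_one' hζ p
  have hlt : v.valuation F (w - 1) < 1 := lt_of_lt_of_le h1 hle
  have hw1 : v.valuation F w = 1 := by
    have : w = 1 + (w - 1) := by ring
    rw [this]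
    exact Valuation.map_one_add_of_lt _ hlt
  have hw0 : w ≠ 0 := by
    intro h; rw [h] at hw1; simp at hw1
  have e : a⁻¹ * y⁻¹ ^ p - 1 = - (w - 1) * w⁻¹ := by
    have : a⁻¹ * y⁻¹ ^ p = w⁻¹ := by rw [hw, mul_inv, inv_pow]
    rw [this]; field_simp; ring
  rw [e, map_mul, map_inv₀, hw1, inv_one, mul_one, Valuation.map_neg]
  exact h1

/-- The subgroup `U_S` of `Fˣ` of elements that are local `p`-th powers at every prime of the
finite set `S`. -/
def localPowSubgroup (p : ℕ) (ζ : F) (hζ : IsPrimitiveRoot ζ p) (hp : 1 < p)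
    (S : Finset (HeightOneSpectrum (𝓞 F))) : Subgroup Fˣ where
  carrier := {x | ∀ v ∈ S, IsLocalPow F v p ζ (x : F)}
  one_mem' := fun v _ => by
    simpa using isLocalPow_one v (hζ.ne_one hp)
  mul_mem' := fun ha hb v hv => by
    simpa using (ha v hv).mul (valuation_sub_one_le_one v hζ (by omega)) (hb v hv)
  inv_mem' := fun ha v hv => by
    simpa using (ha v hv).inv (valuation_sub_one_le_one v hζ (by omega))

variable {F} in
lemma mem_localPowSubgroup {p : ℕ} {ζ : F} (hζ : IsPrimitiveRoot ζ p) (hp : 1 < p)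
    (S : Finset (HeightOneSpectrum (𝓞 F))) (x : Fˣ) :
    x ∈ localPowSubgroup F p ζ hζ hp S ↔ ∀ v ∈ S, IsLocalPow F v p ζ (x : F) := Iff.rfl

/-- The prime `v` of `F` splits completely in `M`: there are `[M : F]` primes of `M` above `v`. -/
def SplitsCompletely (M : Type*) [Field M] [NumberField M] [Algebra F M]
    (v : HeightOneSpectrum (𝓞 F)) : Prop :=
  (v.asIdeal.primesOver (𝓞 M)).ncard = Module.finrank F M

/-- The class of a prime in the class group. -/
noncomputable def primeClass (v : HeightOneSpectrum (𝓞 F)) : ClassGroup (𝓞 F) :=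
  ClassGroup.mk0 ⟨v.asIdeal, mem_nonZeroDivisors_of_ne_zero v.ne_bot⟩

/-- The subgroup of `Cl_F` generated by the classes of the primes in `T` and all `p`-th powers. -/
noncomputable def classSubgroup (p : ℕ) (T : Finset (HeightOneSpectrum (𝓞 F))) :
    Subgroup (ClassGroup (𝓞 F)) :=
  Subgroup.closure
    ((primeClass F '' (T : Set (HeightOneSpectrum (𝓞 F)))) ∪ Set.range (fun c => c ^ p))

/-- The `S`-units of `F` (as a subgroup of `Fˣ`), for a set `S` of primes (Mathlib's `Set.unit`):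
`x ∈ sUnits F S ↔ ∀ v ∉ S, v.valuation F x = 1`.  A `Finset` argument is coerced; for two finsets
write `sUnits F (↑S ∪ ↑T)` (union of sets: no `DecidableEq` needed). -/
noncomputable abbrev sUnits (S : Set (HeightOneSpectrum (𝓞 F))) : Subgroup Fˣ :=
  S.unit F

variable {F} in
lemma mem_sUnits (S : Set (HeightOneSpectrum (𝓞 F))) (x : Fˣ) :
    x ∈ sUnits F S ↔ ∀ v ∉ S, v.valuation F (x : F) = 1 := Iff.rfl

/-- The subgroup `E_S ^ p` of `Fˣ` of `p`-th powers of `S`-units. -/
noncomputable abbrev sUnitsPow (p : ℕ) (S : Set (HeightOneSpectrum (𝓞 F))) : Subgroup Fˣ :=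
  (sUnits F S).map (powMonoidHom p : Fˣ →* Fˣ)

/-- The primes in `S` generate the class group. -/
def GeneratesClassGroup (S : Finset (HeightOneSpectrum (𝓞 F))) : Prop :=
  Subgroup.closure (primeClass F '' (S : Set (HeightOneSpectrum (𝓞 F)))) = ⊤

/-- `S` contains all primes above `p`. -/
def ContainsPrimesAbove (p : ℕ) (S : Finset (HeightOneSpectrum (𝓞 F))) : Prop :=
  ∀ v : HeightOneSpectrum (𝓞 F), (p : 𝓞 F) ∈ v.asIdeal → v ∈ S

/-- The map `E_S → ∏_{v ∈ T} k_v^× / (k_v^×)^p` is surjective (element-level formulation):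
every family of `v`-units `c v` (`v ∈ T`) is matched, modulo `p`-th powers at every `v ∈ T`,
by an `S`-unit. -/
def ResidueSurjective (p : ℕ) (S T : Finset (HeightOneSpectrum (𝓞 F))) : Prop :=
  ∀ c : HeightOneSpectrum (𝓞 F) → F, (∀ v ∈ T, v.valuation F (c v) = 1) →
    ∃ u : Fˣ, u ∈ sUnits F S ∧ ∀ v ∈ T, IsPowMod F v p ((u : F) * c v)

end Fermat.Agent.S14SI
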