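import Fermat.Agent.S14.SI.GalVal
import Fermat.Agent.S14.SI.ClassGen

/-!
# S14 / H2 Route I, (Tb): `H¹(G, E') = 1` (helper90)

`tameH1 : TameH1`.  Hilbert 90 gives `u = σ y / y`; outside `S'` the order of `y` is constant on
the primes above a prime `v` of `F` (transitivity of the Galois action), and as `S'` generates the
class group there is `c ∈ Fˣ` with these orders; `z = y / c` is an `S'`-unit with `σ z / z = u`.
-/

set_option autoImplicit false

open NumberField IsDedekindDomain

namespace Fermat.Agent.S14SI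

section TameH1

variable {F M : Type} [Field F] [NumberField F] [Field M] [NumberField M] [Algebra F M]

/-- The prime of `F` below a prime of `M`. -/
noncomputable def primeBelow (w : HeightOneSpectrum (𝓞 M)) : HeightOneSpectrum (𝓞 F) where
  asIdeal := w.asIdeal.comap (algebraMap (𝓞 F) (𝓞 M))
  isPrime := Ideal.comap_isPrime _ _
  ne_bot := Ideal.under_ne_bot (𝓞 F) w.ne_bot

theorem primeBelow_asIdeal (w : HeightOneSpectrum (𝓞 M)) :
    (primeBelow (F := F) w).asIdeal = w.asIdeal.comap (algebraMap (𝓞 F) (𝓞 M)) := rfl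

theorem mem_primesAboveSet_iff (S' : Set (HeightOneSpectrum (𝓞 F)))
    (w : HeightOneSpectrum (𝓞 M)) :
    w ∈ primesAboveSet F M S' ↔ primeBelow (F := F) w ∈ S' := by
  constructor
  · rintro ⟨v, hv, hwv⟩
    have : primeBelow (F := F) w = v := HeightOneSpectrum.ext hwv
    rwa [this]
  · intro h
    exact ⟨_, h, rfl⟩

/-- There is a prime of `M` above every prime of `F`. -/
theorem exists_primeBelow_eq (v : HeightOneSpectrum (𝓞 F)) :
    ∃ w : HeightOneSpectrum (𝓞 M), primeBelow (F := F) w = v := by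
  have : v.asIdeal.IsMaximal := v.isMaximal
  obtain ⟨Q, hQmax, hQ⟩ := Ideal.exists_ideal_over_maximal_of_isIntegral (S := 𝓞 M) v.asIdeal
    (by
      rw [(RingHom.injective_iff_ker_eq_bot _).mp
        (FaithfulSMul.algebraMap_injective (𝓞 F) (𝓞 M))]
      exact bot_le)
  have hQ0 : Q ≠ ⊥ := by
    rintro rfl
    apply v.ne_bot
    rw [← hQ]
    exact Ideal.comap_bot_of_injective _ (FaithfulSMul.algebraMap_injective (𝓞 F) (𝓞 M))
  exact ⟨⟨Q, hQmax.isPrime, hQ0⟩, HeightOneSpectrum.ext hQ⟩

/-- The set of primes at which a nonzero element is not a unit is finite. -/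
theorem finite_valuation_ne_one {y : M} (hy : y ≠ 0) :
    {w : HeightOneSpectrum (𝓞 M) | w.valuation M y ≠ 1}.Finite := by
  refine ((HeightOneSpectrum.Support.finite (𝓞 M) y).union
    (HeightOneSpectrum.Support.finite (𝓞 M) y⁻¹)).subset ?_
  intro w hw
  rcases lt_or_gt_of_ne hw with h | h
  · right
    show 1 < w.valuation M y⁻¹
    rw [map_inv₀]
    exact (one_lt_inv₀ ((Valuation.pos_iff _).mpr hy)).mpr h
  · left
    exact h

/-- Valuation of an element of the base field at an unramified prime. -/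
theorem valuation_algebraMap_of_unramified (w : HeightOneSpectrum (𝓞 M))
    (hw : w.asIdeal.ramificationIdx (𝓞 F) = 1) (c : F) :
    w.valuation M (algebraMap F M c) = (primeBelow (F := F) w).valuation F c := by
  have : w.asIdeal.LiesOver (primeBelow (F := F) w).asIdeal := ⟨rfl⟩
  have h := HeightOneSpectrum.valuation_liesOver (K := F) M (primeBelow (F := F) w) w c
  rw [← h, Ideal.ramificationIdx'_eq_ramificationIdx _ _ (primeBelow (F := F) w).ne_bot, hw,
    pow_one]

variable [IsGalois F M]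

theorem primeBelow_galPrime (τ : M ≃ₐ[F] M) (w : HeightOneSpectrum (𝓞 M)) :
    primeBelow (F := F) (galPrime τ w) = primeBelow (F := F) w :=
  HeightOneSpectrum.ext (galPrime_comap τ w)

/-- `w (τ x) = (τ⁻¹ w) (x)`. -/
theorem valuation_apply_gal (τ : M ≃ₐ[F] M) (w : HeightOneSpectrum (𝓞 M)) (x : M) :
    w.valuation M (τ x) = (galPrime τ⁻¹ w).valuation M x := by
  have h := galPrime_valuation τ⁻¹ w (τ x)
  rw [← h]
  congr 1
  exact (τ.symm_apply_apply x)

/-- `(τ w) (x) = w (τ⁻¹ x)`. -/
theorem galPrime_valuation' (τ : M ≃ₐ[F] M) (w : HeightOneSpectrum (𝓞 M)) (x : M) :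
    (galPrime τ w).valuation M x = w.valuation M (τ⁻¹ x) := by
  have h := galPrime_valuation τ w (τ⁻¹ x)
  rw [← h]
  congr 1
  exact (τ.apply_symm_apply x).symm

/-- The core of `TameH1`: given `y` with `σ y = u y`, `u` an `S'`-unit, `σ` a generator, there is
`c ∈ Fˣ` such that `y / c` is an `S'`-unit. -/
theorem exists_unit_div_of_twist (σ : M ≃ₐ[F] M) (hσ : ∀ τ : M ≃ₐ[F] M, ∃ k : ℕ, σ ^ k = τ)
    (S' : Set (HeightOneSpectrum (𝓞 F)))
    (hunr : ∀ w : HeightOneSpectrum (𝓞 M), w ∉ primesAboveSet F M S' →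
      w.asIdeal.ramificationIdx (𝓞 F) = 1)
    (hgen : Subgroup.closure (primeClass F '' S') = ⊤)
    {u y : M} (hy : y ≠ 0)
    (hu : ∀ w : HeightOneSpectrum (𝓞 M), w ∉ primesAboveSet F M S' → w.valuation M u = 1)
    (hσy : σ y = u * y) :
    ∃ c : Fˣ, ∀ w : HeightOneSpectrum (𝓞 M), w ∉ primesAboveSet F M S' →
      w.valuation M (y * (algebraMap F M (c : F))⁻¹) = 1 := by
  -- `u` is a unit at all conjugates
  have hu' : ∀ (τ : M ≃ₐ[F] M) (w : HeightOneSpectrum (𝓞 M)), w ∉ primesAboveSet F M S' →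
      w.valuation M (τ u) = 1 := by
    intro τ w hw
    rw [valuation_apply_gal]
    apply hu
    rw [mem_primesAboveSet_iff, primeBelow_galPrime, ← mem_primesAboveSet_iff]
    exact hw
  -- the valuation of `y` is invariant
  have hpow : ∀ (k : ℕ) (w : HeightOneSpectrum (𝓞 M)), w ∉ primesAboveSet F M S' →
      w.valuation M ((σ ^ k) y) = w.valuation M y := by
    intro k
    induction k with
    | zero => intro w _; simp
    | succ k ih =>
      intro w hw
      rw [pow_succ, AlgEquiv.mul_apply, hσy, map_mul, map_mul, hu' _ w hw, one_mul, ih w hw]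
  have hinv : ∀ (τ : M ≃ₐ[F] M) (w : HeightOneSpectrum (𝓞 M)), w ∉ primesAboveSet F M S' →
      w.valuation M (τ y) = w.valuation M y := by
    intro τ w hw
    obtain ⟨k, rfl⟩ := hσ τ
    exact hpow k w hw
  -- constant on the fibres
  have hconst : ∀ w w' : HeightOneSpectrum (𝓞 M), w ∉ primesAboveSet F M S' →
      primeBelow (F := F) w = primeBelow (F := F) w' →
      w'.valuation M y = w.valuation M y := by
    intro w w' hw hww'
    have h3 : (primeBelow (F := F) w).asIdeal = (primeBelow (F := F) w').asIdeal :=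
      congrArg HeightOneSpectrum.asIdeal hww'
    obtain ⟨τ, rfl⟩ := exists_galPrime_eq (F := F) w w' h3
    rw [galPrime_valuation']
    exact hinv τ⁻¹ w hw
  -- the exponents
  choose ov hover using exists_primeBelow_eq (F := F) (M := M)
  classical
  set f : HeightOneSpectrum (𝓞 F) → ℤ := fun v =>
    if v ∈ S' then 0 else -WithZero.log ((ov v).valuation M y) with hf
  have hfin : (Function.support f).Finite := by
    refine ((finite_valuation_ne_one hy).image (primeBelow (F := F))).subset ?_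
    intro v hv
    rw [Function.mem_support] at hv
    refine ⟨ov v, ?_, hover v⟩
    intro h1
    apply hv
    simp only [hf]
    split_ifs
    · rfl
    · rw [h1, WithZero.log_one, neg_zero]
  obtain ⟨c, hc⟩ := exists_valuation_eq_of_closure_eq_top (K := F) hgen
    (Finsupp.ofSupportFinite f hfin)
  refine ⟨c, fun w hw => ?_⟩
  have hwS : primeBelow (F := F) w ∉ S' := by
    rwa [← mem_primesAboveSet_iff]
  have h1 := hc (primeBelow (F := F) w) hwS
  rw [Finsupp.ofSupportFinite_coe] at h1
  simp only [hf, if_neg hwS, neg_neg] at h1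
  have hne : (ov (primeBelow (F := F) w)).valuation M y ≠ 0 :=
    (Valuation.ne_zero_iff _).mpr hy
  rw [WithZero.exp_log hne] at h1
  have hover_notin : ov (primeBelow (F := F) w) ∉ primesAboveSet F M S' := by
    rw [mem_primesAboveSet_iff, hover]
    exact hwS
  have h2 : w.valuation M y = (ov (primeBelow (F := F) w)).valuation M y :=
    hconst _ _ hover_notin (hover _)
  rw [map_mul, map_inv₀, valuation_algebraMap_of_unramified w (hunr w hw), h1, ← h2]
  exact mul_inv_cancel₀ ((Valuation.ne_zero_iff _).mpr hy)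

end TameH1

/-- **(Tb)** `H¹(G, E') = 1`. -/
theorem tameH1 : TameH1 := by
  intro p F M _ _ _ _ _ _ σ S' hp hrank hσ _ hunr hgen
  rintro u ⟨huE, huN⟩
  have : Fact p.Prime := ⟨hp⟩
  have hcard : Nat.card (M ≃ₐ[F] M) = p := by
    rw [IsGalois.card_aut_eq_finrank, hrank]
  have hgenσ : ∀ τ : M ≃ₐ[F] M, τ ∈ Subgroup.zpowers σ := fun τ =>
    mem_zpowers_of_prime_card hcard hσ
  have hpowσ : ∀ τ : M ≃ₐ[F] M, ∃ k : ℕ, σ ^ k = τ := fun τ =>
    (Submonoid.mem_powers_iff τ σ).mp (mem_powers_of_prime_card hcard hσ)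
  -- Hilbert 90
  have : IsCyclic (M ≃ₐ[F] M) := isCyclic_of_prime_card hcard
  have hnorm : Algebra.norm F (u : M) = 1 := by
    have := MonoidHom.mem_ker.mp huN
    exact congrArg Units.val this
  obtain ⟨y, hy⟩ := groupCohomology.exists_div_of_norm_eq_one (K := F) (L := M) hgenσ hnorm
  -- `y' = y⁻¹` satisfies `σ y' = u y'`
  have hσy0 : σ (y : M) ≠ 0 := (map_ne_zero σ).mpr y.ne_zero
  have hσy : σ ((y⁻¹ : Mˣ) : M) = (u : M) * ((y⁻¹ : Mˣ) : M) := by
    rw [← hy, Units.val_inv_eq_inv_val, map_inv₀]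
    field_simp
  obtain ⟨c, hc⟩ := exists_unit_div_of_twist σ hpowσ S' hunr hgen (y⁻¹ : Mˣ).ne_zero
    ((mem_sUnits _ u).mp huE) hσy
  refine ⟨y⁻¹ * (Units.map (algebraMap F M : F →* M) c)⁻¹, ?_, ?_⟩
  · rw [SetLike.mem_coe, mem_sUnits]
    intro w hw
    have := hc w hw
    simpa using this
  · apply Units.ext
    rw [twistUnits_apply]
    simp only [Units.val_div_eq_div_val, Units.coe_map, MonoidHom.coe_coe, Units.val_mul,
      Units.val_inv_eq_inv_val, map_mul, map_inv₀, AlgEquiv.commutes]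
    have h1 : σ ((y : M))⁻¹ = (u : M) * (y : M)⁻¹ := by
      have := hσy
      rwa [Units.val_inv_eq_inv_val] at this
    rw [map_inv₀] at h1
    rw [h1]
    have hy0 : (y : M) ≠ 0 := y.ne_zero
    have hc0 : algebraMap F M (c : F) ≠ 0 := (map_ne_zero _).mpr c.ne_zero
    field_simp

end Fermat.Agent.S14SI
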