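import Fermat.Agent.S14.SI.Interface

/-!
# S14 / H2 Route I, WP6: the tame first inequality — sub-packages

Blueprint: `NOTES/blueprint-S14-SI.md`, section 3.  Setting: `M/F` Galois of odd prime degree `p`,
`σ ≠ 1` in `Gal(M/F)`, `S'` a finite set of primes of `F`,

* `E  = sUnits F S'`                       (the `S'`-units of `F`),
* `E' = sUnits M (primesAboveSet F M S')`  (the `S'`-units of `M`),
* `N  = normUnits F M : Mˣ →* Fˣ`,  `twistUnits σ : z ↦ σ z / z`.

    TameFirstIneq ⟸ TameHerbrand, TameH1, KummerUnram, TameNonNorm         (Tame.lean)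
    TameNonNorm   ⟸ LocalNormProper                                         (TameNonNorm.lean)
    TameHerbrand  ⟸ Lib/Herbrand (helper86), SUnitRankZ                     (TameHerbrand.lean)
    TameH1        ⟸ Hilbert 90 (Mathlib)                                    (TameH1.lean)
-/

set_option autoImplicit false

open NumberField IsDedekindDomain

namespace Fermat.Agent.S14SI

/-- The primes of `M` above the primes of a set `S` of primes of `F`. -/
def primesAboveSet (F M : Type*) [Field F] [NumberField F] [Field M] [NumberField M]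
    [Algebra F M] (S : Set (HeightOneSpectrum (𝓞 F))) : Set (HeightOneSpectrum (𝓞 M)) :=
  {w | ∃ v ∈ S, w.asIdeal.comap (algebraMap (𝓞 F) (𝓞 M)) = v.asIdeal}

/-- The norm `Mˣ →* Fˣ`. -/
noncomputable def normUnits (F M : Type*) [Field F] [Field M] [Algebra F M] : Mˣ →* Fˣ :=
  Units.map (Algebra.norm F : M →* F)

/-- `z ↦ σ z / z` on `Mˣ`. -/
noncomputable def twistUnits {F M : Type*} [Field F] [Field M] [Algebra F M] (σ : M ≃ₐ[F] M) :
    Mˣ →* Mˣ where
  toFun z := Units.map (σ : M →* M) z / z
  map_one' := by simp
  map_mul' a b := by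
    rw [map_mul]
    exact mul_div_mul_comm _ _ _ _

@[simp] lemma twistUnits_apply {F M : Type*} [Field F] [Field M] [Algebra F M] (σ : M ≃ₐ[F] M)
    (z : Mˣ) : twistUnits σ z = Units.map (σ : M →* M) z / z := rfl

/-- `y` is a local norm at `v` (finite-level form, for `v ∤ p`): `y` is the norm of an element of
`Mˣ` times a `p`-th power residue at `v`. -/
def IsLocalNormAt (F M : Type*) [Field F] [NumberField F] [Field M] [Algebra F M]
    (v : HeightOneSpectrum (𝓞 F)) (p : ℕ) (y : F) : Prop :=
  ∃ z : M, z ≠ 0 ∧ IsPowMod F v p (y * (Algebra.norm F z)⁻¹)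

/-- **(WP1b) `S`-unit theorem, `ℤ`-rank form**: for every number field `K` and finite set `S` of
primes, `E_S` is finitely generated of rank `#{infinite places} + |S| - 1`. -/
def SUnitRankZ : Prop :=
  ∀ (K : Type) [Field K] [NumberField K] (S : Set (HeightOneSpectrum (𝓞 K))), S.Finite →
    Module.Finite ℤ (Additive ↥(sUnits K S)) ∧
    Module.finrank ℤ (Additive ↥(sUnits K S)) + 1 = Nat.card (InfinitePlace K) + S.ncard

/-- **(Ta) Herbrand quotient of the `S'`-units**: with `t` the number of primes of `S'` which do
not split completely in `M`, `h₀ = [E : N E']` and `h₁ = [E' ∩ ker N : (σ - 1) E']` are finite and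
`h₀ * p = p ^ t * h₁`. -/
def TameHerbrand : Prop :=
  ∀ (p : ℕ) (F M : Type) [Field F] [NumberField F] [Field M] [NumberField M] [Algebra F M]
    [IsGalois F M] (σ : M ≃ₐ[F] M) (S' : Set (HeightOneSpectrum (𝓞 F))),
    p.Prime → p ≠ 2 → Module.finrank F M = p → σ ≠ 1 → S'.Finite →
    ((sUnits M (primesAboveSet F M S')).map (normUnits F M)).relIndex (sUnits F S') ≠ 0 ∧
    ((sUnits M (primesAboveSet F M S')).map (twistUnits σ)).relIndex
        (sUnits M (primesAboveSet F M S') ⊓ (normUnits F M).ker) ≠ 0 ∧
    ((sUnits M (primesAboveSet F M S')).map (normUnits F M)).relIndex (sUnits F S') * p =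
      p ^ {v | v ∈ S' ∧ ¬ SplitsCompletely F M v}.ncard *
        ((sUnits M (primesAboveSet F M S')).map (twistUnits σ)).relIndex
          (sUnits M (primesAboveSet F M S') ⊓ (normUnits F M).ker)

/-- **(Tb) `H¹(G, E') = 1`**: if all primes of `M` outside `S'` are unramified over `F` and the
primes of `S'` generate the class group of `F`, every `S'`-unit of `M` of norm `1` is of the form
`σ z / z` with `z` an `S'`-unit of `M`.  (Hilbert 90.) -/
def TameH1 : Prop :=
  ∀ (p : ℕ) (F M : Type) [Field F] [NumberField F] [Field M] [NumberField M] [Algebra F M]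
    [IsGalois F M] (σ : M ≃ₐ[F] M) (S' : Set (HeightOneSpectrum (𝓞 F))),
    p.Prime → Module.finrank F M = p → σ ≠ 1 → S'.Finite →
    (∀ w : HeightOneSpectrum (𝓞 M), w ∉ primesAboveSet F M S' →
      w.asIdeal.ramificationIdx (𝓞 F) = 1) →
    Subgroup.closure (primeClass F '' S') = ⊤ →
    sUnits M (primesAboveSet F M S') ⊓ (normUnits F M).ker ≤
      (sUnits M (primesAboveSet F M S')).map (twistUnits σ)

/-- **(Td) the local norm group at a non-split prime `v ∤ p` is proper**: an element of
valuation `exp (-1)` (a uniformizer) and a unit which is not a `p`-th power residue cannot both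
be local norms.  (Unique prime `w` above `v`; `f = p`: `v (N z) = w z ^ p`; `e = p`: `f = 1` and
`N z ≡ c ^ p mod w`.) -/
def LocalNormProper : Prop :=
  ∀ (p : ℕ) (F M : Type) [Field F] [NumberField F] [Field M] [NumberField M] [Algebra F M]
    [IsGalois F M] (v : HeightOneSpectrum (𝓞 F)) (y u : F),
    p.Prime → Module.finrank F M = p → (p : 𝓞 F) ∉ v.asIdeal → ¬ SplitsCompletely F M v →
    v.valuation F y = WithZero.exp (-1 : ℤ) → v.valuation F u = 1 → ¬ IsPowMod F v p u →
    IsLocalNormAt F M v p y → IsLocalNormAt F M v p u → False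

/-- **(Td') non-norms with prescribed behaviour at the other primes of `T`**: for every `v ∈ T`
which does not split completely there is an `(S ∪ T)`-unit which is not a local norm at `v` and
is a `p`-th power residue at all other primes of `T`.
(From `LocalNormProper`: candidates `Y₁ = y₁ u'` with `(y₁) = v · (S-part)` (`S` generates the
class group), `u' ∈ E_S` correcting the residues at `T \ {v}`, and `U₁ ∈ E_S` a non-residue at
`v`, residue at `T \ {v}`; both exist by `ResidueSurjective`; one of them is not a local norm.) -/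
def TameNonNorm : Prop :=
  ∀ (p : ℕ) (F M : Type) [Field F] [NumberField F] [Field M] [NumberField M] [Algebra F M]
    [IsGalois F M] (ζ : F) (S T : Finset (HeightOneSpectrum (𝓞 F)))
    (v : HeightOneSpectrum (𝓞 F)),
    p.Prime → IsPrimitiveRoot ζ p → Module.finrank F M = p →
    ContainsPrimesAbove F p S → GeneratesClassGroup F S → Disjoint S T →
    ResidueSurjective F p S T → v ∈ T → ¬ SplitsCompletely F M v →
    ∃ y : Fˣ, y ∈ sUnits F (↑S ∪ ↑T) ∧ ¬ IsLocalNormAt F M v p (y : F) ∧
      ∀ v' ∈ T, v' ≠ v → IsPowMod F v' p (y : F)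

end Fermat.Agent.S14SI
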