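import Fermat.Agent.S14.SI.Defs

/-!
# S14 / H2 Route I: small shared lemmas (valuations of `ζ - 1`, `IsPowMod`, finiteness)
-/

set_option autoImplicit false

open NumberField IsDedekindDomain

namespace Fermat.Agent.S14SI

variable {F : Type*} [Field F] [NumberField F]

/-- Only finitely many primes have `v a ≠ 1`, for `a ≠ 0`. -/
lemma finite_setOf_valuation_ne_one' (F : Type*) [Field F] [NumberField F] {a : F} (ha : a ≠ 0) :
    {v : HeightOneSpectrum (𝓞 F) | v.valuation F a ≠ 1}.Finite := by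
  have h1 := HeightOneSpectrum.Support.finite (𝓞 F) a
  have h2 := HeightOneSpectrum.Support.finite (𝓞 F) a⁻¹
  refine (h1.union h2).subset ?_
  intro v hv
  rcases lt_or_gt_of_ne (show v.valuation F a ≠ 1 from hv) with h | h
  · right
    show 1 < v.valuation F a⁻¹
    rw [map_inv₀]
    exact (one_lt_inv₀ ((Valuation.pos_iff _).mpr ha)).mpr h
  · left; exact h

/-- Only finitely many primes contain a nonzero natural number. -/
lemma finite_setOf_natCast_mem (F : Type*) [Field F] [NumberField F] {p : ℕ} (hp : p ≠ 0) :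
    {v : HeightOneSpectrum (𝓞 F) | (p : 𝓞 F) ∈ v.asIdeal}.Finite := by
  have hne : Ideal.span {(p : 𝓞 F)} ≠ 0 := by
    rw [Ne, Ideal.zero_eq_bot, Ideal.span_singleton_eq_bot]
    exact_mod_cast hp
  refine (Ideal.finite_factors hne).subset ?_
  intro v hv
  exact (Ideal.dvd_span_singleton).mpr hv

omit [NumberField F] in
/-- A primitive root of unity of `F`, as an element of `𝓞 F`. -/
lemma exists_integer_of_isPrimitiveRoot {p : ℕ} {ζ : F} (hζ : IsPrimitiveRoot ζ p) (hp : 0 < p) :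
    ∃ z : 𝓞 F, (z : F) = ζ ∧ IsPrimitiveRoot z p := by
  obtain ⟨z, hz⟩ := (IsIntegralClosure.isIntegral_iff (A := 𝓞 F)).mp (hζ.isIntegral hp)
  refine ⟨z, hz, ?_⟩
  have hinj : Function.Injective (algebraMap (𝓞 F) F) := RingOfIntegers.coe_injective
  have hz' : IsPrimitiveRoot (algebraMap (𝓞 F) F z) p := by rw [hz]; exact hζ
  exact IsPrimitiveRoot.of_map_of_injective hz' hinj

/-- If `v ∤ p` then `ζ ^ k - 1` is a unit at `v` for `0 < k < p`. -/
lemma valuation_pow_sub_one_eq_one (v : HeightOneSpectrum (𝓞 F)) {p : ℕ} {ζ : F}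
    (hζ : IsPrimitiveRoot ζ p) (hv : (p : 𝓞 F) ∉ v.asIdeal) {k : ℕ} (hk0 : 0 < k) (hkp : k < p) :
    v.valuation F (ζ ^ k - 1) = 1 := by
  have hp0 : 0 < p := by omega
  obtain ⟨z, hz, hzp⟩ := exists_integer_of_isPrimitiveRoot hζ hp0
  obtain ⟨n, rfl⟩ : ∃ n, p = n + 1 := ⟨p - 1, by omega⟩
  have hprod := hzp.prod_one_sub_pow_eq_order
  have hmem : (1 - z ^ k) ∉ v.asIdeal := by
    intro hmem
    apply hv
    have hdvd : (1 - z ^ k) ∣ ∏ j ∈ Finset.range n, (1 - z ^ (j + 1)) := by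
      have : k - 1 ∈ Finset.range n := Finset.mem_range.mpr (by omega)
      have h := Finset.dvd_prod_of_mem (fun j => 1 - z ^ (j + 1)) this
      simpa [Nat.sub_add_cancel hk0] using h
    rw [hprod] at hdvd
    have := v.asIdeal.mem_of_dvd hdvd hmem
    exact_mod_cast this
  have h1 : v.valuation F ((1 - z ^ k : 𝓞 F) : F) = 1 := by
    rw [HeightOneSpectrum.valuation_of_algebraMap]
    exact (HeightOneSpectrum.intValuation_eq_one_iff).mpr hmem
  have h2 : ((1 - z ^ k : 𝓞 F) : F) = -(ζ ^ k - 1) := by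
    push_cast; subst hz; ring
  rw [h2, Valuation.map_neg] at h1
  exact h1

/-- If `v ∤ p` then `ζ - 1` is a unit at `v`. -/
lemma valuation_sub_one_eq_one (v : HeightOneSpectrum (𝓞 F)) {p : ℕ} {ζ : F}
    (hζ : IsPrimitiveRoot ζ p) (hp : 1 < p) (hv : (p : 𝓞 F) ∉ v.asIdeal) :
    v.valuation F (ζ - 1) = 1 := by
  simpa using valuation_pow_sub_one_eq_one v hζ hv (k := 1) one_pos hp

/-- A `p`-th power residue at `v` is a unit at `v`. -/
lemma IsPowMod.valuation_eq_one {v : HeightOneSpectrum (𝓞 F)} {p : ℕ} {u : F}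
    (h : IsPowMod F v p u) : v.valuation F u = 1 := by
  obtain ⟨z, hz, h⟩ := h
  have hz1 : v.valuation F ((z : F) ^ p) = 1 := by
    rw [map_pow, HeightOneSpectrum.valuation_of_algebraMap,
      (HeightOneSpectrum.intValuation_eq_one_iff).mpr hz, one_pow]
  have : u = (z : F) ^ p + (u - (z : F) ^ p) := by ring
  rw [this]
  rw [Valuation.map_add_eq_of_lt_left _ (by rw [hz1]; exact h), hz1]

/-- For `v ∤ p`, a `p`-th power residue at `v` is a local `p`-th power at `v`. -/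
lemma IsPowMod.isLocalPow {v : HeightOneSpectrum (𝓞 F)} {p : ℕ} {ζ u : F}
    (hζ : IsPrimitiveRoot ζ p) (hp : 1 < p) (hv : (p : 𝓞 F) ∉ v.asIdeal)
    (h : IsPowMod F v p u) : IsLocalPow F v p ζ u := by
  obtain ⟨z, hz, h⟩ := h
  have hz1 : v.valuation F (z : F) = 1 := by
    rw [HeightOneSpectrum.valuation_of_algebraMap]
    exact (HeightOneSpectrum.intValuation_eq_one_iff).mpr hz
  have hz0 : (z : F) ≠ 0 := by
    intro h0; rw [h0] at hz1; simp at hz1
  refine ⟨(z : F)⁻¹, inv_ne_zero hz0, ?_⟩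
  rw [valuation_sub_one_eq_one v hζ hp hv, one_pow]
  have e : u * ((z : F)⁻¹) ^ p - 1 = (u - (z : F) ^ p) * ((z : F) ^ p)⁻¹ := by
    have hzp : (z : F) ^ p ≠ 0 := pow_ne_zero _ hz0
    rw [inv_pow, sub_mul, mul_inv_cancel₀ hzp]
  rw [e, map_mul, map_inv₀, map_pow, hz1, one_pow, inv_one, mul_one]
  exact h

end Fermat.Agent.S14SI
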