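import Fermat.Agent.S14.SI.Interface

/-!
# S14 / H2 Route I, WP2': the residue group `k_v^× / (k_v^×)^p` is cyclic (element-level form)
(helper12)
-/

set_option autoImplicit false

open NumberField IsDedekindDomain
open scoped nonZeroDivisors

namespace Fermat.Agent.S14SI

variable {F : Type*} [Field F] [NumberField F]

/-- A `v`-unit of `F` is congruent modulo `v` to an element of `𝓞 F` outside `v`. -/
theorem wp2_exists_approx (v : HeightOneSpectrum (𝓞 F)) {x : F} (hx : v.valuation F x = 1) :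
    ∃ r : 𝓞 F, r ∉ v.asIdeal ∧ v.valuation F (x - (r : F)) < 1 := by
  obtain ⟨a, ha⟩ := v.exists_valuation_sub_lt_of_integer (K := F) hx.le 1
  have ha' : v.valuation F ((a : F) - x) < 1 := by simpa using ha
  refine ⟨a, ?_, ?_⟩
  · intro hmem
    have h1 : v.valuation F (a : F) < 1 := (v.valuation_lt_one_iff_mem a).mpr hmem
    have : v.valuation F x < 1 := by
      have e : x = (a : F) - ((a : F) - x) := by ring
      rw [e]
      exact lt_of_le_of_lt (Valuation.map_sub _ _ _) (max_lt h1 ha')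
    rw [hx] at this
    exact lt_irrefl _ this
  · rw [Valuation.map_sub_swap]
    exact ha'

/-- Congruences modulo `v` multiply. -/
theorem wp2_cong_mul (v : HeightOneSpectrum (𝓞 F)) {x y : F} {r s : 𝓞 F}
    (hx : v.valuation F x ≤ 1)
    (h1 : v.valuation F (x - (r : F)) < 1) (h2 : v.valuation F (y - (s : F)) < 1) :
    v.valuation F (x * y - ((r * s : 𝓞 F) : F)) < 1 := by
  have e : x * y - ((r * s : 𝓞 F) : F) = x * (y - (s : F)) + (s : F) * (x - (r : F)) := by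
    push_cast
    ring
  rw [e]
  refine lt_of_le_of_lt (Valuation.map_add _ _ _) (max_lt ?_ ?_)
  · rw [map_mul]
    calc v.valuation F x * v.valuation F (y - (s : F))
        ≤ 1 * v.valuation F (y - (s : F)) := mul_le_mul' hx le_rfl
      _ = v.valuation F (y - (s : F)) := one_mul _
      _ < 1 := h2
  · rw [map_mul]
    calc v.valuation F (s : F) * v.valuation F (x - (r : F))
        ≤ 1 * v.valuation F (x - (r : F)) := mul_le_mul' (v.valuation_le_one s) le_rfl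
      _ = v.valuation F (x - (r : F)) := one_mul _
      _ < 1 := h1

/-- Congruences modulo `v` can be raised to powers. -/
theorem wp2_cong_pow (v : HeightOneSpectrum (𝓞 F)) {x : F} {r : 𝓞 F}
    (hx : v.valuation F x ≤ 1) (h1 : v.valuation F (x - (r : F)) < 1) (i : ℕ) :
    v.valuation F (x ^ i - ((r ^ i : 𝓞 F) : F)) < 1 := by
  induction i with
  | zero =>
    simp
  | succ i ih =>
    rw [pow_succ, pow_succ]
    have hxi : v.valuation F (x ^ i) ≤ 1 := by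
      rw [map_pow]
      exact pow_le_one' hx i
    exact wp2_cong_mul v hxi ih h1

/-- If `w ≡ r mod v` and `r ≡ z ^ p mod v` with `z ∉ v` then `w` is a `p`-th power modulo `v`. -/
theorem wp2_isPowMod_of_cong (v : HeightOneSpectrum (𝓞 F)) (p : ℕ) {w : F} {r z : 𝓞 F}
    (hw : v.valuation F (w - (r : F)) < 1) (hz : z ∉ v.asIdeal)
    (hrz : Ideal.Quotient.mk v.asIdeal r = Ideal.Quotient.mk v.asIdeal z ^ p) :
    IsPowMod F v p w := by
  refine ⟨z, hz, ?_⟩
  have hmem : r - z ^ p ∈ v.asIdeal := by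
    rw [← Ideal.Quotient.eq_zero_iff_mem, map_sub, map_pow, hrz, sub_self]
  have h2 : v.valuation F (((r - z ^ p : 𝓞 F)) : F) < 1 :=
    (v.valuation_lt_one_iff_mem _).mpr hmem
  have e : w - (z : F) ^ p = (w - (r : F)) + (((r - z ^ p : 𝓞 F)) : F) := by
    push_cast
    ring
  rw [e]
  exact lt_of_le_of_lt (Valuation.map_add _ _ _) (max_lt hw h2)

/-- Elementary arithmetic: if `p` is prime and `p ∤ a` there is `i < p` with `p ∣ b + a * i`. -/
theorem wp2_exists_lt_dvd {p a : ℕ} (hp : p.Prime) (ha : ¬ p ∣ a) (b : ℕ) :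
    ∃ i : ℕ, i < p ∧ p ∣ b + a * i := by
  have : Fact p.Prime := ⟨hp⟩
  have ha' : (a : ZMod p) ≠ 0 := by
    rwa [Ne, ZMod.natCast_eq_zero_iff]
  refine ⟨((-(b : ZMod p)) * (a : ZMod p)⁻¹).val, ZMod.val_lt _, ?_⟩
  rw [← ZMod.natCast_eq_zero_iff]
  push_cast
  rw [ZMod.natCast_val, ZMod.cast_id', id_eq]
  field_simp
  ring

/-- **WP2'**: `k_v^× / (k_v^×)^p` is cyclic, element-level form. -/
theorem localCyclic : LocalCyclic := by
  intro p F _ _ ζ x u v hp _ _ hx hu hnot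
  classical
  have hmax : v.asIdeal.IsMaximal := v.isMaximal
  let _ : Field (𝓞 F ⧸ v.asIdeal) := Ideal.Quotient.field v.asIdeal
  have : Finite (𝓞 F ⧸ v.asIdeal) := Ideal.finiteQuotientOfFreeOfNeBot v.asIdeal v.ne_bot
  obtain ⟨rx, hrx, hcx⟩ := wp2_exists_approx v hx
  obtain ⟨ru, hru, hcu⟩ := wp2_exists_approx v hu
  have hπx : Ideal.Quotient.mk v.asIdeal rx ≠ 0 := by
    rwa [Ne, Ideal.Quotient.eq_zero_iff_mem]
  have hπu : Ideal.Quotient.mk v.asIdeal ru ≠ 0 := by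
    rwa [Ne, Ideal.Quotient.eq_zero_iff_mem]
  obtain ⟨g, hg⟩ := IsCyclic.exists_generator (α := (𝓞 F ⧸ v.asIdeal)ˣ)
  have hpow : ∀ w : (𝓞 F ⧸ v.asIdeal)ˣ, ∃ n : ℕ, g ^ n = w := by
    intro w
    have hw := hg w
    rw [← mem_powers_iff_mem_zpowers] at hw
    exact hw
  -- lifting units
  have hlift : ∀ w : (𝓞 F ⧸ v.asIdeal)ˣ, ∃ z : 𝓞 F, z ∉ v.asIdeal ∧
      Ideal.Quotient.mk v.asIdeal z = (w : 𝓞 F ⧸ v.asIdeal) := by
    intro w
    obtain ⟨z, hz⟩ := Ideal.Quotient.mk_surjective (w : 𝓞 F ⧸ v.asIdeal)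
    refine ⟨z, ?_, hz⟩
    intro hmem
    rw [← Ideal.Quotient.eq_zero_iff_mem, hz] at hmem
    exact w.ne_zero hmem
  obtain ⟨a, ha⟩ := hpow (Units.mk0 _ hπu)
  obtain ⟨b, hb⟩ := hpow (Units.mk0 _ hπx)
  have ha' : Ideal.Quotient.mk v.asIdeal ru = ((g ^ a : (𝓞 F ⧸ v.asIdeal)ˣ) : 𝓞 F ⧸ v.asIdeal) := by
    rw [ha]; rfl
  have hb' : Ideal.Quotient.mk v.asIdeal rx = ((g ^ b : (𝓞 F ⧸ v.asIdeal)ˣ) : 𝓞 F ⧸ v.asIdeal) := by
    rw [hb]; rfl
  have hpa : ¬ p ∣ a := by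
    rintro ⟨a', rfl⟩
    obtain ⟨z, hz, hzg⟩ := hlift (g ^ a')
    refine hnot (wp2_isPowMod_of_cong v p hcu hz ?_)
    rw [ha', hzg, mul_comm, pow_mul]
    push_cast
    rfl
  obtain ⟨i, hi, c, hc⟩ := wp2_exists_lt_dvd hp hpa b
  refine ⟨i, hi, ?_⟩
  obtain ⟨z, hz, hzg⟩ := hlift (g ^ c)
  have hcong : v.valuation F (x * u ^ i - ((rx * ru ^ i : 𝓞 F) : F)) < 1 :=
    wp2_cong_mul v hx.le hcx (wp2_cong_pow v hu.le hcu i)
  refine wp2_isPowMod_of_cong v p hcong hz ?_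
  rw [map_mul, map_pow, ha', hb', hzg]
  push_cast
  rw [← pow_mul, ← pow_add, hc, mul_comm p c, pow_mul]

end Fermat.Agent.S14SI
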