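import Fermat.Agent.S14.SI.Interface
import Fermat.Agent.S14.SI.Basic

/-!
# S14 / H2 Route I: `SecondIneqKummer` from the main theorem
-/

set_option autoImplicit false

open NumberField IsDedekindDomain
open scoped nonZeroDivisors

namespace Fermat.Agent.S14SI

/-- `p`-th powers of ideal classes are norm classes. -/
lemma pow_mem_normClasses (E M : Type) [Field E] [NumberField E] [Field M] [NumberField M]
    [Algebra E M] (c : ClassGroup (𝓞 E)) :
    c ^ Module.finrank E M ∈ Fermat.Agent.S14.normClasses E M := by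
  obtain ⟨J, rfl⟩ := ClassGroup.mk0_surjective c
  have hinj : Function.Injective (algebraMap (𝓞 E) (𝓞 M)) :=
    FaithfulSMul.algebraMap_injective (𝓞 E) (𝓞 M)
  have hmap : (J : Ideal (𝓞 E)).map (algebraMap (𝓞 E) (𝓞 M)) ∈ (Ideal (𝓞 M))⁰ := by
    refine mem_nonZeroDivisors_of_ne_zero ?_
    intro h
    have := (Ideal.map_eq_bot_iff_of_injective hinj).mp h
    exact nonZeroDivisors.coe_ne_zero J this
  refine ⟨⟨_, hmap⟩, J ^ Module.finrank E M, ?_, by rw [map_pow]⟩
  rw [Ideal.relNorm_algebraMap, IsFractionRing.finrank_eq (𝓞 E) E (𝓞 M) M]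
  rfl

/-- **Assembly**: the Kummer case of the second inequality, from the main theorem of Route I. -/
theorem secondIneqKummer_of (h1 : MainThm) (h2 : KummerSplits) (h3 : SplitNormClass) :
    Fermat.Agent.S14.SecondIneqKummer := by
  intro p E M _ _ _ _ _ _ ζ N hp hp2 hζ hdeg _ hN
  have : Fact p.Prime := ⟨hp⟩
  -- Kummer generator
  have hcard : Nat.card (M ≃ₐ[E] M) = p := by
    rw [IsGalois.card_aut_eq_finrank, hdeg]
  have : IsCyclic (M ≃ₐ[E] M) := isCyclic_of_prime_card hcard
  have hK : (primitiveRoots (Module.finrank E M) E).Nonempty :=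
    ⟨ζ, by rw [hdeg]; exact (mem_primitiveRoots hp.pos).mpr hζ⟩
  obtain ⟨α, ⟨a, ha⟩, hα⟩ := exists_root_adjoin_eq_top_of_isCyclic E M hK
  rw [hdeg] at ha
  -- `α ∉ E`
  have hαE : ∀ b : E, algebraMap E M b ≠ α := by
    intro b hb
    have hbot : IntermediateField.adjoin E {α} = ⊥ := by
      rw [IntermediateField.adjoin_simple_eq_bot_iff]
      exact IntermediateField.mem_bot.mpr ⟨b, hb⟩
    rw [hbot] at hα
    have h1 : Module.finrank E (⊥ : IntermediateField E M) = 1 := IntermediateField.finrank_bot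
    rw [hα, IntermediateField.finrank_top', hdeg] at h1
    exact hp.one_lt.ne' h1
  have ha0 : a ≠ 0 := by
    rintro rfl
    rw [map_zero] at ha
    have hα0 : α = 0 := pow_eq_zero_iff hp.ne_zero |>.mp ha.symm
    exact hαE 0 (by rw [map_zero, hα0])
  -- `a` is not a `p`-th power
  have hnp : ¬ ∃ b : E, b ^ p = a := by
    rintro ⟨b, hb⟩
    have hb0 : b ≠ 0 := by
      rintro rfl
      rw [zero_pow hp.ne_zero] at hb
      exact ha0 hb.symm
    have hbM : algebraMap E M b ≠ 0 := by
      simpa using hb0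
    have hζM : IsPrimitiveRoot (algebraMap E M ζ) p :=
      hζ.map_of_injective (algebraMap E M).injective
    have hpow : (α / algebraMap E M b) ^ p = 1 := by
      rw [div_pow, ← ha, ← map_pow, hb, div_self]
      rw [← hb, map_pow]; exact pow_ne_zero _ hbM
    obtain ⟨i, -, hi⟩ := hζM.eq_pow_of_pow_eq_one hpow
    refine hαE (ζ ^ i * b) ?_
    rw [map_mul, map_pow, hi, div_mul_cancel₀ _ hbM]
  obtain ⟨T, hT, hidx⟩ := h1 p E ζ a hp hp2 hζ ha0 hnp
  -- the subgroup generated by `T` and the `p`-th powers is contained in `N`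
  have hle : classSubgroup E p T ≤ N := by
    refine (Subgroup.closure_le N).mpr ?_
    rintro c (⟨v, hv, rfl⟩ | ⟨c, rfl⟩)
    · obtain ⟨hvp, hpow⟩ := hT v hv
      apply hN
      apply h3 E M v
      exact h2 p E M ζ a α v hp hζ hdeg ha.symm hαE (hpow.isLocalPow hζ hp.one_lt hvp)
    · apply hN
      have := pow_mem_normClasses E M c
      rwa [hdeg] at this
  have hdvd := Subgroup.index_dvd_of_le hle
  have hne : (classSubgroup E p T).index ≠ 0 := Subgroup.index_ne_zero_of_finite
  exact (Nat.le_of_dvd (Nat.pos_of_ne_zero hne) hdvd).trans hidx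

end Fermat.Agent.S14SI
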