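import Fermat.Agent.S14.SI.Interface
import Fermat.Agent.S14.SI.Basic

/-!
# S14 / H2 Route I, WP5: the choice of the auxiliary set `T` (helper48)

`theorem chooseT : SUnitRank → KummerNonSplit → LocalCyclic → ChooseT`.

Induction on `j ≤ n - 1`, `n = r₂ + |S|`: a set `T_j` of `j` primes outside `S` at which `a` is a
`p`-th power residue and such that `E_S → ∏_{v ∈ T_j} k_v^× / p` is onto.  The subgroup
`K(T_j) ∩ E_S` of `S`-units which are residues at `T_j` has index `≤ p^j < p^(n-1) ≤ [E_S : ⟨a⟩E_S^p]`,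
so there is `u ∈ K(T_j) ∩ E_S` outside `⟨a⟩ E_S^p`; `KummerNonSplit` gives a new prime `v` at which
`a` is a residue and `u` is not, and `LocalCyclic` gives surjectivity for `T_j ∪ {v}`.

Also: `IsPowMod` is stable under products and inverses (`powModSubgroup`).
-/

set_option autoImplicit false

open NumberField IsDedekindDomain

namespace Fermat.Agent.S14SI

variable {F : Type} [Field F] [NumberField F]

/-! ### `IsPowMod` is a subgroup condition -/

lemma chooseT_valuation_coe_eq_one {v : HeightOneSpectrum (𝓞 F)} {z : 𝓞 F} (hz : z ∉ v.asIdeal) :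
    v.valuation F (z : F) = 1 := by
  rw [HeightOneSpectrum.valuation_of_algebraMap]
  exact (HeightOneSpectrum.intValuation_eq_one_iff).mpr hz

lemma chooseT_isPowMod_one (v : HeightOneSpectrum (𝓞 F)) (p : ℕ) : IsPowMod F v p 1 := by
  refine ⟨1, ?_, ?_⟩
  · intro h
    exact v.isPrime.ne_top ((Ideal.eq_top_iff_one _).mpr h)
  · simp

lemma chooseT_isPowMod_mul {v : HeightOneSpectrum (𝓞 F)} {p : ℕ} {a b : F}
    (ha : IsPowMod F v p a) (hb : IsPowMod F v p b) : IsPowMod F v p (a * b) := by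
  have hb1 := hb.valuation_eq_one
  obtain ⟨z, hz, h1⟩ := ha
  obtain ⟨w, hw, h2⟩ := hb
  refine ⟨z * w, fun h => (v.isPrime.mem_or_mem h).elim hz hw, ?_⟩
  have e : a * b - ((z * w : 𝓞 F) : F) ^ p = (a - (z : F) ^ p) * b + (z : F) ^ p * (b - (w : F) ^ p) := by
    push_cast; ring
  rw [e]
  refine Valuation.map_add_lt _ ?_ ?_
  · rw [map_mul, hb1, mul_one]; exact h1
  · rw [map_mul, map_pow, chooseT_valuation_coe_eq_one hz, one_pow, one_mul]; exact h2

lemma chooseT_isPowMod_inv {v : HeightOneSpectrum (𝓞 F)} {p : ℕ} {a : F}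
    (ha : IsPowMod F v p a) : IsPowMod F v p a⁻¹ := by
  have ha1 := ha.valuation_eq_one
  have ha0 : a ≠ 0 := by
    intro h0; rw [h0] at ha1; simp at ha1
  obtain ⟨z, hz, h1⟩ := ha
  obtain ⟨w, i, hi, hwi⟩ := v.isMaximal.exists_inv hz
  have hw : w ∉ v.asIdeal := by
    intro hw
    have : (1 : 𝓞 F) ∈ v.asIdeal := by
      rw [← hwi]
      exact v.asIdeal.add_mem (v.asIdeal.mul_mem_right _ hw) hi
    exact v.isPrime.ne_top ((Ideal.eq_top_iff_one _).mpr this)
  refine ⟨w, hw, ?_⟩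
  -- `(w z)^p - 1 ∈ v`
  have hmem : (w * z) ^ p - 1 ∈ v.asIdeal := by
    have h1' : w * z - 1 ∈ v.asIdeal := by
      have : w * z - 1 = -i := by rw [← hwi]; ring
      rw [this]; exact v.asIdeal.neg_mem hi
    have hdvd : w * z - 1 ∣ (w * z) ^ p - 1 ^ p := sub_dvd_pow_sub_pow _ _ p
    rw [one_pow] at hdvd
    exact v.asIdeal.mem_of_dvd hdvd h1'
  have hval : v.valuation F (((w * z) ^ p - 1 : 𝓞 F) : F) < 1 :=
    (v.valuation_lt_one_iff_mem _).mpr hmem
  have e : a⁻¹ - (w : F) ^ p =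
      a⁻¹ * (-((((w * z) ^ p - 1 : 𝓞 F) : F)) - (w : F) ^ p * (a - (z : F) ^ p)) := by
    push_cast
    field_simp
    ring
  rw [e, map_mul, map_inv₀, ha1, inv_one, one_mul]
  refine Valuation.map_sub_lt _ ?_ ?_
  · rw [Valuation.map_neg]; exact hval
  · rw [map_mul, map_pow, chooseT_valuation_coe_eq_one hw, one_pow, one_mul]; exact h1

variable (F) in
/-- The subgroup of `Fˣ` of `p`-th power residues at `v`. -/
def powModSubgroup (v : HeightOneSpectrum (𝓞 F)) (p : ℕ) : Subgroup Fˣ where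
  carrier := {u | IsPowMod F v p (u : F)}
  one_mem' := by simpa using chooseT_isPowMod_one v p
  mul_mem' := fun ha hb => by simpa using chooseT_isPowMod_mul ha hb
  inv_mem' := fun ha => by simpa using chooseT_isPowMod_inv ha

lemma mem_powModSubgroup {v : HeightOneSpectrum (𝓞 F)} {p : ℕ} {u : Fˣ} :
    u ∈ powModSubgroup F v p ↔ IsPowMod F v p (u : F) := Iff.rfl

/-! ### A group-theoretic index bound -/

/-- If every element of `L` can be moved into `H` by one of the `p` elements `u₀ ^ i`, `i < p`,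
of `L`, then `H` has relative index at most `p` (and nonzero) in `L`. -/
lemma chooseT_relIndex_le {G : Type*} [CommGroup G] (H L : Subgroup G) {p : ℕ} {u₀ : G}
    (hu₀ : u₀ ∈ L) (h : ∀ x ∈ L, ∃ i : ℕ, i < p ∧ x * u₀ ^ i ∈ H) :
    H.relIndex L ≠ 0 ∧ H.relIndex L ≤ p := by
  let f : Fin p → L ⧸ H.subgroupOf L := fun i =>
    QuotientGroup.mk (⟨u₀ ^ (i : ℕ), L.pow_mem hu₀ _⟩⁻¹ : L)
  have hf : Function.Surjective f := by
    intro q
    obtain ⟨x, rfl⟩ := QuotientGroup.mk_surjective q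
    obtain ⟨i, hi, hx⟩ := h x x.2
    refine ⟨⟨i, hi⟩, ?_⟩
    rw [QuotientGroup.eq]
    rw [Subgroup.mem_subgroupOf]
    simp only [inv_inv, Subgroup.coe_mul]
    rw [mul_comm]
    exact hx
  have hfin : Finite (L ⧸ H.subgroupOf L) := Finite.of_surjective f hf
  have hcard : Nat.card (L ⧸ H.subgroupOf L) ≤ p := by
    have := Nat.card_le_card_of_surjective f hf
    simpa using this
  refine ⟨?_, hcard⟩
  show (H.subgroupOf L).index ≠ 0
  rw [Subgroup.index]
  exact Nat.card_pos.ne'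


/-! ### The construction of `T` -/

section Construction

variable {p : ℕ} {S : Finset (HeightOneSpectrum (𝓞 F))}

/-- The `S`-units which are `p`-th power residues at all primes of `T`. -/
def chooseT_K (F : Type) [Field F] [NumberField F] (p : ℕ)
    (T : Finset (HeightOneSpectrum (𝓞 F))) : Subgroup Fˣ where
  carrier := {u | ∀ v ∈ T, IsPowMod F v p (u : F)}
  one_mem' := fun v _ => by simpa using chooseT_isPowMod_one v p
  mul_mem' := fun ha hb v hv => by simpa using chooseT_isPowMod_mul (ha v hv) (hb v hv)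
  inv_mem' := fun ha v hv => by simpa using chooseT_isPowMod_inv (ha v hv)

lemma chooseT_mem_K {T : Finset (HeightOneSpectrum (𝓞 F))} {u : Fˣ} :
    u ∈ chooseT_K F p T ↔ ∀ v ∈ T, IsPowMod F v p (u : F) := Iff.rfl

lemma chooseT_K_insert [DecidableEq (HeightOneSpectrum (𝓞 F))]
    (T : Finset (HeightOneSpectrum (𝓞 F))) (v : HeightOneSpectrum (𝓞 F)) :
    chooseT_K F p (insert v T) = powModSubgroup F v p ⊓ chooseT_K F p T := by
  ext u
  simp only [chooseT_mem_K, Subgroup.mem_inf, mem_powModSubgroup, Finset.mem_insert,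
    forall_eq_or_imp]

/-- `k_v^× / p` has order at most `p`: the index of the residues in the `S`-units. -/
lemma chooseT_relIndex_powMod (hLC : LocalCyclic) (hp : p.Prime) {ζ : F}
    (hζ : IsPrimitiveRoot ζ p) (hS : ContainsPrimesAbove F p S) {v : HeightOneSpectrum (𝓞 F)}
    (hv : v ∉ S) :
    (powModSubgroup F v p).relIndex (sUnits F (S : Set (HeightOneSpectrum (𝓞 F)))) ≠ 0 ∧
      (powModSubgroup F v p).relIndex (sUnits F (S : Set (HeightOneSpectrum (𝓞 F)))) ≤ p := by
  by_cases hle : sUnits F (S : Set (HeightOneSpectrum (𝓞 F))) ≤ powModSubgroup F v p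
  · rw [Subgroup.relIndex_eq_one.mpr hle]
    exact ⟨one_ne_zero, hp.one_lt.le⟩
  · obtain ⟨u₀, hu₀, hu₀'⟩ := SetLike.not_le_iff_exists.mp hle
    have hvp : (p : 𝓞 F) ∉ v.asIdeal := fun h => hv (hS v h)
    have hvS : v ∉ (S : Set (HeightOneSpectrum (𝓞 F))) := by simpa using hv
    refine chooseT_relIndex_le _ _ hu₀ fun x hx => ?_
    obtain ⟨i, hi, h⟩ := hLC p F ζ (x : F) (u₀ : F) v hp hζ hvp
      ((mem_sUnits _ x).mp hx v hvS) ((mem_sUnits _ u₀).mp hu₀ v hvS) hu₀'
    refine ⟨i, hi, ?_⟩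
    rw [mem_powModSubgroup]
    simpa using h

lemma chooseT_relIndex_K (hLC : LocalCyclic) (hp : p.Prime) {ζ : F}
    (hζ : IsPrimitiveRoot ζ p) (hS : ContainsPrimesAbove F p S)
    (T : Finset (HeightOneSpectrum (𝓞 F))) (hT : Disjoint S T) :
    (chooseT_K F p T).relIndex (sUnits F (S : Set (HeightOneSpectrum (𝓞 F)))) ≠ 0 ∧
      (chooseT_K F p T).relIndex (sUnits F (S : Set (HeightOneSpectrum (𝓞 F)))) ≤ p ^ T.card := by
  classical
  induction T using Finset.induction_on with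
  | empty =>
    have : sUnits F (S : Set (HeightOneSpectrum (𝓞 F))) ≤ chooseT_K F p ∅ := fun u _ v hv => by
      simp at hv
    rw [Subgroup.relIndex_eq_one.mpr this]
    simp
  | insert v T hvT ih =>
    have hvS : v ∉ S := fun h => (Finset.disjoint_left.mp hT h) (Finset.mem_insert_self v T)
    have hT' : Disjoint S T := hT.mono_right (Finset.subset_insert v T)
    obtain ⟨h1, h2⟩ := ih hT'
    obtain ⟨h3, h4⟩ := chooseT_relIndex_powMod hLC hp hζ hS hvS
    rw [chooseT_K_insert, Finset.card_insert_of_notMem hvT]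
    refine ⟨Subgroup.relIndex_inf_ne_zero h3 h1, Subgroup.relIndex_inf_le.trans ?_⟩
    rw [pow_succ, mul_comm]
    exact Nat.mul_le_mul h2 h4

/-- The subgroup `⟨a⟩ E_S^p`. -/
noncomputable def chooseT_A (F : Type) [Field F] [NumberField F] (p : ℕ)
    (S : Finset (HeightOneSpectrum (𝓞 F))) (a : Fˣ) : Subgroup Fˣ :=
  Subgroup.zpowers a ⊔ sUnitsPow F p (S : Set (HeightOneSpectrum (𝓞 F)))

lemma chooseT_pow_le (F : Type) [Field F] [NumberField F] (p : ℕ)
    (S : Finset (HeightOneSpectrum (𝓞 F))) :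
    sUnitsPow F p (S : Set (HeightOneSpectrum (𝓞 F))) ≤
      sUnits F (S : Set (HeightOneSpectrum (𝓞 F))) := by
  rintro x ⟨y, hy, rfl⟩
  exact Subgroup.pow_mem _ hy p

lemma chooseT_A_le {a : Fˣ} (ha : a ∈ sUnits F (S : Set (HeightOneSpectrum (𝓞 F)))) :
    chooseT_A F p S a ≤ sUnits F (S : Set (HeightOneSpectrum (𝓞 F))) :=
  sup_le ((Subgroup.zpowers_le).mpr ha) (chooseT_pow_le F p S)

lemma chooseT_relIndex_A (hp : p.Prime) {a : Fˣ}
    (ha : a ∈ sUnits F (S : Set (HeightOneSpectrum (𝓞 F)))) :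
    (sUnitsPow F p (S : Set (HeightOneSpectrum (𝓞 F)))).relIndex (chooseT_A F p S a) ≠ 0 ∧
      (sUnitsPow F p (S : Set (HeightOneSpectrum (𝓞 F)))).relIndex (chooseT_A F p S a) ≤ p := by
  have hp0 : (p : ℤ) ≠ 0 := by exact_mod_cast hp.ne_zero
  refine chooseT_relIndex_le _ _ (u₀ := a)
    (Subgroup.mem_sup_left (Subgroup.mem_zpowers a)) fun x hx => ?_
  obtain ⟨h, hh, y, hy, rfl⟩ := Subgroup.mem_sup.mp hx
  obtain ⟨k, rfl⟩ := Subgroup.mem_zpowers_iff.mp hh
  obtain ⟨z, hz, rfl⟩ := hy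
  -- `i = (-k) mod p`
  refine ⟨((-k) % (p : ℤ)).toNat, ?_, ?_⟩
  · have h1 := Int.emod_lt_of_pos (-k) (by exact_mod_cast hp.pos : (0 : ℤ) < p)
    have h2 := Int.emod_nonneg (-k) hp0
    omega
  · have h2 := Int.emod_nonneg (-k) hp0
    have hdiv : (p : ℤ) ∣ k + (-k) % (p : ℤ) := by
      have := Int.emod_emod_of_dvd (-k) (dvd_refl (p : ℤ))
      have h3 : (k + (-k) % (p : ℤ)) % (p : ℤ) = 0 := by
        rw [Int.add_emod, Int.emod_emod_of_dvd _ (dvd_refl _), ← Int.add_emod, add_neg_cancel,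
          Int.zero_emod]
      exact Int.dvd_of_emod_eq_zero h3
    obtain ⟨m, hm⟩ := hdiv
    refine ⟨a ^ m * z, Subgroup.mul_mem _ (Subgroup.zpow_mem _ ha m) hz, ?_⟩
    simp only [powMonoidHom_apply]
    rw [mul_pow, ← zpow_natCast (a ^ m) p, ← zpow_mul, mul_comm m, ← hm, zpow_add,
      ← zpow_natCast a (((-k) % (p : ℤ)).toNat), Int.toNat_of_nonneg h2]
    rw [mul_right_comm]

end Construction

/-! ### The main theorem -/

section Main

variable {p : ℕ} {S : Finset (HeightOneSpectrum (𝓞 F))}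

/-- If `u = a ^ i * b ^ p` in `F` with `u, a` `S`-units then `u ∈ ⟨a⟩ E_S^p`. -/
lemma chooseT_mem_A (hp : p.Prime) {a u : Fˣ}
    (ha : a ∈ sUnits F (S : Set (HeightOneSpectrum (𝓞 F))))
    (hu : u ∈ sUnits F (S : Set (HeightOneSpectrum (𝓞 F)))) {i : ℕ} {b : F}
    (h : (u : F) = (a : F) ^ i * b ^ p) : u ∈ chooseT_A F p S a := by
  have hb0 : b ≠ 0 := by
    rintro rfl
    rw [zero_pow hp.ne_zero, mul_zero] at h
    exact u.ne_zero h
  have hbE : Units.mk0 b hb0 ∈ sUnits F (S : Set (HeightOneSpectrum (𝓞 F))) := by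
    rw [mem_sUnits]
    intro v hv
    have h1 := (mem_sUnits _ u).mp hu v hv
    have h2 := (mem_sUnits _ a).mp ha v hv
    rw [h, map_mul, map_pow, map_pow, h2, one_pow, one_mul] at h1
    exact (pow_eq_one_iff.mp h1).resolve_right hp.ne_zero
  have hu' : u = a ^ i * (Units.mk0 b hb0) ^ p := by
    ext
    simp [h]
  rw [hu']
  exact Subgroup.mul_mem _ (Subgroup.mem_sup_left (Subgroup.pow_mem _ (Subgroup.mem_zpowers a) i))
    (Subgroup.mem_sup_right ⟨_, hbE, rfl⟩)

/-- Extending `T` by a prime `v` at which some `u ∈ K(T)` is not a residue keeps surjectivity. -/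
lemma chooseT_residueSurjective_insert [DecidableEq (HeightOneSpectrum (𝓞 F))]
    (hLC : LocalCyclic) (hp : p.Prime) {ζ : F} (hζ : IsPrimitiveRoot ζ p)
    {T : Finset (HeightOneSpectrum (𝓞 F))} (hT : ResidueSurjective F p S T)
    {v : HeightOneSpectrum (𝓞 F)} (hvS : v ∉ S) (hvp : (p : 𝓞 F) ∉ v.asIdeal) {u : Fˣ}
    (huE : u ∈ sUnits F (S : Set (HeightOneSpectrum (𝓞 F)))) (huK : u ∈ chooseT_K F p T)
    (huv : ¬ IsPowMod F v p (u : F)) : ResidueSurjective F p S (insert v T) := by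
  intro c hc
  obtain ⟨u₁, hu₁, h₁⟩ := hT c fun w hw => hc w (Finset.mem_insert_of_mem hw)
  have hvS' : v ∉ (S : Set (HeightOneSpectrum (𝓞 F))) := by simpa using hvS
  have hx : v.valuation F ((u₁ : F) * c v) = 1 := by
    rw [map_mul, (mem_sUnits _ u₁).mp hu₁ v hvS', hc v (Finset.mem_insert_self v T), one_mul]
  obtain ⟨i, -, hi⟩ := hLC p F ζ ((u₁ : F) * c v) (u : F) v hp hζ hvp hx
    ((mem_sUnits _ u).mp huE v hvS') huv
  refine ⟨u₁ * u ^ i, Subgroup.mul_mem _ hu₁ (Subgroup.pow_mem _ huE i), fun w hw => ?_⟩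
  have e : ((u₁ * u ^ i : Fˣ) : F) * c w = ((u₁ : F) * c w) * ((u ^ i : Fˣ) : F) := by
    push_cast; ring
  rw [e]
  rcases Finset.mem_insert.mp hw with rfl | hw
  · simpa using hi
  · exact chooseT_isPowMod_mul (h₁ w hw) ((Subgroup.pow_mem _ huK i) w hw)

/-- **WP5**: the choice of the auxiliary set `T`. -/
theorem chooseT (hSU : SUnitRank) (hKNS : KummerNonSplit) (hLC : LocalCyclic) : ChooseT := by
  classical
  intro p F _ _ ζ a S hp hp2 hζ hS ha hna
  set E := sUnits F (S : Set (HeightOneSpectrum (𝓞 F))) with hE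
  set P := sUnitsPow F p (S : Set (HeightOneSpectrum (𝓞 F))) with hP
  set n := Module.finrank ℚ F / 2 + S.card with hn
  have hrank : P.relIndex E = p ^ n := hSU p F ζ S hp hp2 hζ
  have hPA : P ≤ chooseT_A F p S a := le_sup_right
  have hAE : chooseT_A F p S a ≤ E := chooseT_A_le ha
  -- `n ≥ 1`
  have hn1 : 1 ≤ n := by
    by_contra h0
    have hn0 : n = 0 := by omega
    rw [hn0, pow_zero, Subgroup.relIndex_eq_one] at hrank
    obtain ⟨y, -, hy⟩ := hrank ha
    exact hna ⟨(y : F), by rw [← hy]; simp⟩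
  -- the index of `⟨a⟩ E^p` is at least `p^(n-1)`
  have hA : p ^ (n - 1) ≤ (chooseT_A F p S a).relIndex E := by
    have h1 := Subgroup.relIndex_mul_relIndex P (chooseT_A F p S a) E hPA hAE
    obtain ⟨h2, h3⟩ := chooseT_relIndex_A (S := S) hp ha
    rw [hrank] at h1
    have h4 : p ^ n = p * p ^ (n - 1) := by
      rw [← pow_succ', Nat.sub_add_cancel hn1]
    have h5 : p * p ^ (n - 1) ≤ p * (chooseT_A F p S a).relIndex E := by
      rw [← h4, ← h1]
      exact Nat.mul_le_mul_right _ h3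
    exact Nat.le_of_mul_le_mul_left h5 hp.pos
  -- the induction
  have key : ∀ j : ℕ, j + 1 ≤ n → ∃ T : Finset (HeightOneSpectrum (𝓞 F)), Disjoint S T ∧
      T.card = j ∧ (∀ v ∈ T, IsPowMod F v p (a : F)) ∧ ResidueSurjective F p S T := by
    intro j
    induction j with
    | zero =>
      intro _
      refine ⟨∅, Finset.disjoint_empty_right S, rfl, fun v hv => by simp at hv, fun c _ => ?_⟩
      exact ⟨1, Subgroup.one_mem _, fun v hv => by simp at hv⟩
    | succ j ih =>
      intro hj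
      obtain ⟨T, hST, hcard, haT, hsurj⟩ := ih (by omega)
      -- an element of `K(T) ∩ E` outside `⟨a⟩ E^p`
      obtain ⟨h1, h2⟩ := chooseT_relIndex_K hLC hp hζ hS T hST
      have hex : ∃ u : Fˣ, u ∈ E ∧ u ∈ chooseT_K F p T ∧ u ∉ chooseT_A F p S a := by
        by_contra hcon
        push Not at hcon
        have hle : chooseT_K F p T ⊓ E ≤ chooseT_A F p S a := fun u hu => hcon u hu.2 hu.1
        have h3 : (chooseT_K F p T ⊓ E).relIndex E = (chooseT_K F p T).relIndex E :=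
          Subgroup.inf_relIndex_right _ _
        have h4 := Subgroup.relIndex_le_of_le_left (L := E) hle (by rw [h3]; exact h1)
        rw [h3] at h4
        have h5 : p ^ (n - 1) ≤ p ^ j := by
          calc p ^ (n - 1) ≤ _ := hA
            _ ≤ _ := h4
            _ ≤ p ^ T.card := h2
            _ = p ^ j := by rw [hcard]
        have := (Nat.pow_le_pow_iff_right hp.one_lt).mp h5
        omega
      obtain ⟨u, huE, huK, huA⟩ := hex
      obtain ⟨v, hvB, hvp, hva, hvu, hav, huv⟩ := hKNS p F ζ (a : F) (u : F) (S ∪ T) hp hp2 hζ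
        a.ne_zero u.ne_zero hna (fun i b h => huA (chooseT_mem_A hp ha huE h))
      have hvS : v ∉ S := fun h => hvB (Finset.mem_union_left T h)
      have hvT : v ∉ T := fun h => hvB (Finset.mem_union_right S h)
      refine ⟨insert v T, ?_, ?_, ?_, ?_⟩
      · rw [Finset.disjoint_insert_right]
        exact ⟨hvS, hST⟩
      · rw [Finset.card_insert_of_notMem hvT, hcard]
      · intro w hw
        rcases Finset.mem_insert.mp hw with rfl | hw
        · exact hav
        · exact haT w hw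
      · exact chooseT_residueSurjective_insert hLC hp hζ hsurj hvS hvp huE huK huv
  obtain ⟨T, hST, hcard, haT, hsurj⟩ := key (n - 1) (by omega)
  exact ⟨T, hST, by rw [hcard]; omega, haT, hsurj⟩

end Main
end Fermat.Agent.S14SI
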