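import Fermat.Agent.S14.SI.Interface

/-!
# S14 / H2 Route I, WP7: the key lemma

`keyLemma : TameFirstIneq → KummerSplits → KeyLemma`.

If the `(S ∪ T)`-unit `x` is not a `p`-th power, then `M = F[X] / (X ^ p - x)` is a Kummer
extension of degree `p` in which every `v ∈ S` splits completely (`KummerSplits`), contradicting
the tame first inequality.
-/

set_option autoImplicit false

open NumberField IsDedekindDomain Polynomial

namespace Fermat.Agent.S14SI

/-- The Kummer extension `F(x^{1/p})` of a number field containing a primitive `p`-th root of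
unity, for `x` not a `p`-th power, packaged as: a number field `M`, Galois of degree `p` over `F`,
with a generator `α`, `α ^ p = x`, `α ∉ F`. -/
theorem keyLemma_exists_kummer_extension (p : ℕ) (F : Type) [Field F] [NumberField F] (ζ x : F)
    (hp : p.Prime) (hζ : IsPrimitiveRoot ζ p) (hx : ¬ ∃ y : F, y ^ p = x) :
    ∃ (M : Type) (_ : Field M) (_ : NumberField M) (_ : Algebra F M) (_ : IsGalois F M)
      (α : M), Module.finrank F M = p ∧ α ^ p = algebraMap F M x ∧
        ∀ b : F, algebraMap F M b ≠ α := by
  have hirr : Irreducible (X ^ p - C x : F[X]) :=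
    X_pow_sub_C_irreducible_of_prime hp (fun b hb => hx ⟨b, hb⟩)
  have : Fact (Irreducible (X ^ p - C x : F[X])) := ⟨hirr⟩
  have hprim : (primitiveRoots p F).Nonempty :=
    ⟨ζ, (mem_primitiveRoots hp.pos).mpr hζ⟩
  have hsplit : IsSplittingField F (AdjoinRoot (X ^ p - C x : F[X])) (X ^ p - C x) :=
    isSplittingField_AdjoinRoot_X_pow_sub_C hprim hirr
  have hfin : FiniteDimensional F (AdjoinRoot (X ^ p - C x : F[X])) :=
    Polynomial.IsSplittingField.finiteDimensional _ (X ^ p - C x : F[X])
  have hroot : (AdjoinRoot.root (X ^ p - C x : F[X])) ^ p =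
      algebraMap F (AdjoinRoot (X ^ p - C x : F[X])) x := by
    have h0 := AdjoinRoot.eval₂_root (X ^ p - C x : F[X])
    rw [eval₂_sub, eval₂_pow, eval₂_X, eval₂_C, sub_eq_zero] at h0
    exact h0
  refine ⟨AdjoinRoot (X ^ p - C x : F[X]), inferInstance,
    NumberField.of_module_finite F _, inferInstance,
    isGalois_of_isSplittingField_X_pow_sub_C hprim hirr _,
    AdjoinRoot.root (X ^ p - C x : F[X]),
    finrank_of_isSplittingField_X_pow_sub_C hprim hirr _, hroot, ?_⟩
  intro b hb
  apply hx
  refine ⟨b, ?_⟩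
  apply (algebraMap F (AdjoinRoot (X ^ p - C x : F[X]))).injective
  rw [map_pow, hb, hroot]

/-- **WP7 (key lemma)** from the tame first inequality and the split lemma. -/
theorem keyLemma (hTFI : TameFirstIneq) (hKS : KummerSplits) : KeyLemma := by
  intro p F _ _ ζ x S T hp hp2 hζ hS hgen hdisj hres hxST hloc
  by_contra hx
  obtain ⟨M, _, _, _, _, α, hrank, hα, hne⟩ :=
    keyLemma_exists_kummer_extension p F ζ (x : F) hp hζ hx
  refine hTFI p F M ζ x α S T hp hp2 hζ hrank hα hne hxST hS hgen hdisj (fun v hv => ?_) hres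
  exact hKS p F M ζ (x : F) α v hp hζ hrank hα hne (hloc v hv)

end Fermat.Agent.S14SI
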