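import Fermat.Agent.S14.SI.KummerField
import Fermat.Agent.S14.SI.Interface
import Fermat.Agent.S14.SI.InertPrime
import Fermat.Agent.Lib.FrobDensity.Splitting

/-!
# S14 / H2 Route I, WP4: primes with prescribed Kummer behaviour (`KummerNonSplit`)

`KummerNonSplit ⟸ InertPrimeExists (F2') + KummerSplits`: apply `InertPrimeExists` to
`M(u^{1/p}) / M`, `M = F(a^{1/p})`, and restrict the inert prime of degree one to `F`.
-/

set_option autoImplicit false

open NumberField Polynomial IsDedekindDomain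

namespace Fermat.Agent.S14SI

section transfer

variable {F M : Type} [Field F] [NumberField F] [Field M] [NumberField M] [Algebra F M]

/-- Valuations upstairs and downstairs: units. -/
lemma valuation_algebraMap_eq_one (v : HeightOneSpectrum (𝓞 F)) (w : HeightOneSpectrum (𝓞 M))
    [w.asIdeal.LiesOver v.asIdeal] {x : F} (hx : v.valuation F x = 1) :
    w.valuation M (algebraMap F M x) = 1 := by
  rw [← HeightOneSpectrum.valuation_liesOver M v w x, hx, one_pow]

/-- Valuations upstairs and downstairs: `< 1`. -/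
lemma valuation_lt_one_of_algebraMap (v : HeightOneSpectrum (𝓞 F)) (w : HeightOneSpectrum (𝓞 M))
    [w.asIdeal.LiesOver v.asIdeal] {x : F} (hx : w.valuation M (algebraMap F M x) < 1) :
    v.valuation F x < 1 := by
  rw [← HeightOneSpectrum.valuation_liesOver M v w x] at hx
  by_contra h
  rw [not_lt] at h
  exact absurd hx (not_lt.mpr (one_le_pow₀ h))

/-- Valuations upstairs and downstairs: `< 1`, other direction. -/
lemma valuation_algebraMap_lt_one (v : HeightOneSpectrum (𝓞 F)) (w : HeightOneSpectrum (𝓞 M))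
    [w.asIdeal.LiesOver v.asIdeal] {x : F} (hx : v.valuation F x < 1) :
    w.valuation M (algebraMap F M x) < 1 := by
  rw [← HeightOneSpectrum.valuation_liesOver M v w x]
  exact pow_lt_one₀ zero_le hx
    (Ideal.IsDedekindDomain.ramificationIdx'_ne_zero_of_liesOver w.asIdeal v.ne_bot)

/-- A prime of `M` of prime norm has residue degree one over `F`: every integer of `M` is
congruent to an integer of `F`. -/
lemma exists_integer_sub_mem {q : ℕ} (hq : q.Prime) {𝔮 : Ideal (𝓞 M)}
    (hN : Ideal.absNorm 𝔮 = q) (y : 𝓞 M) :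
    ∃ z : 𝓞 F, algebraMap (𝓞 F) (𝓞 M) z - y ∈ 𝔮 := by
  have h1 := (Fermat.Agent.FrobDensity.absNorm_under_and_inertiaDeg F M hq hN).1
  have hinj : Function.Injective
      (Ideal.quotientMap 𝔮 (algebraMap (𝓞 F) (𝓞 M)) (le_refl (𝔮.under (𝓞 F)))) :=
    Ideal.quotientMap_injective
  have hfin : Finite (𝓞 M ⧸ 𝔮) := by
    apply Nat.finite_of_card_ne_zero
    rw [← Submodule.cardQuot_apply, ← Ideal.absNorm_apply, hN]
    exact hq.ne_zero
  have hbij := hinj.bijective_of_nat_card_le (by
    rw [← Submodule.cardQuot_apply, ← Ideal.absNorm_apply, hN,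
      ← Submodule.cardQuot_apply, ← Ideal.absNorm_apply, h1])
  obtain ⟨zbar, hz⟩ := hbij.2 (Ideal.Quotient.mk 𝔮 y)
  obtain ⟨z, rfl⟩ := Ideal.Quotient.mk_surjective zbar
  refine ⟨z, ?_⟩
  rw [Ideal.quotientMap_mk] at hz
  exact Ideal.Quotient.eq.mp hz

end transfer

section aux

/-- Two distinct prime numbers cannot both lie in a proper ideal. -/
lemma natCast_notMem_of_prime_ne {R : Type*} [CommRing R] {I : Ideal R} (hI : I ≠ ⊤) {p q : ℕ}
    (hp : p.Prime) (hq : q.Prime) (hpq : q ≠ p) (hqI : (q : R) ∈ I) : (p : R) ∉ I := by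
  intro hpI
  apply hI
  rw [Ideal.eq_top_iff_one]
  have hcop : Nat.Coprime p q := (Nat.coprime_primes hp hq).mpr (Ne.symm hpq)
  have h1 : (p : ℤ) * Nat.gcdA p q + (q : ℤ) * Nat.gcdB p q = 1 := by
    have := Nat.gcd_eq_gcd_ab p q
    rw [hcop.gcd_eq_one] at this
    exact_mod_cast this.symm
  have h2 : ((p : ℤ) * Nat.gcdA p q + (q : ℤ) * Nat.gcdB p q : ℤ) = (1 : ℤ) := h1
  have h3 : (p : R) * ((Nat.gcdA p q : ℤ) : R) + (q : R) * ((Nat.gcdB p q : ℤ) : R) = 1 := by
    have := congrArg (Int.cast : ℤ → R) h2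
    push_cast at this
    exact this
  rw [← h3]
  exact I.add_mem (I.mul_mem_right _ hpI) (I.mul_mem_right _ hqI)

/-- Congruent integral elements have congruent powers. -/
lemma valuation_pow_sub_pow_lt_one {K : Type*} [Field K] {Γ : Type*}
    [LinearOrderedCommGroupWithZero Γ] (w : Valuation K Γ) {x y : K} (hx : w x ≤ 1)
    (hy : w y ≤ 1) (h : w (x - y) < 1) (n : ℕ) : w (x ^ n - y ^ n) < 1 := by
  induction n with
  | zero => simp
  | succ n ih =>
    have e : x ^ (n + 1) - y ^ (n + 1) = x * (x ^ n - y ^ n) + (x - y) * y ^ n := by ring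
    rw [e]
    refine lt_of_le_of_lt (w.map_add _ _) (max_lt ?_ ?_)
    · rw [map_mul]
      exact lt_of_le_of_lt (mul_le_of_le_one_left' hx) ih
    · rw [map_mul, map_pow]
      exact lt_of_le_of_lt (mul_le_of_le_one_right' (pow_le_one' hy n)) h

end aux

/-- **WP4 (KNS)** from `InertPrimeExists` (F2') and `KummerSplits`. -/
theorem kummerNonSplit_of (hI : InertPrimeExists) (hK : KummerSplits) : KummerNonSplit := by
  intro p F _ _ ζ a u B hp _hp2 hζ ha0 hu0 ha hu
  classical
  -- `M = F(a^{1/p})`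
  obtain ⟨M, _, _, _, _, α, hfinM, hα, hαF⟩ :=
    exists_kummer_extension hp hζ (fun b hb => ha ⟨b, hb⟩)
  have huM : ∀ β : M, β ^ p ≠ algebraMap F M u := fun β hβ => by
    obtain ⟨i, b, hib⟩ := kummer_pow_of_pow_eq hp hζ hfinM hα hαF hβ
    exact hu i b hib
  have hζM : IsPrimitiveRoot (algebraMap F M ζ) p :=
    hζ.map_of_injective (algebraMap F M).injective
  -- `M' = M(u^{1/p})`
  obtain ⟨M', _, _, _, _, β, hfinM', hβ, hβM⟩ := exists_kummer_extension hp hζM huM
  -- the bad primes
  set Bad : Finset (HeightOneSpectrum (𝓞 F)) :=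
    B ∪ (finite_setOf_valuation_ne_one' F ha0).toFinset ∪
      (finite_setOf_valuation_ne_one' F hu0).toFinset with hBad
  set B' : Finset ℕ :=
    insert p (Bad.biUnion fun w => (Ideal.absNorm w.asIdeal).primeFactors) with hB'
  obtain ⟨q, 𝔮, hq, hqB', hN, hf⟩ := hI p M M' hp hfinM' B'
  have h𝔮prime : 𝔮.IsPrime := Fermat.Agent.FrobDensity.isPrime_of_absNorm_eq_prime hq hN
  have h𝔮bot : 𝔮 ≠ ⊥ := by
    rintro rfl
    rw [Ideal.absNorm_bot] at hN
    exact hq.ne_zero hN.symm
  have hNv := (Fermat.Agent.FrobDensity.absNorm_under_and_inertiaDeg F M hq hN).1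
  have hvprime : (𝔮.under (𝓞 F)).IsPrime :=
    Fermat.Agent.FrobDensity.isPrime_of_absNorm_eq_prime hq hNv
  have hvbot : 𝔮.under (𝓞 F) ≠ ⊥ := by
    intro h
    rw [h, Ideal.absNorm_bot] at hNv
    exact hq.ne_zero hNv.symm
  set w : HeightOneSpectrum (𝓞 M) := ⟨𝔮, h𝔮prime, h𝔮bot⟩ with hw
  set v : HeightOneSpectrum (𝓞 F) := ⟨𝔮.under (𝓞 F), hvprime, hvbot⟩ with hv
  have hlies : w.asIdeal.LiesOver v.asIdeal := ⟨rfl⟩
  have hvBad : v ∉ Bad := by
    intro hvmem
    apply hqB'
    refine Finset.mem_insert_of_mem (Finset.mem_biUnion.mpr ⟨v, hvmem, ?_⟩)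
    change q ∈ (Ideal.absNorm (𝔮.under (𝓞 F))).primeFactors
    rw [hNv]
    exact Nat.mem_primeFactors.mpr ⟨hq, dvd_rfl, hq.ne_zero⟩
  have hqp : q ≠ p := fun h => hqB' (h ▸ Finset.mem_insert_self _ _)
  have hpv : (p : 𝓞 F) ∉ v.asIdeal :=
    natCast_notMem_of_prime_ne hvprime.ne_top hp hq hqp
      (Fermat.Agent.FrobDensity.natCast_mem_of_absNorm_eq hNv)
  have hpw : (p : 𝓞 M) ∉ w.asIdeal :=
    natCast_notMem_of_prime_ne h𝔮prime.ne_top hp hq hqp
      (Fermat.Agent.FrobDensity.natCast_mem_of_absNorm_eq hN)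
  have hva : v.valuation F a = 1 := by
    by_contra h
    apply hvBad
    rw [hBad]
    exact Finset.mem_union_left _ (Finset.mem_union_right _
      ((Set.Finite.mem_toFinset _).mpr h))
  have hvu : v.valuation F u = 1 := by
    by_contra h
    apply hvBad
    rw [hBad]
    exact Finset.mem_union_right _ ((Set.Finite.mem_toFinset _).mpr h)
  refine ⟨v, ?_, hpv, hva, hvu, ?_, ?_⟩
  · intro hvB
    apply hvBad
    rw [hBad]
    exact Finset.mem_union_left _ (Finset.mem_union_left _ hvB)
  · -- `a` is a `p`-th power residue at `v`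
    have hwa : w.valuation M (algebraMap F M a) = 1 := valuation_algebraMap_eq_one v w hva
    have hwα : w.valuation M α = 1 := by
      have h1 : w.valuation M α ^ p = 1 := by rw [← map_pow, hα, hwa]
      exact (pow_eq_one_iff.mp h1).resolve_right hp.ne_zero
    obtain ⟨y, hy⟩ := w.exists_valuation_sub_lt_of_integer (K := M) hwα.le 1
    obtain ⟨z, hz⟩ := exists_integer_sub_mem (F := F) hq hN y
    have hzy : w.valuation M (algebraMap (𝓞 M) M (algebraMap (𝓞 F) (𝓞 M) z - y)) < 1 :=
      (w.valuation_lt_one_iff_mem _).mpr hz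
    have hzα : w.valuation M (algebraMap (𝓞 M) M (algebraMap (𝓞 F) (𝓞 M) z) - α) < 1 := by
      have e : algebraMap (𝓞 M) M (algebraMap (𝓞 F) (𝓞 M) z) - α =
          algebraMap (𝓞 M) M (algebraMap (𝓞 F) (𝓞 M) z - y) + (algebraMap (𝓞 M) M y - α) := by
        rw [map_sub]; ring
      rw [e]
      refine lt_of_le_of_lt (Valuation.map_add _ _ _) (max_lt hzy ?_)
      simpa using hy
    have hzM : algebraMap (𝓞 M) M (algebraMap (𝓞 F) (𝓞 M) z) = algebraMap F M (algebraMap (𝓞 F) F z) := by
      rw [← IsScalarTower.algebraMap_apply, ← IsScalarTower.algebraMap_apply]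
    rw [hzM] at hzα
    have hwz : w.valuation M (algebraMap F M (algebraMap (𝓞 F) F z)) = 1 := by
      have : algebraMap F M (algebraMap (𝓞 F) F z) =
          α + (algebraMap F M (algebraMap (𝓞 F) F z) - α) := by ring
      rw [this, Valuation.map_add_eq_of_lt_left _ (by rw [hwα]; exact hzα), hwα]
    refine ⟨z, ?_, ?_⟩
    · intro hzv
      have h1 : v.valuation F (algebraMap (𝓞 F) F z) < 1 := (v.valuation_lt_one_iff_mem z).mpr hzv
      have h2 := valuation_algebraMap_lt_one v w h1
      rw [hwz] at h2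
      exact lt_irrefl _ h2
    · apply valuation_lt_one_of_algebraMap v w
      rw [map_sub, map_pow, ← hα]
      have := valuation_pow_sub_pow_lt_one (w.valuation M) hwα.le hwz.le
        (by rw [Valuation.map_sub_swap]; exact hzα) p
      exact this
  · -- `u` is not a `p`-th power residue at `v`
    rintro ⟨z, hz, hlt⟩
    have hzw : algebraMap (𝓞 F) (𝓞 M) z ∉ w.asIdeal := by
      intro h
      exact hz h
    have hlt' : w.valuation M (algebraMap F M u -
        (algebraMap (𝓞 M) M (algebraMap (𝓞 F) (𝓞 M) z)) ^ p) < 1 := by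
      have hzM : algebraMap (𝓞 M) M (algebraMap (𝓞 F) (𝓞 M) z) =
          algebraMap F M (algebraMap (𝓞 F) F z) := by
        rw [← IsScalarTower.algebraMap_apply, ← IsScalarTower.algebraMap_apply]
      rw [hzM, ← map_pow, ← map_sub]
      exact valuation_algebraMap_lt_one v w hlt
    have hpm : IsPowMod M w p (algebraMap F M u) := ⟨algebraMap (𝓞 F) (𝓞 M) z, hzw, hlt'⟩
    have hloc : IsLocalPow M w p (algebraMap F M ζ) (algebraMap F M u) :=
      hpm.isLocalPow hζM hp.one_lt hpw
    have hsplit := hK p M M' (algebraMap F M ζ) (algebraMap F M u) β w hp hζM hfinM' hβ hβM hloc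
    rw [SplitsCompletely, hfinM'] at hsplit
    have hcount := Ideal.ncard_primesOver_mul_ramificationIdxIn_mul_inertiaDegIn 𝔮 (𝓞 M')
      Gal(M'/M)
    rw [IsGalois.card_aut_eq_finrank, hfinM', hf] at hcount
    change (w.asIdeal.primesOver (𝓞 M')).ncard * _ = p at hcount
    rw [hsplit] at hcount
    have hp1 : 1 < p := hp.one_lt
    have h3 : 𝔮.ramificationIdxIn (𝓞 M') * p = 1 := by
      have hp0 : 0 < p := hp.pos
      exact Nat.eq_of_mul_eq_mul_left hp0 (by rw [mul_one]; exact hcount)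
    have h4 : p ∣ 1 := ⟨𝔮.ramificationIdxIn (𝓞 M'), by rw [mul_comm]; exact h3.symm⟩
    exact absurd (Nat.le_of_dvd one_pos h4) (not_le.mpr hp1)

/-- **WP4 (KNS)** from `KummerSplits` alone (`InertPrimeExists` is proved in `InertPrime.lean`). -/
theorem kummerNonSplit_of_kummerSplits (hK : KummerSplits) : KummerNonSplit :=
  kummerNonSplit_of inertPrimeExists hK

end Fermat.Agent.S14SI
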