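import Mathlib
import Fermat.Agent.S14.SI.Interface

/-!
# S14 / H2 Route I, WP2: local counts (helper39)

`localCount : LocalCount`:  `[Fˣ : U_S] ≠ 0` and `[Fˣ : U_S] ≤ p ^ (2 |S| + [F : ℚ])`, where `U_S` is the
subgroup of elements that are local `p`-th powers (finite-level sense) at all `v ∈ S`.

Proof.  `U_S = ⋂ U_v`, and `[Fˣ : U_v] ≤ p · |A / A^p|`, `A = (𝓞 / v^N)ˣ`, `N = p e + 1`, `e = ord_v (ζ - 1)`
(covering of `Fˣ` by the cosets of `π^i · r`, `i < p`, `r` a lift of a representative of `A / A^p`);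
`|A / A^p| = |A[p]| ≤ p · Nv^((p-1) e)` because `x^p ≡ 1 mod v^N` forces `x ≡ η mod v^(e+1)` for a
`p`-th root of unity `η` (pigeonhole on `x^p - 1 = ∏ (x - η)`); finally
`∏_v v^((p-1) e_v)` divides `(ζ - 1)^(p-1)`, which divides `p`, so `∏_v Nv^((p-1) e_v) ≤ p^[F:ℚ]`.
-/

set_option autoImplicit false

open NumberField IsDedekindDomain

namespace Fermat.Agent.S14SI.LC

/-- covering lemma: if finitely many cosets cover the group, the index is finite and bounded. -/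
theorem index_le_of_cover {G : Type*} [Group G] (H : Subgroup G) {ι : Type*} [Finite ι]
    (g : ι → G) (hcov : ∀ x : G, ∃ i, (g i)⁻¹ * x ∈ H) :
    H.index ≠ 0 ∧ H.index ≤ Nat.card ι := by
  have hsurj : Function.Surjective (fun i : ι => (QuotientGroup.mk (g i) : G ⧸ H)) := by
    intro y
    induction y using QuotientGroup.induction_on with
    | H x =>
      obtain ⟨i, hi⟩ := hcov x
      exact ⟨i, QuotientGroup.eq.mpr hi⟩
  have : Finite (G ⧸ H) := Finite.of_surjective _ hsurj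
  refine ⟨?_, ?_⟩
  · rw [Subgroup.index_eq_card]
    exact Nat.card_pos.ne'
  · rw [Subgroup.index_eq_card]
    exact Nat.card_le_card_of_surjective _ hsurj

/-- in a finite commutative group, `|A / A^p| = |A[p]|`. -/
theorem card_quot_pow_eq_card_ker {A : Type*} [CommGroup A] [Finite A] (p : ℕ) :
    Nat.card (A ⧸ (powMonoidHom p : A →* A).range) = Nat.card (powMonoidHom p : A →* A).ker := by
  set f : A →* A := powMonoidHom p
  have h1 : Nat.card f.ker * f.ker.index = Nat.card A := Subgroup.card_mul_index _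
  have h2 : Nat.card f.range * f.range.index = Nat.card A := Subgroup.card_mul_index _
  rw [Subgroup.index_ker] at h1
  rw [Subgroup.index_eq_card] at h2
  have hpos : 0 < Nat.card f.range := Nat.card_pos
  have : Nat.card f.range * Nat.card (A ⧸ f.range) = Nat.card f.range * Nat.card f.ker := by
    rw [h2, ← h1, mul_comm]
  exact Nat.eq_of_mul_eq_mul_left hpos this

end Fermat.Agent.S14SI.LC

namespace Fermat.Agent.S14SI.LC

variable {F : Type*} [Field F] [NumberField F]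

/-- discrete step: not in `v^(e+1)` means valuation at least `exp (-e)`. -/
theorem exp_neg_le_intValuation_of_notMem (v : HeightOneSpectrum (𝓞 F)) {a : 𝓞 F} {e : ℕ}
    (ha : a ∉ v.asIdeal ^ (e + 1)) : WithZero.exp (-(e : ℤ)) ≤ v.intValuation a := by
  have ha0 : a ≠ 0 := by
    rintro rfl
    exact ha (Ideal.zero_mem _)
  rw [← v.intValuation_le_pow_iff_mem] at ha
  rw [v.intValuation_if_neg ha0] at ha ⊢
  rw [WithZero.exp_le_exp] at ha ⊢
  push_cast at ha ⊢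
  omega

/-- pigeonhole: a product of `n` elements none of which lies in `v^(e+1)` is not in
`v^(n e + 1)`. -/
theorem prod_notMem_pow (v : HeightOneSpectrum (𝓞 F)) {ι : Type*} (s : Finset ι) (f : ι → 𝓞 F)
    (e : ℕ) (h : ∀ i ∈ s, f i ∉ v.asIdeal ^ (e + 1)) :
    ∏ i ∈ s, f i ∉ v.asIdeal ^ (s.card * e + 1) := by
  classical
  have key : WithZero.exp (-((s.card * e : ℕ) : ℤ)) ≤ v.intValuation (∏ i ∈ s, f i) := by
    induction s using Finset.induction_on with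
    | empty => simp
    | insert a s has ih =>
      rw [Finset.prod_insert has, map_mul, Finset.card_insert_of_notMem has]
      have h1 := exp_neg_le_intValuation_of_notMem v (h a (Finset.mem_insert_self a s))
      have h2 := ih (fun i hi => h i (Finset.mem_insert_of_mem hi))
      have : WithZero.exp (-(((s.card + 1) * e : ℕ) : ℤ))
          = WithZero.exp (-(e : ℤ)) * WithZero.exp (-((s.card * e : ℕ) : ℤ)) := by
        rw [← WithZero.exp_add]
        congr 1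
        push_cast
        ring
      rw [this]
      exact mul_le_mul' h1 h2
  intro hmem
  rw [← v.intValuation_le_pow_iff_mem] at hmem
  have := key.trans hmem
  rw [WithZero.exp_le_exp] at this
  push_cast at this
  omega

end Fermat.Agent.S14SI.LC

namespace Fermat.Agent.S14SI.LC

variable {F : Type*} [Field F] [NumberField F]

theorem card_quot_pow (v : HeightOneSpectrum (𝓞 F)) (k : ℕ) :
    Nat.card (𝓞 F ⧸ v.asIdeal ^ k) = Ideal.absNorm v.asIdeal ^ k := by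
  rw [← map_pow, Ideal.absNorm_apply, Submodule.cardQuot_apply]

theorem finite_quot_pow (v : HeightOneSpectrum (𝓞 F)) (k : ℕ) :
    Finite (𝓞 F ⧸ v.asIdeal ^ k) :=
  Ideal.finiteQuotientOfFreeOfNeBot _ (pow_ne_zero k v.ne_bot)

theorem absNorm_pos (v : HeightOneSpectrum (𝓞 F)) : 0 < Ideal.absNorm v.asIdeal := by
  rw [Nat.pos_iff_ne_zero, Ne, Ideal.absNorm_eq_zero_iff]
  exact v.ne_bot

/-- the kernel of `𝓞/v^N → 𝓞/v^k` (`k ≤ N`) has `Nv^(N-k)` elements. -/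
theorem card_ker_factor (v : HeightOneSpectrum (𝓞 F)) {k N : ℕ} (hkN : k ≤ N) :
    Nat.card (RingHom.ker (Ideal.Quotient.factor (Ideal.pow_le_pow_right hkN) :
      (𝓞 F ⧸ v.asIdeal ^ N) →+* (𝓞 F ⧸ v.asIdeal ^ k))) = Ideal.absNorm v.asIdeal ^ (N - k) := by
  set f : (𝓞 F ⧸ v.asIdeal ^ N) →+* (𝓞 F ⧸ v.asIdeal ^ k) :=
    Ideal.Quotient.factor (Ideal.pow_le_pow_right hkN) with hf
  have hsurj : Function.Surjective f := Ideal.Quotient.factor_surjective _
  have h1 : Nat.card (f.toAddMonoidHom.ker) * (f.toAddMonoidHom.ker).index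
      = Nat.card (𝓞 F ⧸ v.asIdeal ^ N) := AddSubgroup.card_mul_index _
  rw [AddSubgroup.index_ker] at h1
  have hr : f.toAddMonoidHom.range = ⊤ := AddMonoidHom.range_eq_top.mpr hsurj
  rw [hr] at h1
  have h2 : Nat.card (⊤ : AddSubgroup (𝓞 F ⧸ v.asIdeal ^ k)) = Nat.card (𝓞 F ⧸ v.asIdeal ^ k) :=
    Nat.card_congr (Equiv.Set.univ _)
  rw [h2, card_quot_pow, card_quot_pow] at h1
  have h3 : Nat.card (RingHom.ker f) = Nat.card (f.toAddMonoidHom.ker) := rfl
  rw [h3]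
  have hpos : 0 < Ideal.absNorm v.asIdeal ^ k := pow_pos (absNorm_pos v) k
  apply Nat.eq_of_mul_eq_mul_right hpos
  rw [h1, ← pow_add, Nat.sub_add_cancel hkN]

end Fermat.Agent.S14SI.LC

namespace Fermat.Agent.S14SI.LC

variable {F : Type*} [Field F] [NumberField F]

theorem exists_root_congr (v : HeightOneSpectrum (𝓞 F)) {p : ℕ} (hp : 0 < p) {ζ₀ : 𝓞 F}
    (hζ : IsPrimitiveRoot ζ₀ p) (e : ℕ) {x : 𝓞 F} (hx : x ^ p - 1 ∈ v.asIdeal ^ (p * e + 1)) :
    ∃ η ∈ Polynomial.nthRootsFinset p (1 : 𝓞 F), x - η ∈ v.asIdeal ^ (e + 1) := by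
  by_contra hcon
  push Not at hcon
  have h := prod_notMem_pow v (Polynomial.nthRootsFinset p (1 : 𝓞 F)) (fun η => x - η) e hcon
  rw [hζ.card_nthRootsFinset] at h
  apply h
  have := hζ.pow_sub_pow_eq_prod_sub_mul x 1 hp
  simp only [one_pow, mul_one] at this
  rw [← this]
  exact hx

theorem card_ker_pow_le (v : HeightOneSpectrum (𝓞 F)) {p : ℕ} (hp : 0 < p) {ζ₀ : 𝓞 F}
    (hζ : IsPrimitiveRoot ζ₀ p) (e : ℕ) :
    Nat.card (powMonoidHom p : (𝓞 F ⧸ v.asIdeal ^ (p * e + 1))ˣ →* _).ker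
      ≤ p * Ideal.absNorm v.asIdeal ^ ((p - 1) * e) := by
  classical
  haveI : Finite (𝓞 F ⧸ v.asIdeal ^ (p * e + 1)) := finite_quot_pow v _
  have hkN : e + 1 ≤ p * e + 1 := by
    have : e ≤ p * e := Nat.le_mul_of_pos_left e hp
    omega
  set f : (𝓞 F ⧸ v.asIdeal ^ (p * e + 1)) →+* (𝓞 F ⧸ v.asIdeal ^ (e + 1)) :=
    Ideal.Quotient.factor (Ideal.pow_le_pow_right hkN) with hf
  -- for every element of the kernel choose a root of unity close to it
  have hex : ∀ a : (powMonoidHom p : (𝓞 F ⧸ v.asIdeal ^ (p * e + 1))ˣ →* _).ker,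
      ∃ η : Polynomial.nthRootsFinset p (1 : 𝓞 F),
        ((a : (𝓞 F ⧸ v.asIdeal ^ (p * e + 1))ˣ) : 𝓞 F ⧸ v.asIdeal ^ (p * e + 1))
          - Ideal.Quotient.mk _ (η : 𝓞 F) ∈ RingHom.ker f := by
    rintro ⟨a, ha⟩
    obtain ⟨x, hx⟩ := Ideal.Quotient.mk_surjective (a : 𝓞 F ⧸ v.asIdeal ^ (p * e + 1))
    have hap : a ^ p = 1 := by simpa [MonoidHom.mem_ker] using ha
    have hxp : x ^ p - 1 ∈ v.asIdeal ^ (p * e + 1) := by
      rw [← Ideal.Quotient.eq_zero_iff_mem, map_sub, map_pow, map_one, hx, ← Units.val_pow_eq_pow_val,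
        hap, Units.val_one, sub_self]
    obtain ⟨η, hη, hmem⟩ := exists_root_congr v hp hζ e hxp
    refine ⟨⟨η, hη⟩, ?_⟩
    rw [RingHom.mem_ker, ← hx, ← map_sub, hf, Ideal.Quotient.factor_mk,
      Ideal.Quotient.eq_zero_iff_mem]
    exact hmem
  choose η hη using hex
  let Φ : (powMonoidHom p : (𝓞 F ⧸ v.asIdeal ^ (p * e + 1))ˣ →* _).ker →
      (Polynomial.nthRootsFinset p (1 : 𝓞 F)) × (RingHom.ker f) :=
    fun a => (η a, ⟨_, hη a⟩)
  have hinj : Function.Injective Φ := by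
    intro a b hab
    have h1 : η a = η b := congrArg Prod.fst hab
    have h2 := congrArg (fun z => ((Prod.snd z : RingHom.ker f) : 𝓞 F ⧸ v.asIdeal ^ (p * e + 1))) hab
    simp only [Φ] at h2
    rw [h1] at h2
    have h3 : ((a : (𝓞 F ⧸ v.asIdeal ^ (p * e + 1))ˣ) : 𝓞 F ⧸ v.asIdeal ^ (p * e + 1))
        = ((b : (𝓞 F ⧸ v.asIdeal ^ (p * e + 1))ˣ) : 𝓞 F ⧸ v.asIdeal ^ (p * e + 1)) :=
      sub_left_injective h2
    exact Subtype.ext (Units.ext h3)
  have hfin : Finite ((Polynomial.nthRootsFinset p (1 : 𝓞 F)) × (RingHom.ker f)) := inferInstance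
  have hcard := Nat.card_le_card_of_injective Φ hinj
  have hroots : Nat.card (Polynomial.nthRootsFinset p (1 : 𝓞 F)) = p := by
    rw [Nat.card_eq_fintype_card, Fintype.card_coe, hζ.card_nthRootsFinset]
  rw [Nat.card_prod, hroots, hf, card_ker_factor v hkN] at hcard
  have hNk : p * e + 1 - (e + 1) = (p - 1) * e := by
    rw [Nat.sub_mul]; omega
  rwa [hNk] at hcard

end Fermat.Agent.S14SI.LC

namespace Fermat.Agent.S14SI.LC

variable {F : Type*} [Field F] [NumberField F]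

theorem isUnit_mk_of_notMem (v : HeightOneSpectrum (𝓞 F)) (N : ℕ) {a : 𝓞 F}
    (ha : a ∉ v.asIdeal) : IsUnit (Ideal.Quotient.mk (v.asIdeal ^ N) a) := by
  obtain ⟨y, i, hi, hyi⟩ := v.isMaximal.exists_inv ha
  have h1 : Ideal.span {a} ⊔ v.asIdeal = ⊤ := by
    rw [Ideal.eq_top_iff_one, Ideal.mem_span_singleton_sup]
    exact ⟨y, i, hi, hyi⟩
  have h2 : Ideal.span {a} ⊔ v.asIdeal ^ N = ⊤ := Ideal.sup_pow_eq_top h1
  have h3 : (1 : 𝓞 F) ∈ Ideal.span {a} ⊔ v.asIdeal ^ N := by rw [h2]; trivial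
  obtain ⟨b, c, hc, hbc⟩ := Ideal.mem_span_singleton_sup.mp h3
  have h4 : Ideal.Quotient.mk (v.asIdeal ^ N) b * Ideal.Quotient.mk (v.asIdeal ^ N) a = 1 := by
    rw [← map_mul, ← map_one (Ideal.Quotient.mk (v.asIdeal ^ N)), ← hbc, map_add,
      Ideal.Quotient.eq_zero_iff_mem.mpr hc, add_zero]
  exact IsUnit.of_mul_eq_one _ (by rw [mul_comm]; exact h4)

theorem notMem_of_isUnit_mk (v : HeightOneSpectrum (𝓞 F)) {N : ℕ} (hN : 0 < N) {a : 𝓞 F}
    (h : IsUnit (Ideal.Quotient.mk (v.asIdeal ^ N) a)) : a ∉ v.asIdeal := by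
  intro ha
  obtain ⟨b, hb⟩ := h.exists_right_inv
  obtain ⟨b', rfl⟩ := Ideal.Quotient.mk_surjective b
  rw [← map_mul, ← map_one (Ideal.Quotient.mk (v.asIdeal ^ N)), Ideal.Quotient.eq] at hb
  have h1 : a * b' - 1 ∈ v.asIdeal := Ideal.pow_le_self hN.ne' hb
  have h2 : a * b' ∈ v.asIdeal := Ideal.mul_mem_right _ _ ha
  have h3 : (1 : 𝓞 F) ∈ v.asIdeal := by
    have := Ideal.sub_mem _ h2 h1
    simpa using this
  exact v.isPrime.ne_top ((Ideal.eq_top_iff_one _).mpr h3)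

end Fermat.Agent.S14SI.LC

namespace Fermat.Agent.S14SI.LC

variable {F : Type*} [Field F] [NumberField F]

/-- the `v`-adic order of `ζ₀ - 1`. -/
noncomputable def e1 (v : HeightOneSpectrum (𝓞 F)) (ζ₀ : 𝓞 F) : ℕ :=
  (Associates.mk v.asIdeal).count (Associates.mk (Ideal.span {ζ₀ - 1})).factors

theorem intValuation_sub_one (v : HeightOneSpectrum (𝓞 F)) {ζ₀ : 𝓞 F} (h : ζ₀ ≠ 1) :
    v.intValuation (ζ₀ - 1) = WithZero.exp (-(e1 v ζ₀ : ℤ)) :=
  v.intValuation_if_neg (sub_ne_zero.mpr h)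

theorem pow_e1_dvd (v : HeightOneSpectrum (𝓞 F)) {ζ₀ : 𝓞 F} (h : ζ₀ ≠ 1) :
    v.asIdeal ^ e1 v ζ₀ ∣ Ideal.span {ζ₀ - 1} := by
  rw [← v.intValuation_le_pow_iff_dvd, intValuation_sub_one v h]

/-- lifts of units of `𝓞 / v^N` to `𝓞`. -/
theorem exists_lift (v : HeightOneSpectrum (𝓞 F)) {N : ℕ} (hN : 0 < N)
    (a : (𝓞 F ⧸ v.asIdeal ^ N)ˣ) :
    ∃ x : 𝓞 F, Ideal.Quotient.mk (v.asIdeal ^ N) x = (a : 𝓞 F ⧸ v.asIdeal ^ N) ∧
      v.valuation F (algebraMap (𝓞 F) F x) = 1 := by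
  obtain ⟨x, hx⟩ := Ideal.Quotient.mk_surjective (a : 𝓞 F ⧸ v.asIdeal ^ N)
  refine ⟨x, hx, ?_⟩
  rw [v.valuation_eq_one_iff_notMem]
  apply notMem_of_isUnit_mk v hN
  rw [hx]
  exact a.isUnit

/-- a chosen lift. -/
noncomputable def lift (v : HeightOneSpectrum (𝓞 F)) {N : ℕ} (hN : 0 < N)
    (a : (𝓞 F ⧸ v.asIdeal ^ N)ˣ) : 𝓞 F := (exists_lift v hN a).choose

theorem mk_lift (v : HeightOneSpectrum (𝓞 F)) {N : ℕ} (hN : 0 < N)
    (a : (𝓞 F ⧸ v.asIdeal ^ N)ˣ) :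
    Ideal.Quotient.mk (v.asIdeal ^ N) (lift v hN a) = (a : 𝓞 F ⧸ v.asIdeal ^ N) :=
  (exists_lift v hN a).choose_spec.1

theorem valuation_lift (v : HeightOneSpectrum (𝓞 F)) {N : ℕ} (hN : 0 < N)
    (a : (𝓞 F ⧸ v.asIdeal ^ N)ˣ) :
    v.valuation F (algebraMap (𝓞 F) F (lift v hN a)) = 1 :=
  (exists_lift v hN a).choose_spec.2

/-- normal form: every `x ≠ 0` is `π^i * x' * c^p` with `i < p` and `x'` a `v`-unit. -/
theorem exists_normal_form (v : HeightOneSpectrum (𝓞 F)) {p : ℕ} (hp : 0 < p) {π : F}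
    (hπ : v.valuation F π = WithZero.exp (-1 : ℤ)) {x : F} (hx : x ≠ 0) :
    ∃ (i : ℕ) (c x' : F), i < p ∧ c ≠ 0 ∧ v.valuation F x' = 1 ∧ x = π ^ i * x' * c ^ p := by
  have hπ0 : π ≠ 0 := by
    intro h; rw [h, map_zero] at hπ; exact WithZero.exp_ne_zero.symm hπ
  have hvx : v.valuation F x ≠ 0 := (Valuation.ne_zero_iff _).mpr hx
  set m : ℤ := WithZero.log (v.valuation F x) with hm
  have hxm : v.valuation F x = WithZero.exp m := (WithZero.exp_log hvx).symm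
  have hpz : (p : ℤ) ≠ 0 := by exact_mod_cast hp.ne'
  set i : ℕ := ((-m) % (p : ℤ)).toNat with hi
  set t : ℤ := (-m) / (p : ℤ) with ht
  have hi0 : 0 ≤ (-m) % (p : ℤ) := Int.emod_nonneg _ hpz
  have hilt : (-m) % (p : ℤ) < p := Int.emod_lt_of_pos _ (by exact_mod_cast hp)
  have hicast : (i : ℤ) = (-m) % (p : ℤ) := Int.toNat_of_nonneg hi0
  have hdecomp : -m = (p : ℤ) * t + i := by
    rw [hicast, ht]; exact (Int.mul_ediv_add_emod (-m) p).symm
  refine ⟨i, π ^ t, x * (π ^ i)⁻¹ * ((π ^ t) ^ p)⁻¹, ?_, zpow_ne_zero _ hπ0, ?_, ?_⟩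
  · have : (i : ℤ) < p := by rw [hicast]; exact hilt
    exact_mod_cast this
  · rw [map_mul, map_mul, map_inv₀, map_inv₀, map_pow, map_pow, map_zpow₀, hπ, hxm]
    rw [← WithZero.exp_zsmul, ← WithZero.exp_nsmul, ← WithZero.exp_nsmul, ← WithZero.exp_neg,
      ← WithZero.exp_neg, ← WithZero.exp_add, ← WithZero.exp_add, ← WithZero.exp_zero]
    congr 1
    simp only [smul_eq_mul, nsmul_eq_mul]
    push_cast
    linarith
  · have h1 : π ^ i ≠ 0 := pow_ne_zero _ hπ0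
    have h2 : (π ^ t) ^ p ≠ 0 := pow_ne_zero _ (zpow_ne_zero _ hπ0)
    field_simp

end Fermat.Agent.S14SI.LC

namespace Fermat.Agent.S14SI.LC

variable {F : Type*} [Field F] [NumberField F]

theorem index_single_le (v : HeightOneSpectrum (𝓞 F)) {p : ℕ} (hp : p.Prime) {ζ : F}
    (hζ : IsPrimitiveRoot ζ p) (ζ₀ : 𝓞 F) (hζ₀ : algebraMap (𝓞 F) F ζ₀ = ζ) :
    (localPowSubgroup F p ζ hζ hp.one_lt {v}).index ≠ 0 ∧
    (localPowSubgroup F p ζ hζ hp.one_lt {v}).index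
      ≤ p * (p * Ideal.absNorm v.asIdeal ^ ((p - 1) * e1 v ζ₀)) := by
  classical
  have hζ₀prim : IsPrimitiveRoot ζ₀ p := by
    have hinj : Function.Injective (algebraMap (𝓞 F) F) := RingOfIntegers.coe_injective
    exact IsPrimitiveRoot.of_map_of_injective (f := algebraMap (𝓞 F) F) (by rw [hζ₀]; exact hζ) hinj
  have hζ₀ne : ζ₀ ≠ 1 := hζ₀prim.ne_one hp.one_lt
  set e := e1 v ζ₀ with he
  set N := p * e + 1 with hNdef
  have hN : 0 < N := Nat.succ_pos _
  -- the threshold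
  have hthr : v.valuation F (ζ - 1) ^ p = WithZero.exp (-((p * e : ℕ) : ℤ)) := by
    have : v.valuation F (ζ - 1) = WithZero.exp (-(e : ℤ)) := by
      rw [← hζ₀, ← map_one (algebraMap (𝓞 F) F), ← map_sub, v.valuation_of_algebraMap,
        intValuation_sub_one v hζ₀ne]
    rw [this, ← WithZero.exp_nsmul]
    congr 1
    simp only [nsmul_eq_mul]
    push_cast
    ring
  have hthr0 : v.valuation F (ζ - 1) ^ p ≠ 0 := by rw [hthr]; exact WithZero.exp_ne_zero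
  have hthr1 : v.valuation F (ζ - 1) ^ p ≤ 1 := by
    rw [hthr, ← WithZero.exp_zero, WithZero.exp_le_exp]
    have : (0 : ℤ) ≤ ((p * e : ℕ) : ℤ) := Int.natCast_nonneg _
    omega
  have hNlt : WithZero.exp (-(N : ℤ)) < v.valuation F (ζ - 1) ^ p := by
    rw [hthr, WithZero.exp_lt_exp, hNdef]
    push_cast
    omega
  -- uniformizer
  obtain ⟨π, hπ⟩ := v.valuation_exists_uniformizer F
  have hπ0 : π ≠ 0 := by
    intro h; rw [h, map_zero] at hπ; exact WithZero.exp_ne_zero.symm hπ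
  -- the finite group
  let A := (𝓞 F ⧸ v.asIdeal ^ N)ˣ
  let P : Subgroup A := (powMonoidHom p : A →* A).range
  have hlift0 : ∀ a : A, algebraMap (𝓞 F) F (lift v hN a) ≠ 0 := by
    intro a h
    have := valuation_lift (F := F) v hN a
    rw [h, map_zero] at this
    exact zero_ne_one this
  let g : Fin p × (A ⧸ P) → Fˣ := fun iq =>
    Units.mk0 (π ^ (iq.1 : ℕ) * algebraMap (𝓞 F) F (lift v hN (Quotient.out iq.2)))
      (mul_ne_zero (pow_ne_zero _ hπ0) (hlift0 _))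
  have hcov : ∀ x : Fˣ, ∃ iq, (g iq)⁻¹ * x ∈ localPowSubgroup F p ζ hζ hp.one_lt {v} := by
    intro x
    obtain ⟨i, c, x', hi, hc, hx', hxeq⟩ := exists_normal_form v hp.pos hπ x.ne_zero
    obtain ⟨a, ha⟩ := v.exists_valuation_sub_lt_of_integer (le_of_eq hx')
      (Units.mk0 _ hthr0)
    rw [Units.val_mk0] at ha
    have hva : v.valuation F (algebraMap (𝓞 F) F a) = 1 := by
      have h1 : algebraMap (𝓞 F) F a = x' + (algebraMap (𝓞 F) F a - x') := by ring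
      rw [h1, Valuation.map_add_eq_of_lt_left _ (by rw [hx']; exact lt_of_lt_of_le ha hthr1), hx']
    have ha_notMem : a ∉ v.asIdeal := (v.valuation_eq_one_iff_notMem).mp hva
    let α : A := (isUnit_mk_of_notMem v N ha_notMem).unit
    have hαval : (α : 𝓞 F ⧸ v.asIdeal ^ N) = Ideal.Quotient.mk _ a := rfl
    let q : A ⧸ P := QuotientGroup.mk α
    set rep : A := Quotient.out q with hrep
    have hq : (QuotientGroup.mk rep : A ⧸ P) = QuotientGroup.mk α := QuotientGroup.out_eq' q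
    have hmemP : rep⁻¹ * α ∈ P := QuotientGroup.eq.mp hq
    obtain ⟨β, hβ⟩ := hmemP
    have hβ' : β ^ p = rep⁻¹ * α := hβ
    set r : 𝓞 F := lift v hN rep with hr
    set s : 𝓞 F := lift v hN β with hs
    have hmk : Ideal.Quotient.mk (v.asIdeal ^ N) (r * s ^ p) = Ideal.Quotient.mk _ a := by
      rw [map_mul, map_pow, mk_lift, mk_lift, ← hαval, ← Units.val_pow_eq_pow_val, ← Units.val_mul,
        hβ', mul_inv_cancel_left]
    have hmem : a - r * s ^ p ∈ v.asIdeal ^ N := by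
      rw [← Ideal.Quotient.eq]; exact hmk.symm
    have hval1 : v.valuation F (algebraMap (𝓞 F) F (a - r * s ^ p)) < v.valuation F (ζ - 1) ^ p := by
      rw [v.valuation_of_algebraMap]
      exact lt_of_le_of_lt ((v.intValuation_le_pow_iff_mem _ _).mpr hmem) hNlt
    set R : F := algebraMap (𝓞 F) F r with hR
    set S : F := algebraMap (𝓞 F) F s with hS
    have hvR : v.valuation F R = 1 := valuation_lift v hN rep
    have hvS : v.valuation F S = 1 := valuation_lift v hN β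
    have hR0 : R ≠ 0 := hlift0 rep
    have hS0 : S ≠ 0 := hlift0 β
    have hx'RS : v.valuation F (x' - R * S ^ p) < v.valuation F (ζ - 1) ^ p := by
      have h1 : x' - R * S ^ p = (algebraMap (𝓞 F) F (a - r * s ^ p)) - (algebraMap (𝓞 F) F a - x') := by
        rw [map_sub, map_mul, map_pow]; ring
      rw [h1]
      exact lt_of_le_of_lt (Valuation.map_sub _ _ _) (max_lt hval1 ha)
    refine ⟨(⟨i, hi⟩, q), ?_⟩
    intro w hw
    rw [Finset.mem_singleton] at hw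
    subst hw
    refine ⟨c⁻¹ * S⁻¹, mul_ne_zero (inv_ne_zero hc) (inv_ne_zero hS0), ?_⟩
    have hcoe : (((g (⟨i, hi⟩, q))⁻¹ * x : Fˣ) : F) = (π ^ i * R)⁻¹ * (x : F) := by
      rw [Units.val_mul, Units.val_inv_eq_inv_val]
      rfl
    rw [hcoe, hxeq]
    have hcalc : (π ^ i * R)⁻¹ * (π ^ i * x' * c ^ p) * (c⁻¹ * S⁻¹) ^ p - 1
        = (x' - R * S ^ p) * (R * S ^ p)⁻¹ := by
      have h1 : π ^ i ≠ 0 := pow_ne_zero _ hπ0
      have h2 : c ^ p ≠ 0 := pow_ne_zero _ hc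
      have h3 : S ^ p ≠ 0 := pow_ne_zero _ hS0
      rw [mul_pow, inv_pow, inv_pow]
      field_simp
    rw [hcalc, map_mul, map_inv₀, map_mul, map_pow, hvR, hvS, one_pow, mul_one, inv_one, mul_one]
    exact hx'RS
  haveI : Finite (𝓞 F ⧸ v.asIdeal ^ N) := finite_quot_pow v _
  have hfinA : Finite A := inferInstance
  have hmain := index_le_of_cover (localPowSubgroup F p ζ hζ hp.one_lt {v}) g hcov
  refine ⟨hmain.1, hmain.2.trans ?_⟩
  rw [Nat.card_prod, Nat.card_eq_fintype_card, Fintype.card_fin]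
  apply Nat.mul_le_mul_left
  rw [card_quot_pow_eq_card_ker]
  exact card_ker_pow_le v hp.pos hζ₀prim e

end Fermat.Agent.S14SI.LC

namespace Fermat.Agent.S14SI.LC

variable {F : Type*} [Field F] [NumberField F]

theorem sub_one_pow_dvd_prime {p : ℕ} (hp : p.Prime) {ζ₀ : 𝓞 F} (hζ : IsPrimitiveRoot ζ₀ p) :
    (ζ₀ - 1) ^ (p - 1) ∣ (p : 𝓞 F) := by
  have hp1 : p - 1 + 1 = p := Nat.sub_add_cancel hp.one_le
  have hζ' : IsPrimitiveRoot ζ₀ (p - 1 + 1) := by rw [hp1]; exact hζ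
  have h := hζ'.prod_one_sub_pow_eq_order
  have hcast : (((p - 1 : ℕ) : 𝓞 F) + 1) = (p : 𝓞 F) := by
    have : ((p - 1 + 1 : ℕ) : 𝓞 F) = (p : 𝓞 F) := by rw [hp1]
    rw [← this]; push_cast; ring
  rw [hcast] at h
  rw [← h]
  have h2 : (ζ₀ - 1) ^ (p - 1) = ∏ _k ∈ Finset.range (p - 1), (ζ₀ - 1) := by
    rw [Finset.prod_const, Finset.card_range]
  rw [h2]
  apply Finset.prod_dvd_prod_of_dvd
  intro k _
  have h3 : (1 : 𝓞 F) - ζ₀ ∣ 1 ^ (k + 1) - ζ₀ ^ (k + 1) := sub_dvd_pow_sub_pow 1 ζ₀ (k + 1)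
  rw [one_pow] at h3
  have h4 : ζ₀ - 1 ∣ 1 - ζ₀ := by
    rw [← neg_sub ζ₀ 1]; exact (dvd_neg).mpr dvd_rfl
  exact h4.trans h3

theorem prod_absNorm_le (S : Finset (HeightOneSpectrum (𝓞 F))) {p : ℕ} (hp : p.Prime)
    {ζ₀ : 𝓞 F} (hζ : IsPrimitiveRoot ζ₀ p) :
    ∏ v ∈ S, Ideal.absNorm v.asIdeal ^ ((p - 1) * e1 v ζ₀) ≤ p ^ Module.finrank ℚ F := by
  classical
  have hζne : ζ₀ ≠ 1 := hζ.ne_one hp.one_lt
  have hdvd : ∏ v ∈ S, v.asIdeal ^ ((p - 1) * e1 v ζ₀) ∣ Ideal.span {(ζ₀ - 1) ^ (p - 1)} := by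
    apply Finset.prod_dvd_of_coprime
    · intro v _ w _ hvw
      apply IsCoprime.pow
      rw [Ideal.isCoprime_iff_sup_eq]
      apply Ideal.IsMaximal.coprime_of_ne v.isMaximal w.isMaximal
      intro h
      exact hvw (HeightOneSpectrum.ext h)
    · intro v _
      rw [← Ideal.span_singleton_pow, mul_comm, pow_mul]
      exact pow_dvd_pow_of_dvd (pow_e1_dvd v hζne) _
  have hdvd2 : Ideal.span {(ζ₀ - 1) ^ (p - 1)} ∣ Ideal.span {(p : 𝓞 F)} := by
    rw [Ideal.dvd_iff_le, Ideal.span_singleton_le_span_singleton]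
    exact sub_one_pow_dvd_prime hp hζ
  have hle : Ideal.span {(p : 𝓞 F)} ≤ ∏ v ∈ S, v.asIdeal ^ ((p - 1) * e1 v ζ₀) :=
    Ideal.dvd_iff_le.mp (hdvd.trans hdvd2)
  have h1 := Ideal.absNorm_dvd_absNorm_of_le hle
  rw [Ideal.absNorm_span_natCast, RingOfIntegers.rank, map_prod] at h1
  simp only [map_pow] at h1
  exact Nat.le_of_dvd (pow_pos hp.pos _) h1

theorem localPow_insert {p : ℕ} (hp : p.Prime) {ζ : F} (hζ : IsPrimitiveRoot ζ p)
    (v : HeightOneSpectrum (𝓞 F)) (S : Finset (HeightOneSpectrum (𝓞 F))) [DecidableEq (HeightOneSpectrum (𝓞 F))] :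
    localPowSubgroup F p ζ hζ hp.one_lt (insert v S)
      = localPowSubgroup F p ζ hζ hp.one_lt {v} ⊓ localPowSubgroup F p ζ hζ hp.one_lt S := by
  ext x
  simp only [Subgroup.mem_inf, mem_localPowSubgroup, Finset.mem_insert, Finset.mem_singleton,
    forall_eq_or_imp, forall_eq]

theorem index_le_prod {p : ℕ} (hp : p.Prime) {ζ : F} (hζ : IsPrimitiveRoot ζ p)
    (ζ₀ : 𝓞 F) (hζ₀ : algebraMap (𝓞 F) F ζ₀ = ζ) (S : Finset (HeightOneSpectrum (𝓞 F))) :
    (localPowSubgroup F p ζ hζ hp.one_lt S).index ≠ 0 ∧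
    (localPowSubgroup F p ζ hζ hp.one_lt S).index
      ≤ ∏ v ∈ S, (p * (p * Ideal.absNorm v.asIdeal ^ ((p - 1) * e1 v ζ₀))) := by
  classical
  induction S using Finset.induction_on with
  | empty =>
    have : localPowSubgroup F p ζ hζ hp.one_lt ∅ = ⊤ := by
      ext x
      simp [mem_localPowSubgroup]
    rw [this, Subgroup.index_top]
    simp
  | insert v S hvS ih =>
    rw [localPow_insert hp hζ v S, Finset.prod_insert hvS]
    have h1 := index_single_le v hp hζ ζ₀ hζ₀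
    refine ⟨Subgroup.index_inf_ne_zero h1.1 ih.1, ?_⟩
    exact Subgroup.index_inf_le.trans (Nat.mul_le_mul h1.2 ih.2)

end Fermat.Agent.S14SI.LC

namespace Fermat.Agent.S14SI

open LC in
/-- **WP2 (local counts)**. -/
theorem localCount : LocalCount := by
  intro p F _ _ ζ S hp hζ
  obtain ⟨ζ₀, hζ₀⟩ := (IsIntegralClosure.isIntegral_iff (A := 𝓞 F)).mp (hζ.isIntegral hp.pos)
  have hζ₀prim : IsPrimitiveRoot ζ₀ p :=
    IsPrimitiveRoot.of_map_of_injective (f := algebraMap (𝓞 F) F) (by rw [hζ₀]; exact hζ)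
      RingOfIntegers.coe_injective
  have h := index_le_prod hp hζ ζ₀ hζ₀ S
  refine ⟨h.1, h.2.trans ?_⟩
  have h2 : ∏ v ∈ S, (p * (p * Ideal.absNorm v.asIdeal ^ ((p - 1) * e1 v ζ₀)))
      = p ^ (2 * S.card) * ∏ v ∈ S, Ideal.absNorm v.asIdeal ^ ((p - 1) * e1 v ζ₀) := by
    rw [Finset.prod_congr rfl (fun v _ => (mul_assoc p p _).symm), Finset.prod_mul_distrib,
      Finset.prod_const, ← pow_two, ← pow_mul]
  rw [h2, pow_add]
  exact Nat.mul_le_mul_left _ (prod_absNorm_le S hp hζ₀prim)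

end Fermat.Agent.S14SI
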