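import Fermat.Agent.S14.SI.Interface
import Fermat.Agent.S14.SI.Basic

/-!
# S14 / H2 Route I: the main theorem from its work packages
-/

set_option autoImplicit false

open NumberField IsDedekindDomain

namespace Fermat.Agent.S14SI

/-- The main theorem of Route I, from the work packages. -/
theorem mainThm_of (h1 : ExistsGoodS) (h2 : ChooseT) (h3 : KeyLemma) (h4 : ThetaCount) :
    MainThm := by
  intro p F _ _ ζ a hp hp2 hζ ha hnp
  classical
  -- the bad primes
  let B : Finset (HeightOneSpectrum (𝓞 F)) :=
    (finite_setOf_natCast_mem F hp.ne_zero).toFinset ∪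
      (finite_setOf_valuation_ne_one' F ha).toFinset
  obtain ⟨S, hBS, hgen⟩ := h1 F B
  have hSp : ContainsPrimesAbove F p S := by
    intro v hv
    exact hBS (Finset.mem_union_left _ (by simpa using hv))
  have haS : Units.mk0 a ha ∈ sUnits F S := by
    rw [mem_sUnits]
    intro v hv
    by_contra hne
    exact hv (by
      have : v ∈ B := Finset.mem_union_right _ (by simpa using hne)
      exact_mod_cast hBS this)
  obtain ⟨T, hdisj, hcard, hpow, hsurj⟩ := h2 p F ζ (Units.mk0 a ha) S hp hp2 hζ hSp haS
    (by simpa using hnp)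
  refine ⟨T, fun v hv => ⟨fun hpv => ?_, by simpa using hpow v hv⟩, ?_⟩
  · exact (Finset.disjoint_left.mp hdisj (hSp v hpv)) hv
  · exact h4 p F ζ S T hp hp2 hζ hgen hdisj hcard
      (fun x hx hloc => h3 p F ζ x S T hp hp2 hζ hSp hgen hdisj hsurj hx hloc)

end Fermat.Agent.S14SI
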