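import Fermat.Agent.S14.SI.SUnitRankZ
import Fermat.Agent.S14.SI.Interface
import Fermat.Agent.Lib.Herbrand.Mul

/-!
# S14 / Route I, WP1: the `S`-unit theorem modulo `p`

`|E_S / E_S ^ p| = p ^ (r₂ + |S|)` for a number field `F ∋ ζ_p` (`p` odd): `E_S` is finitely
generated of `ℤ`-rank `r₂ + |S| - 1` (`sUnitRankZ`; `F` is totally complex), its `p`-torsion is
`μ_p`, of order `p`, and for a finitely generated abelian group `G` one has
`[G : G ^ p] = p ^ rank G * |G[p]|` (the Herbrand quotient of the trivial action).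

Main results: `sUnitRank_index_range_pow` (the general index formula) and
`sUnitRank : SUnitRank`.
-/

set_option autoImplicit false

open NumberField IsDedekindDomain Module

namespace Fermat.Agent.S14SI

section General

variable {G : Type*} [CommGroup G]

/-- For a finitely generated abelian group `G` and a prime `p`:
`[G : G ^ p] = p ^ rank G * |G[p]|`, and the index is finite. -/
theorem sUnitRank_index_range_pow [Module.Finite ℤ (Additive G)] (p : ℕ) [hp : Fact p.Prime] :
    (powMonoidHom p : G →* G).range.index =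
      p ^ finrank ℤ (Additive G) * Nat.card (powMonoidHom p : G →* G).ker := by
  obtain ⟨b, hb, hkey, -, -⟩ :=
    Fermat.Agent.Herbrand.herbrand_prime_cyclic_mul (p := p) (MonoidHom.id G)
      (fun x => by rw [MonoidHom.coe_id, Function.iterate_id]; rfl)
  have htw_ker : (Fermat.Agent.Herbrand.twistHom (MonoidHom.id G)).ker = ⊤ := by
    rw [eq_top_iff]
    intro x _
    rw [Fermat.Agent.Herbrand.mem_ker_twistHom]
    rfl
  have htw_range : (Fermat.Agent.Herbrand.twistHom (MonoidHom.id G)).range = ⊥ := by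
    rw [eq_bot_iff]
    rintro _ ⟨x, rfl⟩
    rw [Subgroup.mem_bot, Fermat.Agent.Herbrand.twistHom_apply, MonoidHom.id_apply, div_self']
  have hnorm : Fermat.Agent.Herbrand.normHom p (MonoidHom.id G) = powMonoidHom p := by
    ext x
    rw [Fermat.Agent.Herbrand.normHom_apply, powMonoidHom_apply]
    simp only [MonoidHom.coe_id, Function.iterate_id, id_eq]
    rw [Finset.prod_const, Finset.card_range]
  rw [htw_ker, htw_range, hnorm] at hkey
  rw [htw_ker] at hb
  have hrk : finrank ℤ (Additive ↥(⊤ : Subgroup G)) = finrank ℤ (Additive G) := by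
    let e : Additive ↥(⊤ : Subgroup G) ≃+ Additive G :=
      MulEquiv.toAdditive (Subgroup.topEquiv : ↥(⊤ : Subgroup G) ≃* G)
    exact LinearEquiv.finrank_eq e.toIntLinearEquiv
  rw [hrk] at hb hkey
  have hb0 : b = 0 := by
    have h1 : (p - 1) * b = 0 := by omega
    rcases Nat.mul_eq_zero.mp h1 with h | h
    · have := hp.out.two_le
      omega
    · exact h
  rw [hb0, pow_zero, mul_one, Subgroup.relIndex_top_right, Subgroup.relIndex_bot_left] at hkey
  exact hkey

end General

section NumberField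

variable {F : Type} [Field F] [NumberField F]

/-- A `p`-th root of unity is an `S`-unit. -/
lemma sUnitRank_mem_sUnits_of_pow_eq_one (S : Set (HeightOneSpectrum (𝓞 F))) {p : ℕ}
    (hp : p ≠ 0) (x : Fˣ) (hx : x ^ p = 1) : x ∈ sUnits F S := by
  rw [mem_sUnits]
  intro v _
  have h1 : (v.valuation F (x : F)) ^ p = 1 := by
    rw [← Valuation.map_pow, ← Units.val_pow_eq_pow_val, hx, Units.val_one, Valuation.map_one]
  exact (pow_eq_one_iff.mp h1).resolve_right hp

/-- The `p`-torsion of `E_S` has `p` elements if `ζ_p ∈ F`. -/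
lemma sUnitRank_card_ker (S : Set (HeightOneSpectrum (𝓞 F))) {p : ℕ} (hp : p ≠ 0) {ζ : F}
    (hζ : IsPrimitiveRoot ζ p) :
    Nat.card (powMonoidHom p : ↥(sUnits F S) →* ↥(sUnits F S)).ker = p := by
  have : NeZero p := ⟨hp⟩
  have hcard : Nat.card (rootsOfUnity p F) = p := hζ.card_rootsOfUnity
  have h1 : ∀ x : ↥(powMonoidHom p : ↥(sUnits F S) →* ↥(sUnits F S)).ker,
      ((x.1 : ↥(sUnits F S)) : Fˣ) ∈ rootsOfUnity p F := by
    intro x
    have := x.2
    rw [MonoidHom.mem_ker, powMonoidHom_apply] at this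
    rw [mem_rootsOfUnity]
    have h2 := congrArg (Subtype.val : ↥(sUnits F S) → Fˣ) this
    rwa [Subgroup.coe_pow, Subgroup.coe_one] at h2
  have h2 : ∀ u : ↥(rootsOfUnity p F), (u : Fˣ) ∈ sUnits F S := fun u =>
    sUnitRank_mem_sUnits_of_pow_eq_one S hp u.1 ((mem_rootsOfUnity _ _).mp u.2)
  have h3 : ∀ u : ↥(rootsOfUnity p F),
      (⟨(u : Fˣ), h2 u⟩ : ↥(sUnits F S)) ∈
        (powMonoidHom p : ↥(sUnits F S) →* ↥(sUnits F S)).ker := by
    intro u
    rw [MonoidHom.mem_ker, powMonoidHom_apply]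
    apply Subtype.ext
    rw [Subgroup.coe_pow, Subgroup.coe_one]
    exact (mem_rootsOfUnity _ _).mp u.2
  refine Eq.trans (Nat.card_congr (β := ↥(rootsOfUnity p F)) ?_) hcard
  exact
    { toFun := fun x => ⟨((x.1 : ↥(sUnits F S)) : Fˣ), h1 x⟩
      invFun := fun u => ⟨⟨(u : Fˣ), h2 u⟩, h3 u⟩
      left_inv := fun x => rfl
      right_inv := fun u => rfl }

/-- The relative index of `E_S ^ p` in `E_S` is the index of the range of the `p`-th power map. -/
lemma sUnitRank_relIndex_eq (S : Set (HeightOneSpectrum (𝓞 F))) (p : ℕ) :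
    (sUnitsPow F p S).relIndex (sUnits F S) =
      (powMonoidHom p : ↥(sUnits F S) →* ↥(sUnits F S)).range.index := by
  rw [Subgroup.relIndex]
  congr 1
  ext x
  rw [Subgroup.mem_subgroupOf, MonoidHom.mem_range]
  constructor
  · rintro ⟨y, hy, hyx⟩
    exact ⟨⟨y, hy⟩, Subtype.ext hyx⟩
  · rintro ⟨y, rfl⟩
    exact ⟨(y : Fˣ), y.2, rfl⟩

/-- A number field containing a primitive `p`-th root of unity, `p > 2`, has
`[F : ℚ] / 2` infinite places. -/
lemma sUnitRank_card_infinitePlace {p : ℕ} (hp : 2 < p) {ζ : F} (hζ : IsPrimitiveRoot ζ p) :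
    Nat.card (InfinitePlace F) = finrank ℚ F / 2 := by
  have h0 := NumberField.InfinitePlace.IsPrimitiveRoot.nrRealPlaces_eq_zero_of_two_lt hp hζ
  have h1 := InfinitePlace.card_add_two_mul_card_eq_rank F
  have h2 := InfinitePlace.card_eq_nrRealPlaces_add_nrComplexPlaces F
  rw [Nat.card_eq_fintype_card, h2, h0, zero_add]
  rw [h0, zero_add] at h1
  omega

end NumberField

/-- **WP1 (`S`-unit theorem modulo `p`)**: `|E_S / E_S ^ p| = p ^ (r₂ + |S|)`. -/
theorem sUnitRank : SUnitRank := by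
  intro p F _ _ ζ S hp hp2 hζ
  have : Fact p.Prime := ⟨hp⟩
  obtain ⟨hfin, hrank⟩ := sUnitRankZ F (S : Set (HeightOneSpectrum (𝓞 F))) S.finite_toSet
  have hp3 : 2 < p := lt_of_le_of_ne hp.two_le (Ne.symm hp2)
  rw [sUnitRank_relIndex_eq, sUnitRank_index_range_pow p, sUnitRank_card_ker _ hp.ne_zero hζ,
    ← pow_succ]
  congr 1
  rw [sUnitRank_card_infinitePlace hp3 hζ, Set.ncard_coe_finset] at hrank
  exact hrank

end Fermat.Agent.S14SI
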