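import Fermat.Agent.S14.SI.Interface

/-!
# S14 / H2 Route I, WP3'': the class of a prime which splits completely is a norm class
(helper12)
-/

set_option autoImplicit false

open NumberField IsDedekindDomain
open scoped nonZeroDivisors

namespace Fermat.Agent.S14SI

/-- If `v` splits completely in the Galois extension `M/F`, every prime above `v` has inertia
degree one. -/
theorem wp3_inertiaDeg_eq_one_of_splitsCompletely (F M : Type*) [Field F] [NumberField F]
    [Field M] [NumberField M] [Algebra F M] [IsGalois F M] (v : HeightOneSpectrum (𝓞 F))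
    (h : SplitsCompletely F M v) (P : Ideal (𝓞 M)) [P.IsPrime] [P.LiesOver v.asIdeal] :
    P.inertiaDeg (𝓞 F) = 1 ∧ P.ramificationIdx (𝓞 F) = 1 := by
  have hfund := Ideal.ncard_primesOver_mul_ramificationIdxIn_mul_inertiaDegIn v.asIdeal (𝓞 M)
    Gal(M/F)
  rw [IsGaloisGroup.card_eq_finrank Gal(M/F) F M] at hfund
  unfold SplitsCompletely at h
  rw [h] at hfund
  have hpos : 0 < Module.finrank F M := Module.finrank_pos
  have hone : v.asIdeal.ramificationIdxIn (𝓞 M) * v.asIdeal.inertiaDegIn (𝓞 M) = 1 := by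
    have := Nat.eq_of_mul_eq_mul_left hpos (hfund.trans (mul_one _).symm)
    exact this
  have hf : v.asIdeal.inertiaDegIn (𝓞 M) = 1 := Nat.eq_one_of_mul_eq_one_left hone
  have he : v.asIdeal.ramificationIdxIn (𝓞 M) = 1 := Nat.eq_one_of_mul_eq_one_right hone
  refine ⟨?_, ?_⟩
  · rw [← Ideal.inertiaDegIn_eq_inertiaDeg v.asIdeal P Gal(M/F)]
    exact hf
  · rw [← Ideal.ramificationIdxIn_eq_ramificationIdx v.asIdeal P Gal(M/F)]
    exact he

/-- **WP3''**: the class of a prime which splits completely in the Galois extension `M/F` is a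
norm class. -/
theorem splitNormClass : SplitNormClass := by
  intro F M _ _ _ _ _ _ v h
  have hpos : 0 < Module.finrank F M := Module.finrank_pos
  have hne : (v.asIdeal.primesOver (𝓞 M)).Nonempty := by
    by_contra hcon
    rw [Set.not_nonempty_iff_eq_empty] at hcon
    unfold SplitsCompletely at h
    rw [hcon, Set.ncard_empty] at h
    omega
  obtain ⟨P, hPprime, hPover⟩ := hne
  have := hPprime
  have := hPover
  have hP0 : P ≠ ⊥ := Ideal.ne_bot_of_liesOver_of_ne_bot v.ne_bot P
  have : v.asIdeal.IsMaximal := v.isMaximal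
  have : P.IsMaximal := Ideal.IsMaximal.of_liesOver_isMaximal P v.asIdeal
  have hf := (wp3_inertiaDeg_eq_one_of_splitsCompletely F M v h P).1
  have hnorm : Ideal.relNorm (𝓞 F) P = v.asIdeal := by
    rw [Ideal.relNorm_eq_pow_of_isMaximal P v.asIdeal, hf, pow_one]
  refine ⟨⟨P, mem_nonZeroDivisors_of_ne_zero hP0⟩,
    ⟨v.asIdeal, mem_nonZeroDivisors_of_ne_zero v.ne_bot⟩, hnorm.symm, rfl⟩

end Fermat.Agent.S14SI
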