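import Fermat.Agent.S14.SI.Assembly
import Fermat.Agent.S14.SI.MainThm
import Fermat.Agent.S14.SI.ChooseT
import Fermat.Agent.S14.SI.KeyLemma
import Fermat.Agent.S14.SI.KummerSplits
import Fermat.Agent.S14.SI.KummerNonSplit
import Fermat.Agent.S14.SI.LocalCount
import Fermat.Agent.S14.SI.LocalCyclic
import Fermat.Agent.S14.SI.SplitNormClass
import Fermat.Agent.S14.SI.ExistsGoodS
import Fermat.Agent.S14.SI.ThetaCount
import Fermat.Agent.S14.SI.TameHerbrand
import Fermat.Agent.S14.SI.TameH1
import Fermat.Agent.S14.SI.TameNonNorm
import Fermat.Agent.S14.SI.Tame
import Fermat.Agent.S14.SI.LocalNormProper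
import Fermat.Agent.S14.SI.SUnitRank

/-!
# S14 / H2 Route I (algebraic): wiring

All work packages of Route I are proved; this file wires them together.  The results are the
Kummer-theoretic core of class field theory modulo `p` at finite level, for a number field `F`
containing a primitive `p`-th root of unity (`p` odd):

* `tameFirstIneq` : the tame first inequality;
* `keyLemmaSI` : an `(S ∪ T)`-unit which is a local `p`-th power at all primes of `S` is a
  `p`-th power (`S ⊇ {v ∣ p}` generating the class group, `E_S → ∏_T k_v^× / p` surjective);
* `kummerNonSplit`, `chooseTSI`, `thetaCountSI` : auxiliary primes and the index computation;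
* `mainThmSI`, `secondIneqKummer_routeI` : the second inequality (Kummer case), algebraically.
-/

set_option autoImplicit false

namespace Fermat.Agent.S14SI

/-- The tame first inequality. -/
theorem tameFirstIneq : TameFirstIneq :=
  tameFirstIneq_of tameHerbrand_uncond tameH1 kummerUnram (tameNonNorm_of localNormProper)

/-- The key lemma. -/
theorem keyLemmaSI : KeyLemma :=
  keyLemma tameFirstIneq kummerSplits

/-- Primes with prescribed Kummer behaviour. -/
theorem kummerNonSplit : KummerNonSplit :=
  kummerNonSplit_of_kummerSplits kummerSplits

/-- The choice of the auxiliary set `T`. -/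
theorem chooseTSI : ChooseT :=
  chooseT sUnitRank kummerNonSplit localCyclic

/-- The index computation. -/
theorem thetaCountSI : ThetaCount :=
  thetaCount sUnitRank localCount

/-- The main theorem of Route I. -/
theorem mainThmSI : MainThm :=
  mainThm_of existsGoodS chooseTSI keyLemmaSI thetaCountSI

/-- The second inequality, Kummer case, by the algebraic route. -/
theorem secondIneqKummer_routeI : Fermat.Agent.S14.SecondIneqKummer :=
  secondIneqKummer_of mainThmSI kummerSplits splitNormClass

end Fermat.Agent.S14SI
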