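import Fermat.Agent.S14.SI.TameInterface
import Fermat.Agent.S14.FirstIneq.Ambiguous

/-!
# S14 / H2 Route I: valuations and Galois conjugation (helper90)

* `intValuation_equivOfRingEquiv`, `valuation_equivOfRingEquiv`: transport of adic valuations
  along a ring automorphism of a Dedekind domain.
* `galPrime τ w`: the prime `τ w` of `𝓞 M` for `τ ∈ Gal(M/F)`, with
  `(galPrime τ w).valuation M (τ x) = w.valuation M x`.
* `exists_galPrime_eq`: transitivity of the Galois action on the primes above a prime of `F`.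
-/

set_option autoImplicit false

open NumberField IsDedekindDomain

namespace Fermat.Agent.S14SI

section Transport

variable {R K : Type*} [CommRing R] [IsDedekindDomain R] [Field K] [Algebra R K]
  [IsFractionRing R K]

open HeightOneSpectrum WithZero

omit [IsDedekindDomain R] in
theorem mem_map_ringEquiv_iff (e : R ≃+* R) (J : Ideal R) (r : R) :
    e r ∈ J.map (e : R →+* R) ↔ r ∈ J := by
  constructor
  · intro h
    obtain ⟨x, hx, hxr⟩ := (Ideal.mem_map_of_equiv e (e r)).mp h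
    rwa [← e.injective hxr]
  · intro h
    exact Ideal.mem_map_of_mem _ h

omit [IsDedekindDomain R] in
theorem asIdeal_equivOfRingEquiv (e : R ≃+* R) (w : HeightOneSpectrum R) :
    (equivOfRingEquiv e w).asIdeal = w.asIdeal.map (e : R →+* R) := by
  show w.asIdeal.comap (e.symm : R →+* R) = _
  exact Ideal.comap_symm e

theorem mem_asIdeal_equivOfRingEquiv_pow (e : R ≃+* R) (w : HeightOneSpectrum R) (r : R)
    (n : ℕ) : e r ∈ (equivOfRingEquiv e w).asIdeal ^ n ↔ r ∈ w.asIdeal ^ n := by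
  rw [asIdeal_equivOfRingEquiv, ← Ideal.map_pow]
  exact mem_map_ringEquiv_iff e _ r

/-- Transport of the integral adic valuation along a ring automorphism. -/
theorem intValuation_equivOfRingEquiv (e : R ≃+* R) (w : HeightOneSpectrum R) (r : R) :
    (equivOfRingEquiv e w).intValuation (e r) = w.intValuation r := by
  rcases eq_or_ne r 0 with rfl | hr
  · simp
  have her : e r ≠ 0 := fun h => hr (by simpa using h)
  have key : ∀ n : ℕ, (equivOfRingEquiv e w).intValuation (e r) ≤ exp (-(n : ℤ)) ↔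
      w.intValuation r ≤ exp (-(n : ℤ)) := fun n => by
    rw [intValuation_le_pow_iff_mem, intValuation_le_pow_iff_mem,
      mem_asIdeal_equivOfRingEquiv_pow]
  have h1 := w.intValuation_if_neg hr
  have h2 := (equivOfRingEquiv e w).intValuation_if_neg her
  refine le_antisymm ?_ ?_
  · rw [h1]
    exact (key _).mpr h1.le
  · rw [h2]
    exact (key _).mp h2.le

/-- Transport of the adic valuation along a ring automorphism. -/
theorem valuation_equivOfRingEquiv (e : R ≃+* R) (e' : K ≃+* K)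
    (h : ∀ r : R, e' (algebraMap R K r) = algebraMap R K (e r)) (w : HeightOneSpectrum R)
    (x : K) : (equivOfRingEquiv e w).valuation K (e' x) = w.valuation K x := by
  obtain ⟨a, b, _, rfl⟩ := IsFractionRing.div_surjective (A := R) x
  rw [map_div₀, h, h, map_div₀, map_div₀, valuation_of_algebraMap, valuation_of_algebraMap,
    valuation_of_algebraMap, valuation_of_algebraMap, intValuation_equivOfRingEquiv,
    intValuation_equivOfRingEquiv]

end Transport

section Galois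

variable {F M : Type} [Field F] [NumberField F] [Field M] [NumberField M] [Algebra F M]
  [IsGalois F M]

/-- The prime `τ w` of `𝓞 M`. -/
noncomputable def galPrime (τ : M ≃ₐ[F] M) (w : HeightOneSpectrum (𝓞 M)) :
    HeightOneSpectrum (𝓞 M) :=
  HeightOneSpectrum.equivOfRingEquiv
    ((galRestrict (𝓞 F) F M (𝓞 M) τ : 𝓞 M ≃ₐ[𝓞 F] 𝓞 M) : 𝓞 M ≃+* 𝓞 M) w

theorem galPrime_valuation (τ : M ≃ₐ[F] M) (w : HeightOneSpectrum (𝓞 M)) (x : M) :
    (galPrime τ w).valuation M (τ x) = w.valuation M x := by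
  refine valuation_equivOfRingEquiv
    ((galRestrict (𝓞 F) F M (𝓞 M) τ : 𝓞 M ≃ₐ[𝓞 F] 𝓞 M) : 𝓞 M ≃+* 𝓞 M) (τ : M ≃+* M) ?_ w x
  intro r
  exact (algebraMap_galRestrict_apply (𝓞 F) τ r).symm

theorem galPrime_asIdeal (τ : M ≃ₐ[F] M) (w : HeightOneSpectrum (𝓞 M)) :
    (galPrime τ w).asIdeal = w.asIdeal.map (galRestrict (𝓞 F) F M (𝓞 M) τ) :=
  asIdeal_equivOfRingEquiv _ w

theorem galPrime_comap (τ : M ≃ₐ[F] M) (w : HeightOneSpectrum (𝓞 M)) :
    (galPrime τ w).asIdeal.comap (algebraMap (𝓞 F) (𝓞 M)) =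
      w.asIdeal.comap (algebraMap (𝓞 F) (𝓞 M)) := by
  ext a
  rw [Ideal.mem_comap, Ideal.mem_comap]
  have h := mem_asIdeal_equivOfRingEquiv_pow
    ((galRestrict (𝓞 F) F M (𝓞 M) τ : 𝓞 M ≃ₐ[𝓞 F] 𝓞 M) : 𝓞 M ≃+* 𝓞 M) w
    (algebraMap (𝓞 F) (𝓞 M) a) 1
  rw [pow_one, pow_one] at h
  rw [← h]
  have h2 : ((galRestrict (𝓞 F) F M (𝓞 M) τ : 𝓞 M ≃ₐ[𝓞 F] 𝓞 M) : 𝓞 M ≃+* 𝓞 M)
      (algebraMap (𝓞 F) (𝓞 M) a) = algebraMap (𝓞 F) (𝓞 M) a :=
    (galRestrict (𝓞 F) F M (𝓞 M) τ).commutes a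
  rw [h2]
  rfl

/-- Transitivity of the Galois action on the primes above a prime of the base. -/
theorem exists_galPrime_eq (w w' : HeightOneSpectrum (𝓞 M))
    (h : w.asIdeal.comap (algebraMap (𝓞 F) (𝓞 M)) =
      w'.asIdeal.comap (algebraMap (𝓞 F) (𝓞 M))) :
    ∃ τ : M ≃ₐ[F] M, galPrime τ w = w' := by
  have : w.asIdeal.LiesOver (w.asIdeal.comap (algebraMap (𝓞 F) (𝓞 M))) := ⟨rfl⟩
  have : w'.asIdeal.LiesOver (w.asIdeal.comap (algebraMap (𝓞 F) (𝓞 M))) := ⟨h⟩
  obtain ⟨τ, hτ⟩ := Ideal.exists_smul_eq_of_isGaloisGroup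
    (w.asIdeal.comap (algebraMap (𝓞 F) (𝓞 M))) w.asIdeal w'.asIdeal (M ≃ₐ[F] M)
  refine ⟨τ, ?_⟩
  ext1
  rw [galPrime_asIdeal, ← hτ]
  exact (Fermat.Agent.S14Amb.smul_eq_map_galRestrict F M τ w.asIdeal).symm

end Galois

end Fermat.Agent.S14SI
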