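import Fermat.Agent.S14.SI.Basic

/-!
# S14 / H2 Route I: the Kummer extension `F(a^{1/p})` of a number field as a package

For a number field `F ∋ ζ_p` and `a ∈ F` which is not a `p`-th power, `exists_kummer_extension`
provides a number field `M` (in `Type`), Galois of degree `p` over `F`, generated by `α` with
`α ^ p = a`, together with the Kummer-theory statement: an element of `F` which becomes a `p`-th
power in `M` lies in `⟨a⟩ (Fˣ)^p`.
-/

set_option autoImplicit false

open NumberField Polynomial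

namespace Fermat.Agent.S14SI

section field

variable {F : Type} [Field F]

/-- Kummer theory inside `M = F(α)`, `α ^ p = a`, `[M : F] = p` prime, `ζ_p ∈ F`: if `u ∈ F` is a
`p`-th power in `M`, then `u = a ^ i * b ^ p` with `b ∈ F`. -/
theorem kummer_pow_of_pow_eq {M : Type} [Field M] [Algebra F M] [IsGalois F M]
    [FiniteDimensional F M] {p : ℕ} (hp : p.Prime) {ζ : F} (hζ : IsPrimitiveRoot ζ p)
    (hfin : Module.finrank F M = p) {a : F} {α : M} (hα : α ^ p = algebraMap F M a)
    (hαF : ∀ b : F, algebraMap F M b ≠ α) {u : F} {β : M} (hβ : β ^ p = algebraMap F M u) :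
    ∃ (i : ℕ) (b : F), u = a ^ i * b ^ p := by
  have hp' : Fact p.Prime := ⟨hp⟩
  have hpne : NeZero p := ⟨hp.ne_zero⟩
  have hζM : IsPrimitiveRoot (algebraMap F M ζ) p :=
    hζ.map_of_injective (algebraMap F M).injective
  by_cases hβ0 : β = 0
  · refine ⟨0, 0, ?_⟩
    rw [hβ0, zero_pow hp.ne_zero] at hβ
    have : u = 0 := (algebraMap F M).injective (by rw [← hβ, map_zero])
    rw [this, zero_pow hp.ne_zero, mul_zero]
  have hα0 : α ≠ 0 := by
    rintro rfl
    exact hαF 0 (map_zero _)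
  -- a nontrivial automorphism
  have hαfix : ¬ ∀ f : Gal(M/F), f α = α := by
    intro h
    obtain ⟨b, hb⟩ := (IsGalois.mem_range_algebraMap_iff_fixed α).mpr h
    exact hαF b hb
  push Not at hαfix
  obtain ⟨σ, hσ⟩ := hαfix
  have hσ1 : σ ≠ 1 := by
    rintro rfl
    exact hσ rfl
  have hcard : Nat.card Gal(M/F) = p := by rw [IsGalois.card_aut_eq_finrank, hfin]
  have htop : Subgroup.zpowers σ = ⊤ := zpowers_eq_top_of_prime_card hcard hσ1
  -- `σ α = ζ ^ i α`, `σ β = ζ ^ j β`
  have hroot : ∀ x : M, x ≠ 0 → (∃ c : F, x ^ p = algebraMap F M c) →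
      ∃ k < p, algebraMap F M ζ ^ k * x = σ x := by
    rintro x hx ⟨c, hc⟩
    have h1 : (σ x / x) ^ p = 1 := by
      rw [div_pow, ← map_pow, hc, AlgEquiv.commutes, div_self]
      rw [← hc]
      exact pow_ne_zero _ hx
    obtain ⟨k, hk, hk'⟩ := hζM.eq_pow_of_pow_eq_one h1
    exact ⟨k, hk, by rw [hk', div_mul_cancel₀ _ hx]⟩
  obtain ⟨i, hi, hiα⟩ := hroot α hα0 ⟨a, hα⟩
  obtain ⟨j, hj, hjβ⟩ := hroot β hβ0 ⟨u, hβ⟩
  have hi0 : i ≠ 0 := by
    rintro rfl
    rw [pow_zero, one_mul] at hiα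
    exact hσ hiα.symm
  -- choose `k` with `i * k ≡ j mod p`
  have hiZ : (i : ZMod p) ≠ 0 := by
    intro h
    rw [ZMod.natCast_eq_zero_iff] at h
    exact hi0 (Nat.eq_zero_of_dvd_of_lt h hi)
  set k : ℕ := ((j : ZMod p) * (i : ZMod p)⁻¹).val with hk
  have hik : i * k ≡ j [MOD p] := by
    rw [← ZMod.natCast_eq_natCast_iff]
    push_cast
    rw [hk, ZMod.natCast_zmod_val, mul_comm (j : ZMod p), ← mul_assoc, mul_inv_cancel₀ hiZ,
      one_mul]
  have hζpow : algebraMap F M ζ ^ (i * k) = algebraMap F M ζ ^ j := by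
    have hmod : ∀ n : ℕ, algebraMap F M ζ ^ n = algebraMap F M ζ ^ (n % p) := by
      intro n
      conv_lhs => rw [← Nat.mod_add_div n p, pow_add, pow_mul, hζM.pow_eq_one, one_pow, mul_one]
    rw [hmod (i * k), hmod j, hik]
  -- `γ = β / α ^ k` is fixed by `σ`
  have hσαk : σ (α ^ k) = algebraMap F M ζ ^ (i * k) * α ^ k := by
    rw [map_pow, ← hiα, mul_pow, pow_mul]
  have hγ : σ (β / α ^ k) = β / α ^ k := by
    rw [map_div₀, hσαk, ← hjβ, hζpow, mul_div_mul_left]
    exact pow_ne_zero _ (hζM.ne_zero hp.ne_zero)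
  have hγall : ∀ f : Gal(M/F), f (β / α ^ k) = β / α ^ k := by
    intro f
    have hf : f ∈ Subgroup.zpowers σ := htop ▸ Subgroup.mem_top f
    obtain ⟨m, rfl⟩ := Subgroup.mem_zpowers_iff.mp hf
    have hstab : σ ∈ MulAction.stabilizer Gal(M/F) (β / α ^ k) := hγ
    exact (Subgroup.zpow_mem _ hstab m)
  obtain ⟨b, hb⟩ := (IsGalois.mem_range_algebraMap_iff_fixed (β / α ^ k)).mpr hγall
  refine ⟨k, b, (algebraMap F M).injective ?_⟩
  rw [map_mul, map_pow, map_pow, hb, ← hα, ← hβ, div_pow, ← pow_mul, ← pow_mul, mul_comm k p,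
    mul_div_cancel₀]
  exact pow_ne_zero _ hα0

end field

section numberField

variable {F : Type} [Field F] [NumberField F]

/-- **The Kummer extension as a package.** For a number field `F ∋ ζ_p` and `a ∈ F` not a `p`-th
power there is a number field `M` (in `Type`), Galois of degree `p` over `F`, and `α ∈ M ∖ F` with
`α ^ p = a`. -/
theorem exists_kummer_extension {p : ℕ} (hp : p.Prime) {ζ : F} (hζ : IsPrimitiveRoot ζ p) {a : F}
    (ha : ∀ b : F, b ^ p ≠ a) :
    ∃ (M : Type) (_ : Field M) (_ : NumberField M) (_ : Algebra F M) (_ : IsGalois F M) (α : M),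
      Module.finrank F M = p ∧ α ^ p = algebraMap F M a ∧ (∀ b : F, algebraMap F M b ≠ α) := by
  have H : Irreducible (X ^ p - C a : F[X]) := X_pow_sub_C_irreducible_of_prime hp ha
  have hfact : Fact (Irreducible (X ^ p - C a : F[X])) := ⟨H⟩
  have hprim : (primitiveRoots p F).Nonempty :=
    ⟨ζ, (mem_primitiveRoots hp.pos).mpr hζ⟩
  have hsplit := isSplittingField_AdjoinRoot_X_pow_sub_C hprim H
  have hgal : IsGalois F (AdjoinRoot (X ^ p - C a : F[X])) :=
    isGalois_of_isSplittingField_X_pow_sub_C hprim H _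
  have hfr : Module.finrank F (AdjoinRoot (X ^ p - C a : F[X])) = p :=
    finrank_of_isSplittingField_X_pow_sub_C hprim H _
  have hfd : FiniteDimensional F (AdjoinRoot (X ^ p - C a : F[X])) :=
    Polynomial.IsSplittingField.finiteDimensional _ (X ^ p - C a : F[X])
  have hnf : NumberField (AdjoinRoot (X ^ p - C a : F[X])) := NumberField.of_module_finite F _
  refine ⟨AdjoinRoot (X ^ p - C a : F[X]), inferInstance, hnf, inferInstance, hgal,
    AdjoinRoot.root _, hfr, ?_, ?_⟩
  · exact root_X_pow_sub_C_pow p a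
  · intro b hb
    -- then `b ^ p = a`
    apply ha b
    apply (algebraMap F (AdjoinRoot (X ^ p - C a : F[X]))).injective
    rw [map_pow, hb]
    exact root_X_pow_sub_C_pow p a

end numberField

end Fermat.Agent.S14SI
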